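import Mathlib
import Fermat.Agent.S30.GaussDVR
import Fermat.Agent.S30.Congr
import Fermat.Agent.S34.TrivModE

/-!
# S34 / Program U, brick SSb.Modular: the Kronecker congruence on the Gauss ring

`O` a discrete valuation ring with residue field of characteristic `ℓ`, `E ⊇ O` a field,
`V = GaussDVR.V O E ⊆ E((q))` the Gauss ring, `red : V → k((q))` the reduction.

A coefficient endomorphism `σ` of `E` preserving `O` and inducing the `ℓ`-power Frobenius on the
residue field ("a Frobenius lift") satisfies, for every `y ∈ V`,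

  `(σ y)(q^ℓ) ∈ V`   and   `red ((σ y)(q^ℓ)) = (red y) ^ ℓ`.

With `y = σ⁻¹ r` this is the Kronecker congruence `β(r) ≡ α((σ⁻¹ r)^ℓ)` at the Gauss valuation
for the two degeneracy maps `α` (inclusion) and `β` (`q ↦ q^ℓ`), i.e. the reduction of `β` is
`F = Frob_ℓ ∘ (σ⁻¹ mod π)`.

* `rho_qExpand_coeffMap`, `qExpand_coeffMap_mem_V`, `red_qExpand_coeffMap` : generic statement.
* `qExpand_mem_V`, `red_qExpand` : `x ↦ x(q^ℓ)` preserves `V` and commutes with `red`.
* `residue_sOE_frob` : for `E ⊆ ℚ̄` normal over `ℚ`, `O = A ∩ E` and `σ` a Frobenius element at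
  `A`, the restriction `σ|_E` is a Frobenius lift on `O`.
* `red_qExpand_frob` : the instantiation.
-/

set_option autoImplicit false
set_option linter.unusedSectionVars false
set_option linter.style.haveILetI false
set_option synthInstance.maxHeartbeats 400000

open ModularCurve

noncomputable section

namespace Fermat.Agent.S34.Modular.Kronecker

open Fermat.Agent.S30

/-! ### Generic statement -/

section Generic

variable {R : Type*} [CommRing R]

/-- The two expansion operators agree. -/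
theorem expand_eq_qExpand (ℓ : ℕ) [NeZero ℓ] (hℓ : 0 < ℓ) (x : LaurentSeries R) :
    Congr.expand ℓ hℓ x = qExpand R ℓ x := by
  ext n
  by_cases hn : (ℓ : ℤ) ∣ n
  · obtain ⟨m, rfl⟩ := hn
    rw [Congr.coeff_expand_mul, qExpand_coeff_mul]
  · rw [Congr.coeff_expand_of_not_dvd ℓ hℓ _ hn, qExpand_coeff_of_not_dvd _ _ hn]

variable {O E : Type*} [CommRing O] [IsDomain O] [IsDiscreteValuationRing O] [Field E]
  [Algebra O E] [FaithfulSMul O E]

/-- `x ↦ x(q^ℓ)` commutes with `ι`. -/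
theorem qExpand_iota (ℓ : ℕ) [NeZero ℓ] (a : LaurentSeries O) :
    qExpand E ℓ (GaussDVR.iota O E a) = GaussDVR.iota O E (qExpand O ℓ a) :=
  (ModularCurve.coeffMap_qExpand (algebraMap O E) ℓ a).symm

/-- `x ↦ x(q^ℓ)` commutes with `ρ`. -/
theorem rho_qExpand (ℓ : ℕ) [NeZero ℓ] (a : LaurentSeries O) :
    GaussDVR.rho O (qExpand O ℓ a) = qExpand (IsLocalRing.ResidueField O) ℓ (GaussDVR.rho O a) :=
  ModularCurve.coeffMap_qExpand (IsLocalRing.residue O) ℓ a

theorem qExpand_injective (S : Type*) [CommRing S] (ℓ : ℕ) [NeZero ℓ] :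
    Function.Injective (qExpand S ℓ) := by
  intro x y h
  ext n
  have := congrArg (fun z : LaurentSeries S => z.coeff ((ℓ : ℤ) * n)) h
  simpa using this

/-- `x ↦ x(q^ℓ)` preserves the Gauss ring. -/
theorem qExpand_mem_V (ℓ : ℕ) [NeZero ℓ] {y : LaurentSeries E} (hy : y ∈ GaussDVR.V O E) :
    qExpand E ℓ y ∈ GaussDVR.V O E := by
  obtain ⟨a, b, hb, h⟩ := (GaussDVR.mem_V O E).mp hy
  refine (GaussDVR.mem_V O E).mpr ⟨qExpand O ℓ a, qExpand O ℓ b, ?_, ?_⟩
  · rw [rho_qExpand]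
    intro h0
    exact hb (qExpand_injective _ ℓ (by rw [h0, map_zero]))
  · rw [← qExpand_iota, ← qExpand_iota, ← map_mul, h]

/-- `x ↦ x(q^ℓ)` commutes with the reduction. -/
theorem red_qExpand (ℓ : ℕ) [NeZero ℓ] {y : LaurentSeries E} (hy : y ∈ GaussDVR.V O E) :
    GaussDVR.red O E ⟨qExpand E ℓ y, qExpand_mem_V ℓ hy⟩
      = qExpand (IsLocalRing.ResidueField O) ℓ (GaussDVR.red O E ⟨y, hy⟩) := by
  obtain ⟨a, b, hb, h⟩ := (GaussDVR.mem_V O E).mp hy
  have hb' : GaussDVR.rho O (qExpand O ℓ b) ≠ 0 := by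
    rw [rho_qExpand]
    intro h0
    exact hb (qExpand_injective _ ℓ (by rw [h0, map_zero]))
  have h' : ((⟨qExpand E ℓ y, qExpand_mem_V ℓ hy⟩ : GaussDVR.V O E) : LaurentSeries E)
      * GaussDVR.iota O E (qExpand O ℓ b) = GaussDVR.iota O E (qExpand O ℓ a) := by
    rw [← qExpand_iota, ← qExpand_iota, ← map_mul, h]
  rw [GaussDVR.red_eq O E _ _ _ hb' h', GaussDVR.red_eq O E ⟨y, hy⟩ a b hb h, rho_qExpand,
    rho_qExpand, map_div₀]

variable (ℓ : ℕ) [Fact ℓ.Prime] [CharP (IsLocalRing.ResidueField O) ℓ]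

/-- A coefficient action inducing Frobenius on the residue field: `ρ (σ a) = φ (ρ a)`. -/
theorem rho_coeffMap_frob (σO : O →+* O)
    (hres : ∀ a : O, IsLocalRing.residue O (σO a) = IsLocalRing.residue O a ^ ℓ)
    (a : LaurentSeries O) :
    GaussDVR.rho O (coeffMap σO a)
      = coeffMap (frobenius (IsLocalRing.ResidueField O) ℓ) (GaussDVR.rho O a) := by
  ext k
  simp only [coeffMap_coeff]
  rw [hres, frobenius_def]

/-- **Kronecker congruence on integral series**: `ρ ((σ a)(q^ℓ)) = (ρ a)^ℓ`. -/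
theorem rho_qExpand_coeffMap (σO : O →+* O)
    (hres : ∀ a : O, IsLocalRing.residue O (σO a) = IsLocalRing.residue O a ^ ℓ)
    (a : LaurentSeries O) :
    haveI : NeZero ℓ := ⟨(Fact.out : ℓ.Prime).ne_zero⟩
    GaussDVR.rho O (qExpand O ℓ (coeffMap σO a)) = GaussDVR.rho O a ^ ℓ := by
  haveI : NeZero ℓ := ⟨(Fact.out : ℓ.Prime).ne_zero⟩
  rw [rho_qExpand, rho_coeffMap_frob ℓ σO hres,
    ← expand_eq_qExpand ℓ (Fact.out : ℓ.Prime).pos, Congr.expand_coeffMap_frobenius]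

/-- The Gauss ring is stable under `y ↦ (σ y)(q^ℓ)` for a Frobenius lift `σ`. -/
theorem qExpand_coeffMap_mem_V (σO : O →+* O)
    (hres : ∀ a : O, IsLocalRing.residue O (σO a) = IsLocalRing.residue O a ^ ℓ)
    (σE : E →+* E) (hσ : ∀ a : O, σE (algebraMap O E a) = algebraMap O E (σO a))
    {y : LaurentSeries E} (hy : y ∈ GaussDVR.V O E) :
    haveI : NeZero ℓ := ⟨(Fact.out : ℓ.Prime).ne_zero⟩
    qExpand E ℓ (coeffMap σE y) ∈ GaussDVR.V O E := by
  haveI : NeZero ℓ := ⟨(Fact.out : ℓ.Prime).ne_zero⟩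
  obtain ⟨a, b, hb, h⟩ := (GaussDVR.mem_V O E).mp hy
  refine (GaussDVR.mem_V O E).mpr
    ⟨qExpand O ℓ (coeffMap σO a), qExpand O ℓ (coeffMap σO b), ?_, ?_⟩
  · rw [rho_qExpand_coeffMap ℓ σO hres]
    exact pow_ne_zero _ hb
  · rw [← qExpand_iota, ← qExpand_iota, ← TrivModE.coeffMap_iota σO σE hσ,
      ← TrivModE.coeffMap_iota σO σE hσ, ← map_mul, ← map_mul, h]

/-- **Kronecker congruence on the Gauss ring**: `red ((σ y)(q^ℓ)) = (red y)^ℓ` for a Frobenius
lift `σ`. -/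
theorem red_qExpand_coeffMap (σO : O →+* O)
    (hres : ∀ a : O, IsLocalRing.residue O (σO a) = IsLocalRing.residue O a ^ ℓ)
    (σE : E →+* E) (hσ : ∀ a : O, σE (algebraMap O E a) = algebraMap O E (σO a))
    {y : LaurentSeries E} (hy : y ∈ GaussDVR.V O E) :
    haveI : NeZero ℓ := ⟨(Fact.out : ℓ.Prime).ne_zero⟩
    GaussDVR.red O E ⟨qExpand E ℓ (coeffMap σE y), qExpand_coeffMap_mem_V ℓ σO hres σE hσ hy⟩
      = GaussDVR.red O E ⟨y, hy⟩ ^ ℓ := by
  haveI : NeZero ℓ := ⟨(Fact.out : ℓ.Prime).ne_zero⟩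
  obtain ⟨a, b, hb, h⟩ := (GaussDVR.mem_V O E).mp hy
  have hb' : GaussDVR.rho O (qExpand O ℓ (coeffMap σO b)) ≠ 0 := by
    rw [rho_qExpand_coeffMap ℓ σO hres]
    exact pow_ne_zero _ hb
  have h' : ((⟨qExpand E ℓ (coeffMap σE y), qExpand_coeffMap_mem_V ℓ σO hres σE hσ hy⟩ :
      GaussDVR.V O E) : LaurentSeries E) * GaussDVR.iota O E (qExpand O ℓ (coeffMap σO b))
      = GaussDVR.iota O E (qExpand O ℓ (coeffMap σO a)) := by
    rw [← qExpand_iota, ← qExpand_iota, ← TrivModE.coeffMap_iota σO σE hσ,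
      ← TrivModE.coeffMap_iota σO σE hσ, ← map_mul, ← map_mul, h]
  rw [GaussDVR.red_eq O E _ _ _ hb' h', GaussDVR.red_eq O E ⟨y, hy⟩ a b hb h,
    rho_qExpand_coeffMap ℓ σO hres, rho_qExpand_coeffMap ℓ σO hres, div_pow]

end Generic

/-! ### Instantiation: `O = A ∩ E`, `σ` a Frobenius element at `A` -/

section Inst

open Fermat.Agent.S18.K1Defs Fermat.Agent.S18.K1Top

local notation "Qb" => AlgebraicClosure ℚ
local notation "Gq" => (AlgebraicClosure ℚ ≃ₐ[ℚ] AlgebraicClosure ℚ)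

variable (A : ValuationSubring Qb) (E : IntermediateField ℚ Qb) [Normal ℚ E]

/-- The residue field of `A ∩ E` has characteristic `ℓ` if `A` lies over `ℓ`. -/
theorem charP_residue_OE {ℓ : ℕ} [Fact ℓ.Prime] (hA : A.LiesOverPrime ℓ) :
    CharP (IsLocalRing.ResidueField (OE A E)) ℓ := by
  refine (CharP.charP_iff_prime_eq_zero (Fact.out : ℓ.Prime)).2 ?_
  have h1 := Congr.charP_residue A hA
  have h2 : IsLocalRing.residue A (inclOA A E ((ℓ : ℕ) : OE A E)) = 0 := by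
    rw [map_natCast, map_natCast]
    exact CharP.cast_eq_zero _ ℓ
  have h3 := (residue_inclOA_eq_zero_iff A E _).mp h2
  rwa [map_natCast] at h3

/-- The restriction to `O_E = A ∩ E` of a Frobenius element at `A` induces the `ℓ`-power map on
the residue field of `O_E`. -/
theorem residue_sOE_frob {ℓ : ℕ} {σ : Gq} (hσ : A.IsFrobeniusAt σ ℓ) (x : OE A E) :
    IsLocalRing.residue (OE A E) (TrivModE.sOE A E ⟨σ, hσ.mem_decompositionSubgroup⟩ x)
      = IsLocalRing.residue (OE A E) x ^ ℓ := by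
  rw [← sub_eq_zero, ← map_pow, ← map_sub, ← residue_inclOA_eq_zero_iff, map_sub,
    TrivModE.inclOA_sOE, map_pow, map_sub, Congr.residue_sA_frob A hσ, map_pow, sub_self]

variable [IsDiscreteValuationRing (OE A E)]

/-- **Kronecker congruence**, `O = A ∩ E`: for a Frobenius element `σ` at `A` and `y` in the
Gauss ring, `(σ|_E y)(q^ℓ)` lies in the Gauss ring ... -/
theorem qExpand_frob_mem_V {ℓ : ℕ} [Fact ℓ.Prime] (hA : A.LiesOverPrime ℓ) {σ : Gq}
    (hσ : A.IsFrobeniusAt σ ℓ) {y : LaurentSeries E} (hy : y ∈ GaussDVR.V (OE A E) E) :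
    haveI : NeZero ℓ := ⟨(Fact.out : ℓ.Prime).ne_zero⟩
    qExpand E ℓ (coeffMap ((σ.restrictNormal E : E ≃ₐ[ℚ] E) : E →+* E) y)
      ∈ GaussDVR.V (OE A E) E := by
  haveI := charP_residue_OE A E hA
  exact qExpand_coeffMap_mem_V ℓ (TrivModE.sOE A E ⟨σ, hσ.mem_decompositionSubgroup⟩)
    (residue_sOE_frob A E hσ) _
    (TrivModE.restrictNormal_algebraMap_OE A E ⟨σ, hσ.mem_decompositionSubgroup⟩) hy

/-- ... and its reduction is the `ℓ`-th power of the reduction of `y`: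
`red ((σ y)(q^ℓ)) = (red y)^ℓ`. -/
theorem red_qExpand_frob {ℓ : ℕ} [Fact ℓ.Prime] (hA : A.LiesOverPrime ℓ) {σ : Gq}
    (hσ : A.IsFrobeniusAt σ ℓ) {y : LaurentSeries E} (hy : y ∈ GaussDVR.V (OE A E) E) :
    haveI : NeZero ℓ := ⟨(Fact.out : ℓ.Prime).ne_zero⟩
    GaussDVR.red (OE A E) E
        ⟨qExpand E ℓ (coeffMap ((σ.restrictNormal E : E ≃ₐ[ℚ] E) : E →+* E) y),
          qExpand_frob_mem_V A E hA hσ hy⟩
      = GaussDVR.red (OE A E) E ⟨y, hy⟩ ^ ℓ := by
  haveI := charP_residue_OE A E hA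
  exact red_qExpand_coeffMap ℓ (TrivModE.sOE A E ⟨σ, hσ.mem_decompositionSubgroup⟩)
    (residue_sOE_frob A E hσ) _
    (TrivModE.restrictNormal_algebraMap_OE A E ⟨σ, hσ.mem_decompositionSubgroup⟩) hy

/-- The inverse of a Frobenius element at `A` preserves the Gauss ring of `O_E`. -/
theorem coeffMap_symm_mem_V {ℓ : ℕ} {σ : Gq}
    (hσ : A.IsFrobeniusAt σ ℓ) {y : LaurentSeries E} (hy : y ∈ GaussDVR.V (OE A E) E) :
    coeffMap (((σ.restrictNormal E : E ≃ₐ[ℚ] E).symm : E ≃ₐ[ℚ] E) : E →+* E) y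
      ∈ GaussDVR.V (OE A E) E := by
  obtain ⟨a, b, hb, h⟩ := (GaussDVR.mem_V (OE A E) E).mp hy
  set τ : A.decompositionSubgroup ℚ := ⟨σ, hσ.mem_decompositionSubgroup⟩⁻¹ with hτ
  have hτσ : (((τ : Gq).restrictNormal E : E ≃ₐ[ℚ] E) : E →+* E)
      = (((σ.restrictNormal E : E ≃ₐ[ℚ] E).symm : E ≃ₐ[ℚ] E) : E →+* E) := by
    refine RingHom.ext fun c => ?_
    apply (algebraMap E Qb).injective
    show algebraMap E Qb ((τ : Gq).restrictNormal E c)
      = algebraMap E Qb ((σ.restrictNormal E).symm c)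
    rw [AlgEquiv.restrictNormal_commutes]
    have h1 : algebraMap E Qb c = σ (algebraMap E Qb ((σ.restrictNormal E).symm c)) := by
      rw [← AlgEquiv.restrictNormal_commutes, AlgEquiv.apply_symm_apply]
    have h2 : ((τ : Gq)) = σ⁻¹ := rfl
    rw [h1, h2]
    exact σ.symm_apply_apply _
  refine (GaussDVR.mem_V (OE A E) E).mpr
    ⟨coeffMap (TrivModE.sOE A E τ) a, coeffMap (TrivModE.sOE A E τ) b, ?_, ?_⟩
  · intro h0
    apply hb
    -- the residue action of `τ` is injective as well: use units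
    by_contra hne
    obtain ⟨k, hk⟩ : ∃ k, (GaussDVR.rho (OE A E) b).coeff k ≠ 0 := by
      by_contra hall
      exact hne (HahnSeries.ext (funext fun k => by
        by_contra h
        exact hall ⟨k, h⟩))
    have hk' : IsUnit (b.coeff k) := by
      by_contra hnu
      exact hk ((IsLocalRing.residue_eq_zero_iff _).mpr hnu)
    have h1 : IsUnit (TrivModE.sOE A E τ (b.coeff k)) := hk'.map _
    have h2 := congrArg (fun z : LaurentSeries (IsLocalRing.ResidueField (OE A E)) => z.coeff k) h0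
    simp only [coeffMap_coeff, HahnSeries.coeff_zero] at h2
    have h3 : ¬ IsUnit (TrivModE.sOE A E τ (b.coeff k)) :=
      (IsLocalRing.residue_eq_zero_iff _).mp h2
    exact h3 h1
  · rw [← TrivModE.coeffMap_iota (TrivModE.sOE A E τ) _
      (TrivModE.restrictNormal_algebraMap_OE A E τ),
      ← TrivModE.coeffMap_iota (TrivModE.sOE A E τ) _
      (TrivModE.restrictNormal_algebraMap_OE A E τ), hτσ, ← map_mul, h]

/-- **Kronecker congruence, `β ≡ Frob ∘ σ⁻¹`**: for `y` in the Gauss ring,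
`red (y(q^ℓ)) = (red (σ⁻¹ y))^ℓ`. -/
theorem red_qExpand_eq_pow {ℓ : ℕ} [Fact ℓ.Prime] (hA : A.LiesOverPrime ℓ) {σ : Gq}
    (hσ : A.IsFrobeniusAt σ ℓ) {y : LaurentSeries E} (hy : y ∈ GaussDVR.V (OE A E) E) :
    haveI : NeZero ℓ := ⟨(Fact.out : ℓ.Prime).ne_zero⟩
    GaussDVR.red (OE A E) E ⟨qExpand E ℓ y, qExpand_mem_V ℓ hy⟩
      = GaussDVR.red (OE A E) E
          ⟨coeffMap (((σ.restrictNormal E : E ≃ₐ[ℚ] E).symm : E ≃ₐ[ℚ] E) : E →+* E) y,
            coeffMap_symm_mem_V A E hσ hy⟩ ^ ℓ := by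
  haveI : NeZero ℓ := ⟨(Fact.out : ℓ.Prime).ne_zero⟩
  have h1 : coeffMap ((σ.restrictNormal E : E ≃ₐ[ℚ] E) : E →+* E)
      (coeffMap (((σ.restrictNormal E : E ≃ₐ[ℚ] E).symm : E ≃ₐ[ℚ] E) : E →+* E) y) = y := by
    rw [coeffMap_coeffMap]
    have h0 : (((σ.restrictNormal E : E ≃ₐ[ℚ] E) : E →+* E)).comp
        ((((σ.restrictNormal E : E ≃ₐ[ℚ] E).symm : E ≃ₐ[ℚ] E) : E →+* E)) = RingHom.id E :=
      RingHom.ext fun c => (σ.restrictNormal E).apply_symm_apply c
    rw [coeffMap_congr h0, coeffMap_id]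
  have h2 := red_qExpand_frob A E hA hσ (coeffMap_symm_mem_V A E hσ hy)
  rw [← h2]
  congr 1
  apply Subtype.ext
  show qExpand E ℓ y = qExpand E ℓ (coeffMap _ (coeffMap _ y))
  rw [h1]

end Inst

end Fermat.Agent.S34.Modular.Kronecker
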