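import Mathlib
import Fermat.Agent.S37.SwapGal
import Fermat.Agent.S30.GaussDescent

/-!
# S34 / Program U, brick SSb.Modular: the Atkin–Lehner swap over a subfield `E ⊆ ℚ̄`

`F_{N,L} = laurentBaseChange L (modularFunctionFieldFull N) = L(j(q^d) : d ∣ N) ⊆ L((q))`.

* `subfield_eq_top`, `ringHom_ext` : for `ℓ` prime, `F_{Mℓ,L}` is generated as a field by the
  constants and the images of the two degeneracy maps `α, β : F_{M,L} → F_{Mℓ,L}`
  (`heckeAlphaBar`, `heckeBetaBar` of the Prelude; any coefficient field `L`).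
* `upE N E` : extension of coefficients `F_{N,E} → F_{N,ℚ̄}` for an intermediate field `E` of
  `ℚ̄ / ℚ`, compatible with `α`, `β`, constants and the coefficientwise Galois action.
* `swapE` : for a swap `w` of `F_{Mℓ,ℚ̄}` (`w ∘ α = β`, `w ∘ β = α`, `w ∘ w = id`; e.g. the one of
  `S37.SwapGal.exists_swap_gal`), its restriction to `F_{Mℓ,E}`, an `E`-algebra automorphism.
* `exists_swapE` : packaged existence, with `w_E ∘ α = β`, `w_E ∘ β = α`, involutivity,
  compatibility with `upE`, and commutation with the coefficientwise action of every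
  `σ : E ≃ₐ[ℚ] E`.
-/

set_option autoImplicit false
set_option synthInstance.maxHeartbeats 400000
set_option linter.unusedSectionVars false
set_option linter.style.haveILetI false

noncomputable section

open ModularCurve HahnSeries IntermediateField

namespace Fermat.Agent.S34.Modular.SwapE

local notation "Qb" => AlgebraicClosure ℚ

/-! ### Generation of the level-`Mℓ` field by the two degeneracy maps -/

section Gen

variable {L : Type*} [Field L] [Algebra ℚ L] (M ℓ : ℕ) [NeZero M] [NeZero ℓ]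

/-- The generator `j(q^e)` of level `Mℓ` is in the image of `α` or of `β`. -/
theorem gen_mem_range (hℓ : ℓ.Prime) {y : LaurentSeries L}
    (hy : y ∈ Fermat.Agent.S24.DegreeGen.gens L (M * ℓ))
    (hy' : y ∈ laurentBaseChange L (modularFunctionFieldFull (M * ℓ))) :
    (∃ f, heckeAlphaBar L M ℓ f = ⟨y, hy'⟩) ∨ (∃ f, heckeBetaBar L M ℓ f = ⟨y, hy'⟩) := by
  obtain ⟨z, ⟨e, he0, he, rfl⟩, rfl⟩ := hy
  rcases Fermat.Agent.S37.Swap.dvd_cases hℓ he with h | ⟨d, hd, rfl⟩
  · left
    refine ⟨⟨coeffEmb L (qExpand ℚ e jq),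
      coeffEmb_mem_laurentBaseChange L (jqd_mem_full M h)⟩, ?_⟩
    apply Subtype.ext
    rw [coe_heckeAlphaBar]
  · right
    have hd0 : d ≠ 0 := by
      rintro rfl
      exact he0.out (by simp)
    haveI : NeZero d := ⟨hd0⟩
    refine ⟨⟨coeffEmb L (qExpand ℚ d jq),
      coeffEmb_mem_laurentBaseChange L (jqd_mem_full M hd)⟩, ?_⟩
    apply Subtype.ext
    rw [coe_heckeBetaBar]
    show qExpand L ℓ (coeffMap (algebraMap ℚ L) (qExpand ℚ d jq)) = _
    rw [← ModularCurve.coeffMap_qExpand, qExpand_qExpand, qExpand_congr (mul_comm ℓ d)]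
    rfl

/-- Auxiliary form of the generation statement. -/
theorem mem_of_mem_adjoin (hℓ : ℓ.Prime)
    (T : Subfield (laurentBaseChange L (modularFunctionFieldFull (M * ℓ))))
    (hc : ∀ c : L, algebraMap L (laurentBaseChange L (modularFunctionFieldFull (M * ℓ))) c ∈ T)
    (hα : ∀ f, heckeAlphaBar L M ℓ f ∈ T) (hβ : ∀ f, heckeBetaBar L M ℓ f ∈ T)
    {x : LaurentSeries L}
    (hx' : x ∈ IntermediateField.adjoin L (Fermat.Agent.S24.DegreeGen.gens L (M * ℓ))) :
    ∀ hy : x ∈ laurentBaseChange L (modularFunctionFieldFull (M * ℓ)),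
      (⟨x, hy⟩ : laurentBaseChange L (modularFunctionFieldFull (M * ℓ))) ∈ T := by
  have hle : ∀ a : LaurentSeries L,
      a ∈ IntermediateField.adjoin L (Fermat.Agent.S24.DegreeGen.gens L (M * ℓ)) →
      a ∈ laurentBaseChange L (modularFunctionFieldFull (M * ℓ)) := by
    intro a ha
    rw [Fermat.Agent.S24.DegreeGen.laurentBaseChange_full_eq_adjoin]
    exact ha
  induction hx' using IntermediateField.adjoin_induction with
  | mem y hy =>
      intro hy'
      rcases gen_mem_range M ℓ hℓ hy hy' with ⟨f, hf⟩ | ⟨f, hf⟩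
      · rw [← hf]; exact hα f
      · rw [← hf]; exact hβ f
  | algebraMap c =>
      intro hy'
      exact hc c
  | add a b ha hb iha ihb =>
      intro hy'
      have h := T.add_mem (iha (hle a ha)) (ihb (hle b hb))
      exact h
  | inv a ha iha =>
      intro hy'
      have h := T.inv_mem (iha (hle a ha))
      exact h
  | mul a b ha hb iha ihb =>
      intro hy'
      have h := T.mul_mem (iha (hle a ha)) (ihb (hle b hb))
      exact h

/-- **Generation.**  A subfield of `F_{Mℓ,L}` containing the constants and the images of the two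
degeneracy maps is everything. -/
theorem subfield_eq_top (hℓ : ℓ.Prime)
    (T : Subfield (laurentBaseChange L (modularFunctionFieldFull (M * ℓ))))
    (hc : ∀ c : L, algebraMap L (laurentBaseChange L (modularFunctionFieldFull (M * ℓ))) c ∈ T)
    (hα : ∀ f, heckeAlphaBar L M ℓ f ∈ T) (hβ : ∀ f, heckeBetaBar L M ℓ f ∈ T) : T = ⊤ := by
  rw [eq_top_iff]
  rintro ⟨x, hx⟩ -
  have hx' := hx
  rw [Fermat.Agent.S24.DegreeGen.laurentBaseChange_full_eq_adjoin] at hx'
  exact mem_of_mem_adjoin M ℓ hℓ T hc hα hβ hx' hx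

/-- **Extensionality.**  Two ring homomorphisms from `F_{Mℓ,L}` to a field which agree on the
constants and on the images of `α` and `β` are equal. -/
theorem ringHom_ext {K : Type*} [Field K] (hℓ : ℓ.Prime)
    (φ ψ : laurentBaseChange L (modularFunctionFieldFull (M * ℓ)) →+* K)
    (hc : ∀ c : L, φ (algebraMap L _ c) = ψ (algebraMap L _ c))
    (hα : ∀ f, φ (heckeAlphaBar L M ℓ f) = ψ (heckeAlphaBar L M ℓ f))
    (hβ : ∀ f, φ (heckeBetaBar L M ℓ f) = ψ (heckeBetaBar L M ℓ f)) : φ = ψ := by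
  have h := subfield_eq_top M ℓ hℓ (RingHom.eqLocusField φ ψ) hc hα hβ
  refine RingHom.ext fun x => ?_
  have hx : x ∈ RingHom.eqLocusField φ ψ := by rw [h]; exact Subfield.mem_top x
  exact hx

end Gen

/-! ### Extension of coefficients `E → ℚ̄` -/

section Up

variable (N : ℕ) (E : IntermediateField ℚ Qb)

/-- Extension of coefficients `F_{N,E} → F_{N,ℚ̄}`. -/
def upE : laurentBaseChange E (modularFunctionFieldFull N) →+*
    laurentBaseChange Qb (modularFunctionFieldFull N) where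
  toFun x := ⟨Fermat.Agent.S30.GaussDescent.up E (x : LaurentSeries E),
    Fermat.Agent.S30.GaussDescent.up_mem E (modularFunctionFieldFull N) x.2⟩
  map_one' := Subtype.ext (map_one _)
  map_mul' _ _ := Subtype.ext (map_mul _ _ _)
  map_zero' := Subtype.ext (map_zero _)
  map_add' _ _ := Subtype.ext (map_add _ _ _)

theorem coe_upE (x : laurentBaseChange E (modularFunctionFieldFull N)) :
    ((upE N E x : laurentBaseChange Qb (modularFunctionFieldFull N)) : LaurentSeries Qb)
      = coeffMap (algebraMap E Qb) (x : LaurentSeries E) := rfl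

theorem upE_injective : Function.Injective (upE N E) := by
  intro a b h
  apply Subtype.ext
  apply Fermat.Agent.S30.GaussDescent.up_injective E
  exact congrArg Subtype.val h

theorem upE_algebraMap (c : E) :
    upE N E (algebraMap E (laurentBaseChange E (modularFunctionFieldFull N)) c)
      = algebraMap Qb (laurentBaseChange Qb (modularFunctionFieldFull N)) (c : Qb) := by
  apply Subtype.ext
  exact Fermat.Agent.S30.GaussDescent.up_algebraMap E c

end Up

section UpDeg

variable (M ℓ : ℕ) [NeZero M] [NeZero ℓ] (E : IntermediateField ℚ Qb)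

theorem upE_alpha (f : laurentBaseChange E (modularFunctionFieldFull M)) :
    upE (M * ℓ) E (heckeAlphaBar E M ℓ f) = heckeAlphaBar Qb M ℓ (upE M E f) := by
  apply Subtype.ext
  rw [coe_upE, coe_heckeAlphaBar, coe_heckeAlphaBar, coe_upE]

theorem upE_beta (f : laurentBaseChange E (modularFunctionFieldFull M)) :
    upE (M * ℓ) E (heckeBetaBar E M ℓ f) = heckeBetaBar Qb M ℓ (upE M E f) := by
  apply Subtype.ext
  rw [coe_upE, coe_heckeBetaBar, coe_heckeBetaBar, coe_upE, ModularCurve.coeffMap_qExpand]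

end UpDeg

/-! ### The swap over `E` -/

section Swap

variable (M ℓ : ℕ) [NeZero M] [NeZero ℓ] (E : IntermediateField ℚ Qb)
variable (w : laurentBaseChange Qb (modularFunctionFieldFull (M * ℓ)) ≃ₐ[Qb]
  laurentBaseChange Qb (modularFunctionFieldFull (M * ℓ)))

/-- The swap `w` of `F_{Mℓ,ℚ̄}` preserves the image of `F_{Mℓ,E}`. -/
theorem exists_upE_eq (hℓ : ℓ.Prime)
    (hα : ∀ f, w (heckeAlphaBar Qb M ℓ f) = heckeBetaBar Qb M ℓ f)
    (hβ : ∀ f, w (heckeBetaBar Qb M ℓ f) = heckeAlphaBar Qb M ℓ f)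
    (x : laurentBaseChange E (modularFunctionFieldFull (M * ℓ))) :
    ∃ y : laurentBaseChange E (modularFunctionFieldFull (M * ℓ)),
      upE (M * ℓ) E y = w (upE (M * ℓ) E x) := by
  let T : Subfield (laurentBaseChange E (modularFunctionFieldFull (M * ℓ))) :=
    { carrier := {x | ∃ y, upE (M * ℓ) E y = w (upE (M * ℓ) E x)}
      mul_mem' := by
        rintro a b ⟨a', ha⟩ ⟨b', hb⟩
        exact ⟨a' * b', by rw [map_mul, map_mul, map_mul, ha, hb]⟩
      one_mem' := ⟨1, by rw [map_one, map_one]⟩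
      add_mem' := by
        rintro a b ⟨a', ha⟩ ⟨b', hb⟩
        exact ⟨a' + b', by rw [map_add, map_add, map_add, ha, hb]⟩
      zero_mem' := ⟨0, by rw [map_zero, map_zero]⟩
      neg_mem' := by
        rintro a ⟨a', ha⟩
        exact ⟨-a', by rw [map_neg, map_neg, map_neg, ha]⟩
      inv_mem' := by
        rintro a ⟨a', ha⟩
        exact ⟨a'⁻¹, by rw [map_inv₀, map_inv₀, map_inv₀, ha]⟩ }
  have hT : T = ⊤ := by
    refine subfield_eq_top M ℓ hℓ T ?_ ?_ ?_
    · intro c
      exact ⟨algebraMap E (laurentBaseChange E (modularFunctionFieldFull (M * ℓ))) c,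
        by rw [upE_algebraMap, AlgEquiv.commutes]⟩
    · intro f
      exact ⟨heckeBetaBar E M ℓ f, by rw [upE_alpha, hα, upE_beta]⟩
    · intro f
      exact ⟨heckeAlphaBar E M ℓ f, by rw [upE_beta, hβ, upE_alpha]⟩
  have hx : x ∈ T := by rw [hT]; exact Subfield.mem_top x
  exact hx

/-- The underlying function of the swap over `E`. -/
def swapFunE (hℓ : ℓ.Prime)
    (hα : ∀ f, w (heckeAlphaBar Qb M ℓ f) = heckeBetaBar Qb M ℓ f)
    (hβ : ∀ f, w (heckeBetaBar Qb M ℓ f) = heckeAlphaBar Qb M ℓ f)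
    (x : laurentBaseChange E (modularFunctionFieldFull (M * ℓ))) :
    laurentBaseChange E (modularFunctionFieldFull (M * ℓ)) :=
  (exists_upE_eq M ℓ E w hℓ hα hβ x).choose

theorem upE_swapFunE (hℓ : ℓ.Prime)
    (hα : ∀ f, w (heckeAlphaBar Qb M ℓ f) = heckeBetaBar Qb M ℓ f)
    (hβ : ∀ f, w (heckeBetaBar Qb M ℓ f) = heckeAlphaBar Qb M ℓ f)
    (x : laurentBaseChange E (modularFunctionFieldFull (M * ℓ))) :
    upE (M * ℓ) E (swapFunE M ℓ E w hℓ hα hβ x) = w (upE (M * ℓ) E x) :=
  (exists_upE_eq M ℓ E w hℓ hα hβ x).choose_spec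

/-- **The Atkin–Lehner swap over `E`**: the restriction of a swap `w` of `F_{Mℓ,ℚ̄}` to
`F_{Mℓ,E}`, as an `E`-algebra automorphism. -/
def swapE (hℓ : ℓ.Prime)
    (hα : ∀ f, w (heckeAlphaBar Qb M ℓ f) = heckeBetaBar Qb M ℓ f)
    (hβ : ∀ f, w (heckeBetaBar Qb M ℓ f) = heckeAlphaBar Qb M ℓ f)
    (hww : ∀ z, w (w z) = z) :
    laurentBaseChange E (modularFunctionFieldFull (M * ℓ)) ≃ₐ[E]
      laurentBaseChange E (modularFunctionFieldFull (M * ℓ)) where
  toFun := swapFunE M ℓ E w hℓ hα hβ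
  invFun := swapFunE M ℓ E w hℓ hα hβ
  left_inv x := by
    apply upE_injective
    rw [upE_swapFunE, upE_swapFunE, hww]
  right_inv x := by
    apply upE_injective
    rw [upE_swapFunE, upE_swapFunE, hww]
  map_mul' a b := by
    apply upE_injective
    rw [upE_swapFunE, map_mul, map_mul, map_mul, upE_swapFunE, upE_swapFunE]
  map_add' a b := by
    apply upE_injective
    rw [upE_swapFunE, map_add, map_add, map_add, upE_swapFunE, upE_swapFunE]
  commutes' c := by
    apply upE_injective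
    rw [upE_swapFunE, upE_algebraMap, AlgEquiv.commutes]

theorem upE_swapE (hℓ : ℓ.Prime)
    (hα : ∀ f, w (heckeAlphaBar Qb M ℓ f) = heckeBetaBar Qb M ℓ f)
    (hβ : ∀ f, w (heckeBetaBar Qb M ℓ f) = heckeAlphaBar Qb M ℓ f)
    (hww : ∀ z, w (w z) = z)
    (x : laurentBaseChange E (modularFunctionFieldFull (M * ℓ))) :
    upE (M * ℓ) E (swapE M ℓ E w hℓ hα hβ hww x) = w (upE (M * ℓ) E x) :=
  upE_swapFunE M ℓ E w hℓ hα hβ x

theorem swapE_alpha (hℓ : ℓ.Prime)
    (hα : ∀ f, w (heckeAlphaBar Qb M ℓ f) = heckeBetaBar Qb M ℓ f)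
    (hβ : ∀ f, w (heckeBetaBar Qb M ℓ f) = heckeAlphaBar Qb M ℓ f)
    (hww : ∀ z, w (w z) = z) (f : laurentBaseChange E (modularFunctionFieldFull M)) :
    swapE M ℓ E w hℓ hα hβ hww (heckeAlphaBar E M ℓ f) = heckeBetaBar E M ℓ f := by
  apply upE_injective
  rw [upE_swapE, upE_alpha, hα, upE_beta]

theorem swapE_beta (hℓ : ℓ.Prime)
    (hα : ∀ f, w (heckeAlphaBar Qb M ℓ f) = heckeBetaBar Qb M ℓ f)
    (hβ : ∀ f, w (heckeBetaBar Qb M ℓ f) = heckeAlphaBar Qb M ℓ f)
    (hww : ∀ z, w (w z) = z) (f : laurentBaseChange E (modularFunctionFieldFull M)) :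
    swapE M ℓ E w hℓ hα hβ hww (heckeBetaBar E M ℓ f) = heckeAlphaBar E M ℓ f := by
  apply upE_injective
  rw [upE_swapE, upE_beta, hβ, upE_alpha]

theorem swapE_swapE (hℓ : ℓ.Prime)
    (hα : ∀ f, w (heckeAlphaBar Qb M ℓ f) = heckeBetaBar Qb M ℓ f)
    (hβ : ∀ f, w (heckeBetaBar Qb M ℓ f) = heckeAlphaBar Qb M ℓ f)
    (hww : ∀ z, w (w z) = z) (x : laurentBaseChange E (modularFunctionFieldFull (M * ℓ))) :
    swapE M ℓ E w hℓ hα hβ hww (swapE M ℓ E w hℓ hα hβ hww x) = x := by
  apply upE_injective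
  rw [upE_swapE, upE_swapE, hww]

end Swap

/-! ### Coefficientwise Galois action and the packaged statement -/

section Gal

variable {L : Type*} [Field L] [Algebra ℚ L] (M ℓ : ℕ) [NeZero M] [NeZero ℓ]

theorem arithmeticRingAut_alpha (σ : L ≃ₐ[ℚ] L)
    (f : laurentBaseChange L (modularFunctionFieldFull M)) :
    arithmeticRingAut (modularFunctionFieldFull (M * ℓ)) σ (heckeAlphaBar L M ℓ f)
      = heckeAlphaBar L M ℓ (arithmeticRingAut (modularFunctionFieldFull M) σ f) := by
  apply Subtype.ext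
  rw [coe_arithmeticRingAut_apply, coe_heckeAlphaBar, coe_heckeAlphaBar,
    coe_arithmeticRingAut_apply]

theorem arithmeticRingAut_beta (σ : L ≃ₐ[ℚ] L)
    (f : laurentBaseChange L (modularFunctionFieldFull M)) :
    arithmeticRingAut (modularFunctionFieldFull (M * ℓ)) σ (heckeBetaBar L M ℓ f)
      = heckeBetaBar L M ℓ (arithmeticRingAut (modularFunctionFieldFull M) σ f) := by
  apply Subtype.ext
  rw [coe_arithmeticRingAut_apply, coe_heckeBetaBar, coe_heckeBetaBar,
    coe_arithmeticRingAut_apply, ModularCurve.coeffMap_qExpand]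

/-- A field automorphism of `F_{Mℓ,L}` over `L` exchanging `α` and `β` commutes with the
coefficientwise Galois action. -/
theorem swap_arithmeticRingAut (hℓ : ℓ.Prime)
    (v : laurentBaseChange L (modularFunctionFieldFull (M * ℓ)) ≃ₐ[L]
      laurentBaseChange L (modularFunctionFieldFull (M * ℓ)))
    (hα : ∀ f, v (heckeAlphaBar L M ℓ f) = heckeBetaBar L M ℓ f)
    (hβ : ∀ f, v (heckeBetaBar L M ℓ f) = heckeAlphaBar L M ℓ f)
    (σ : L ≃ₐ[ℚ] L) (z : laurentBaseChange L (modularFunctionFieldFull (M * ℓ))) :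
    v (arithmeticRingAut (modularFunctionFieldFull (M * ℓ)) σ z)
      = arithmeticRingAut (modularFunctionFieldFull (M * ℓ)) σ (v z) := by
  have h := ringHom_ext M ℓ hℓ
    ((v : laurentBaseChange L (modularFunctionFieldFull (M * ℓ)) →+*
        laurentBaseChange L (modularFunctionFieldFull (M * ℓ))).comp
      (arithmeticRingAut (modularFunctionFieldFull (M * ℓ)) σ).toRingHom)
    ((arithmeticRingAut (modularFunctionFieldFull (M * ℓ)) σ).toRingHom.comp
      (v : laurentBaseChange L (modularFunctionFieldFull (M * ℓ)) →+*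
        laurentBaseChange L (modularFunctionFieldFull (M * ℓ)))) ?_ ?_ ?_
  · exact congrArg (fun φ => φ z) h
  · intro c
    show v (arithmeticRingAut (modularFunctionFieldFull (M * ℓ)) σ (algebraMap L _ c))
      = arithmeticRingAut (modularFunctionFieldFull (M * ℓ)) σ (v (algebraMap L _ c))
    rw [arithmeticRingAut_algebraMap, AlgEquiv.commutes, AlgEquiv.commutes,
      arithmeticRingAut_algebraMap]
  · intro f
    show v (arithmeticRingAut (modularFunctionFieldFull (M * ℓ)) σ (heckeAlphaBar L M ℓ f))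
      = arithmeticRingAut (modularFunctionFieldFull (M * ℓ)) σ (v (heckeAlphaBar L M ℓ f))
    rw [arithmeticRingAut_alpha, hα, hα, arithmeticRingAut_beta]
  · intro f
    show v (arithmeticRingAut (modularFunctionFieldFull (M * ℓ)) σ (heckeBetaBar L M ℓ f))
      = arithmeticRingAut (modularFunctionFieldFull (M * ℓ)) σ (v (heckeBetaBar L M ℓ f))
    rw [arithmeticRingAut_beta, hβ, hβ, arithmeticRingAut_alpha]

end Gal

/-- **The Atkin–Lehner swap over a subfield `E ⊆ ℚ̄`, packaged.**  For a prime `ℓ ∤ M` and every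
intermediate field `E` of `ℚ̄ / ℚ` there is an `E`-algebra automorphism `w_E` of
`F_{Mℓ,E} = E(j(q^d) : d ∣ Mℓ)`, an involution, exchanging the two degeneracy maps `α`, `β`,
commuting with the coefficientwise action of `Gal(E/ℚ)`, and compatible with extension of
coefficients to `ℚ̄` and a swap `w` of `F_{Mℓ,ℚ̄}` with the same properties. -/
theorem exists_swapE (M ℓ : ℕ) [NeZero M] [NeZero ℓ] (hℓ : ℓ.Prime) (hℓM : ¬ ℓ ∣ M)
    (E : IntermediateField ℚ Qb) :
    ∃ (w : laurentBaseChange Qb (modularFunctionFieldFull (M * ℓ)) ≃ₐ[Qb]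
          laurentBaseChange Qb (modularFunctionFieldFull (M * ℓ)))
      (wE : laurentBaseChange E (modularFunctionFieldFull (M * ℓ)) ≃ₐ[E]
          laurentBaseChange E (modularFunctionFieldFull (M * ℓ))),
      (∀ f, w (heckeAlphaBar Qb M ℓ f) = heckeBetaBar Qb M ℓ f) ∧
      (∀ f, w (heckeBetaBar Qb M ℓ f) = heckeAlphaBar Qb M ℓ f) ∧
      (∀ z, w (w z) = z) ∧
      (∀ (σ : Qb ≃ₐ[ℚ] Qb) z,
        w (arithmeticRingAut (modularFunctionFieldFull (M * ℓ)) σ z)
          = arithmeticRingAut (modularFunctionFieldFull (M * ℓ)) σ (w z)) ∧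
      (∀ f, wE (heckeAlphaBar E M ℓ f) = heckeBetaBar E M ℓ f) ∧
      (∀ f, wE (heckeBetaBar E M ℓ f) = heckeAlphaBar E M ℓ f) ∧
      (∀ z, wE (wE z) = z) ∧
      (∀ (σ : E ≃ₐ[ℚ] E) z,
        wE (arithmeticRingAut (modularFunctionFieldFull (M * ℓ)) σ z)
          = arithmeticRingAut (modularFunctionFieldFull (M * ℓ)) σ (wE z)) ∧
      (∀ z, upE (M * ℓ) E (wE z) = w (upE (M * ℓ) E z)) := by
  obtain ⟨w, h1, h2, h3, h4, -, -⟩ := Fermat.Agent.S37.SwapGal.exists_swap_gal M ℓ hℓ hℓM
  refine ⟨w, swapE M ℓ E w hℓ h1 h2 h3, h1, h2, h3, h4, swapE_alpha M ℓ E w hℓ h1 h2 h3,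
    swapE_beta M ℓ E w hℓ h1 h2 h3, swapE_swapE M ℓ E w hℓ h1 h2 h3, ?_,
    upE_swapE M ℓ E w hℓ h1 h2 h3⟩
  intro σ z
  exact swap_arithmeticRingAut M ℓ hℓ (swapE M ℓ E w hℓ h1 h2 h3)
    (swapE_alpha M ℓ E w hℓ h1 h2 h3) (swapE_beta M ℓ E w hℓ h1 h2 h3) σ z

end Fermat.Agent.S34.Modular.SwapE
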