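import Mathlib
import Fermat.Agent.S34.TwoPrimesGauss
import Fermat.Agent.S34.FibreNodal

/-!
# PROGRAM U, (M1): `chartZero` of the nodal contract, level-free assembly

Setting of `S34/TwoPrimesGauss.lean` (helper50), verbatim: `O` a DVR with uniformiser `ϖ`,
`L' ⊆ L` fields over `O` (`α : L' →+* L`), `σ : L →+* E((q))` a `q`-expansion embedding,
`u' : L'` with integral `q`-expansion `U`, `w : L ≃+* L` an involution with
`σ (w (α x)) = (σ (α x))(q^ℓ)`.  `R = Chart O u'` (level `M`), `C = Chart O (α u')` (level `ℓM`).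

On top of the hypotheses of `TwoPrimesGauss.package` we take

* `hD` : the special fibre `R ⧸ (ϖ)` of the level-`M` chart is a Dedekind domain;
* `hK` : the **Kronecker congruence** in reduction form: for every `r : R` there is `s : R`
  with `(red r)(q^ℓ) = (red s)^ℓ`;

and prove **all fields of `Nodal.IsNodalChart ϖ (α u') p_∞ p_0`**, where `p_∞ = ker redInf`,
`p_0 = ker redZero` (`isNodalChart_zero`).  The proof is an assembly of
`TwoPrimesGauss` (SAT, ONTO, centre, separators), `Fibre.Data` and
`FibreNodal.isNodalChart_of_exists_pow` (helper274).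

Also exported: `wChart` (the restriction of `w` to the chart ring, a ring automorphism), with
`redInf_wChart : redInf (wChart c) = redZero c`, `redZero_wChart : redZero (wChart c) = redInf c`.
-/

set_option autoImplicit false
set_option linter.unusedSectionVars false
set_option linter.style.haveILetI false

noncomputable section

namespace Fermat.Agent.S34.Modular.ChartZero

open ModularCurve Polynomial
open Fermat.Agent.S30 Fermat.Agent.S34 Fermat.Agent.S34.TwoPrimesGauss

/-! ### Integrality along an automorphism -/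

section Integral

variable {O L : Type*} [CommRing O] [Field L] [Algebra O L]

/-- Transitivity of integrality for subalgebras: if every element of `S` is integral over `T`,
then an element integral over `S` is integral over `T`. -/
theorem isIntegral_of_forall_isIntegral (S T : Subalgebra O L) (h : ∀ z ∈ S, IsIntegral T z)
    {x : L} (hx : IsIntegral S x) : IsIntegral T x := by
  let f : S →+* integralClosure T L :=
    { toFun := fun z => ⟨(z : L), h z z.2⟩
      map_one' := rfl
      map_mul' := fun _ _ => rfl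
      map_zero' := rfl
      map_add' := fun _ _ => rfl }
  have hxA : IsIntegral (integralClosure T L) x := by
    obtain ⟨P, hP, hPx⟩ := hx
    refine ⟨P.map f, hP.map _, ?_⟩
    rw [eval₂_map]
    exact hPx
  exact isIntegral_trans (R := T) (A := integralClosure T L) x hxA

/-- The image under an `O`-linear ring automorphism `w` of an element integral over `O[u]` is
integral over `O[w u]`. -/
theorem isIntegral_map_of_fix (w : L ≃+* L)
    (hwO : ∀ r : O, w (algebraMap O L r) = algebraMap O L r) (u : L) {c : L}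
    (hc : IsIntegral (Algebra.adjoin O {u}) c) : IsIntegral (Algebra.adjoin O {w u}) (w c) := by
  let wA : L →ₐ[O] L := { (w : L →+* L) with commutes' := hwO }
  have hwA : ∀ z : L, wA z = w z := fun _ => rfl
  have hmap : (Algebra.adjoin O {u}).map wA = Algebra.adjoin O {w u} := by
    rw [AlgHom.map_adjoin, Set.image_singleton, hwA]
  obtain ⟨P, hP, hPc⟩ := hc
  let g : Algebra.adjoin O {u} →+* Algebra.adjoin O {w u} :=
    { toFun := fun z => ⟨w (z : L), by
        rw [← hmap]
        exact ⟨(z : L), z.2, rfl⟩⟩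
      map_one' := Subtype.ext (map_one w)
      map_mul' := fun _ _ => Subtype.ext (map_mul w _ _)
      map_zero' := Subtype.ext (map_zero w)
      map_add' := fun _ _ => Subtype.ext (map_add w _ _) }
  refine ⟨P.map g, hP.map _, ?_⟩
  rw [eval₂_map]
  have hcomp : (algebraMap (Algebra.adjoin O {w u}) L).comp g =
      (w : L →+* L).comp (algebraMap (Algebra.adjoin O {u}) L) := RingHom.ext fun _ => rfl
  rw [hcomp, ← RingEquiv.coe_toRingHom, ← hom_eval₂, hPc, map_zero]

/-- If `w u` is integral over `O[u]`, the chart of `u` is stable under `w`. -/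
theorem isIntegral_swap (w : L ≃+* L)
    (hwO : ∀ r : O, w (algebraMap O L r) = algebraMap O L r) (u : L)
    (hwu : IsIntegral (Algebra.adjoin O {u}) (w u)) {c : L}
    (hc : IsIntegral (Algebra.adjoin O {u}) c) : IsIntegral (Algebra.adjoin O {u}) (w c) := by
  refine isIntegral_of_forall_isIntegral (Algebra.adjoin O {w u}) (Algebra.adjoin O {u}) ?_
    (isIntegral_map_of_fix w hwO u hc)
  intro z hz
  have hle : Algebra.adjoin O {w u} ≤
      (integralClosure (Algebra.adjoin O {u}) L).restrictScalars O :=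
    Algebra.adjoin_le (Set.singleton_subset_iff.mpr hwu)
  exact hle hz

end Integral

/-! ### The chart-zero assembly -/

section Main

variable {O E : Type*} [CommRing O] [IsDomain O] [IsDiscreteValuationRing O] [Field E]
  [Algebra O E] [FaithfulSMul O E]
  {L' L : Type*} [Field L'] [Field L] [Algebra O L'] [Algebra O L]
  (ϖ : O) (hϖ : Irreducible ϖ)
  (α : L' →+* L) (hαO : ∀ r : O, α (algebraMap O L' r) = algebraMap O L r)
  (σ : L →+* LaurentSeries E)
  (hσO : ∀ r : O, σ (algebraMap O L r) = HahnSeries.C (algebraMap O E r))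
  (hσfrac : ∀ x : L, σ x ∈ GaussDVR.fracField O E)
  (u' : L') (U : LaurentSeries O) (hσu : σ (α u') = GaussDVR.iota O E U)
  (w : L ≃+* L) (hwO : ∀ r : O, w (algebraMap O L r) = algebraMap O L r)
  (ℓ : ℕ) [NeZero ℓ]
  (hwα : ∀ x : L', σ (w (α x)) = qExpand E ℓ (σ (α x)))
  (hww : ∀ z : L, w (w z) = z)
  (hprime : Prime (piC u' ϖ))
  (hcop : IsCoprime (GaussDVR.rho O U).order (ℓ : ℤ)) (hord : (GaussDVR.rho O U).order ≠ 0)
  (hℓ : 2 ≤ ℓ)
  (hfrob : qExpand (IsLocalRing.ResidueField O) ℓ (GaussDVR.rho O U) = GaussDVR.rho O U ^ ℓ)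
  (hwu : IsIntegral (Algebra.adjoin O {α u'}) (w (α u')))
  (hrank : ∀ v : Option (Fin 1 ⊕ Fin ℓ) → Chart O (α u'),
    ∃ c : Option (Fin 1 ⊕ Fin ℓ) → Chart O u', c ≠ 0 ∧ ∑ i, incl α hαO u' (c i) * v i = 0)

local notation "rI" => redInf ϖ hϖ α σ hσO hσfrac u' U hσu
local notation "rZ" => redZero ϖ hϖ α σ hσO hσfrac u' U hσu w hwO ℓ hwα
local notation "rM" => redM ϖ hϖ α hαO σ hσO hσfrac u' U hσu
local notation "ι" => incl α hαO u'
local notation "ρU" => GaussDVR.rho O U

/-- **The Atkin–Lehner involution on the chart ring**: the restriction of `w` to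
`C = Chart O (α u')` (stable because `w (α u')` is integral over `O[α u']`). -/
def wChart : Chart O (α u') ≃+* Chart O (α u') where
  toFun c := ⟨w (c : L), isIntegral_swap w hwO (α u') hwu c.2⟩
  invFun c := ⟨w (c : L), isIntegral_swap w hwO (α u') hwu c.2⟩
  left_inv c := Subtype.ext (hww (c : L))
  right_inv c := Subtype.ext (hww (c : L))
  map_mul' _ _ := Subtype.ext (map_mul w _ _)
  map_add' _ _ := Subtype.ext (map_add w _ _)

local notation "W" => wChart α u' w hwO hww hwu

theorem coe_wChart (c : Chart O (α u')) : ((W c : Chart O (α u')) : L) = w (c : L) := rfl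

theorem wChart_wChart (c : Chart O (α u')) : W (W c) = c := Subtype.ext (hww (c : L))

/-- Reduction at `∞` of `W c` is the reduction at `0` of `c`. -/
theorem redInf_wChart (c : Chart O (α u')) : rI (W c) = rZ c := rfl

/-- Reduction at `0` of `W c` is the reduction at `∞` of `c`. -/
theorem redZero_wChart (c : Chart O (α u')) : rZ (W c) = rI c := by
  rw [← redInf_wChart ϖ hϖ α σ hσO hσfrac u' U hσu w hwO ℓ hwα hww hwu, wChart_wChart]

/-- `W` exchanges the two components. -/
theorem wChart_mem_ker_redInf (c : Chart O (α u')) :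
    W c ∈ RingHom.ker rI ↔ c ∈ RingHom.ker rZ := Iff.rfl

theorem wChart_mem_ker_redZero (c : Chart O (α u')) :
    W c ∈ RingHom.ker rZ ↔ c ∈ RingHom.ker rI := by
  rw [RingHom.mem_ker, RingHom.mem_ker,
    redZero_wChart ϖ hϖ α σ hσO hσfrac u' U hσu w hwO ℓ hwα hww hwu]

include hww hprime hcop hord hℓ hfrob hwu hrank in
/-- **(M1) `chartZero`, level-free.**  All fields of the nodal contract on the chart
`C = Chart O (α u')` for the two Gauss primes `p_∞ = ker redInf`, `p_0 = ker redZero`, from the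
hypotheses of `TwoPrimesGauss.package`, the normality of the level-`M` special fibre (`hD`) and
the Kronecker congruence (`hK`). -/
theorem isNodalChart_zero
    (hD : IsDedekindDomain (Chart O u' ⧸ Ideal.span {piC u' ϖ}))
    (hK : ∀ r : Chart O u', ∃ s : Chart O u',
      qExpand (IsLocalRing.ResidueField O) ℓ (rM r) = rM s ^ ℓ) :
    Nodal.IsNodalChart ϖ (α u') (RingHom.ker rI) (RingHom.ker rZ) := by
  classical
  haveI := hD
  have hρ0 : ρU ≠ 0 := fun h => hord (by rw [h, HahnSeries.order_zero])
  have htr : ∀ p : (IsLocalRing.ResidueField O)[X], p ≠ 0 → p.eval₂ HahnSeries.C ρU ≠ 0 :=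
    fun p hp => ExpandIndep.eval₂_ne_zero_of_order_ne_zero ρU hord p hp
  have hcentre : ∀ a : Chart O u', rM a = 0 → piC u' ϖ ∣ a :=
    dvd_of_redM_eq_zero ϖ hϖ α hαO σ hσO hσfrac u' U hσu hprime htr
  have hπM : rM (piC u' ϖ) = 0 :=
    redHom_piC (σ.comp α) (sigmaM_O α hαO σ hσO) ϖ hϖ (fun x => hσfrac (α x)) u' U hσu
  have hπI : rI (piC (α u') ϖ) = 0 := redHom_piC σ hσO ϖ hϖ hσfrac (α u') U hσu
  have hπZ : rZ (piC (α u') ϖ) = 0 :=
    redHom_piC (σ.comp (w : L →+* L)) (sigmaW_O σ hσO w hwO) ϖ hϖ (fun x => hσfrac (w x))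
      (α u') (qExpand O ℓ U) (sigmaW_u α σ u' U hσu w ℓ hwα)
  -- the coordinate
  have huR : rM (polyChart u' X) = ρU := by
    rw [redM_polyChart, Polynomial.map_X, eval₂_X]
  have hpow : ρU ^ (ℓ * ℓ) - ρU ≠ 0 := by
    intro h
    have h1 : ρU ^ (ℓ * ℓ) = ρU := sub_eq_zero.mp h
    have h2 := congrArg HahnSeries.order h1
    rw [HahnSeries.order_pow, nsmul_eq_mul] at h2
    have h3 : ((ℓ * ℓ : ℕ) : ℤ) = 1 := by
      have h4 : ((ℓ * ℓ : ℕ) : ℤ) * (ρU).order = 1 * (ρU).order := by
        rw [one_mul]; exact h2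
      exact mul_right_cancel₀ hord h4
    have h5 : ℓ * ℓ = 1 := by exact_mod_cast h3
    nlinarith
  -- the algebra structure `R → C`
  letI : Algebra (Chart O u') (Chart O (α u')) := (ι).toAlgebra
  have halg : ∀ a : Chart O u', algebraMap (Chart O u') (Chart O (α u')) a = ι a := fun _ => rfl
  have hπalg : algebraMap (Chart O u') (Chart O (α u')) (piC u' ϖ) = piC (α u') ϖ :=
    incl_piC ϖ α hαO u'
  have hdata : Fibre.Data (piC u' ϖ) (RingHom.ker rI) (RingHom.ker rZ) W :=
    { inf_eq := by
        apply le_antisymm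
        · rintro c ⟨hI, hZ⟩
          rw [hπalg, Ideal.mem_span_singleton]
          exact dvd_of_redInf_redZero ϖ hϖ α hαO σ hσO hσfrac u' U hσu w hwO ℓ hwα hww hprime
            hcop hord hℓ hfrob hwu hrank c hI hZ
        · rw [Ideal.span_singleton_le_iff_mem, hπalg]
          exact ⟨hπI, hπZ⟩
      swap := fun c => Iff.rfl
      invol := fun c => wChart_wChart α u' w hwO hww hwu c
      onto := fun c => by
        obtain ⟨a, ha⟩ := exists_redInf_sub_eq_zero ϖ hϖ α hαO σ hσO hσfrac u' U hσu w hwO ℓ hwα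
          hww hprime hcop hord hℓ hfrob hwu hrank inferInstance c
        exact ⟨a, ha⟩
      ker := fun r hr => by
        rw [RingHom.mem_ker, halg, redInf_incl] at hr
        exact hcentre r hr }
  have hne : RingHom.ker rI ≠ RingHom.ker rZ := by
    obtain ⟨c, hcI, hcZ⟩ := exists_sep_inf ϖ hϖ α hαO σ hσO hσfrac u' U hσu w hwO ℓ hwα hww
      hprime hcop hord hℓ hfrob hwu hrank
    intro h
    have h1 : c ∈ RingHom.ker rI := hcI
    rw [h] at h1
    exact hcZ h1
  -- Kronecker
  have hWι : ∀ r : Chart O u', rI (W (ι r)) = qExpand (IsLocalRing.ResidueField O) ℓ (rM r) :=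
    fun r => by
      rw [redInf_wChart ϖ hϖ α σ hσO hσfrac u' U hσu w hwO ℓ hwα hww hwu, redZero_incl]
  have hK' : ∀ r : Chart O u', ∃ s : Chart O u',
      W (algebraMap (Chart O u') (Chart O (α u')) r) -
        algebraMap (Chart O u') (Chart O (α u')) (s ^ ℓ) ∈ RingHom.ker rI := by
    intro r
    obtain ⟨s, hs⟩ := hK r
    refine ⟨s, ?_⟩
    rw [RingHom.mem_ker, map_sub, halg, halg, hWι, redInf_incl, map_pow, hs, sub_self]
  have h1 : W (algebraMap (Chart O u') (Chart O (α u')) (polyChart u' X)) -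
      algebraMap (Chart O u') (Chart O (α u')) (polyChart u' X ^ ℓ) ∈ RingHom.ker rI := by
    rw [RingHom.mem_ker, map_sub, halg, halg, hWι, redInf_incl, map_pow, huR, hfrob, sub_self]
  have h2 : W (algebraMap (Chart O u') (Chart O (α u')) (polyChart u' X ^ ℓ)) -
      algebraMap (Chart O u') (Chart O (α u')) (polyChart u' X ^ (ℓ * ℓ)) ∈ RingHom.ker rI := by
    have e1 : rM (polyChart u' X ^ ℓ) = ρU ^ ℓ := by rw [map_pow, huR]
    have e2 : rM (polyChart u' X ^ (ℓ * ℓ)) = ρU ^ (ℓ * ℓ) := by rw [map_pow, huR]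
    rw [RingHom.mem_ker, map_sub, halg, halg, hWι, redInf_incl, e1, e2, map_pow, hfrob,
      ← pow_mul, sub_self]
  have hrr : ¬ piC u' ϖ ∣ polyChart u' X ^ (ℓ * ℓ) - polyChart u' X := by
    rintro ⟨d, hd⟩
    apply hpow
    have h3 := congrArg (rM) hd
    rw [map_sub, map_pow, huR, map_mul, hπM, zero_mul] at h3
    exact h3
  exact FibreNodal.isNodalChart_of_exists_pow ϖ (α u') hπalg hdata hne ℓ hℓ hK'
    (polyChart u' X) (polyChart u' X ^ ℓ) (polyChart u' X ^ (ℓ * ℓ)) h1 h2 hrr

end Main

end Fermat.Agent.S34.Modular.ChartZero
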