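import Mathlib
import Fermat.Agent.S34.Modular.ChartZero

/-!
# PROGRAM U, (M1)/(M2): the two Gauss primes on the OVERLAP chart and the `NodalDatum`

Level-free, in the setting of `S34/TwoPrimesGauss.lean` / `S34/Modular/ChartZero.lean`.

* `redSub` : for an `O`-subalgebra `S ⊆ L` whose image under a `q`-expansion embedding `τ` lies
  in the Gauss ring `V`, the reduction map `integralClosure S L →+* κ((q))`
  (`redSub_apply`, `redSub_inclHom`; it is `TwoPrimesGauss.redHom` for `S = O[u]`: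
  `redSub_eq_redHom`).
* `redOv` : the reduction on the overlap chart `Nodal.Overlap O u` (integral closure of
  `O[u, u⁻¹]`) when `τ u = ι U` with `ρ U ≠ 0` (so that `u` is a unit of `V`).
* `redOvInf`, `redOvZero` : the two reductions `red ∘ σ`, `red ∘ σ ∘ w` on the overlap of
  `u = α u'`; `P₁ := ker redOvInf`, `P₂ := ker redOvZero` (`mem_P₁_iff`, `mem_P₂_iff` in the
  elementwise Gauss vocabulary; `comap_zero_P₁`, `comap_zero_P₂`: their contractions to the chart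
  of `u` are `ker redInf`, `ker redZero`; `comap_inf_P₁`, `comap_inf_P₂`: their contractions to
  the chart of `u⁻¹` are the kernels of `redSub` on that chart).
* `nodalDatum` : the `Nodal.NodalDatum ϖ (α u')` with these two primes, from the hypotheses of
  `ChartZero.isNodalChart_zero` and the chart-at-infinity statement `hinf`.
-/

set_option autoImplicit false
set_option linter.unusedSectionVars false
set_option linter.style.haveILetI false

noncomputable section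

namespace Fermat.Agent.S34.Modular.Datum

open ModularCurve Polynomial
open Fermat.Agent.S30 Fermat.Agent.S30.Model.GlueChart Fermat.Agent.S34
  Fermat.Agent.S34.TwoPrimesGauss

/-! ### Reduction maps on integral closures -/

section RedSub

variable {O E : Type*} [CommRing O] [IsDomain O] [IsDiscreteValuationRing O] [Field E]
  [Algebra O E] [FaithfulSMul O E] {L : Type*} [Field L] [Algebra O L]
  (τ : L →+* LaurentSeries E) (ϖ : O) (hϖ : Irreducible ϖ)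
  (hτfrac : ∀ x : L, τ x ∈ GaussDVR.fracField O E)

include hϖ hτfrac in
/-- Elements integral over a subalgebra mapping into the Gauss ring map into the Gauss ring. -/
theorem tau_mem_V (S : Subalgebra O L) (hS : ∀ x : L, x ∈ S → τ x ∈ GaussDVR.V O E) {c : L}
    (hc : IsIntegral S c) : τ c ∈ GaussDVR.V O E := by
  refine GaussDVR.mem_of_isIntegralElem E ϖ hϖ (τ.comp (algebraMap S L)) (fun b => hS _ b.2)
    (τ c) (hτfrac c) ?_
  obtain ⟨p, hp, hroot⟩ := hc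
  refine ⟨p, hp, ?_⟩
  rw [← hom_eval₂, hroot, map_zero]

/-- The integral closure of `S` maps to the Gauss ring. -/
def toVSub (S : Subalgebra O L) (hS : ∀ x : L, x ∈ S → τ x ∈ GaussDVR.V O E) :
    integralClosure S L →+* GaussDVR.V O E :=
  (τ.comp (algebraMap (integralClosure S L) L)).codRestrict (GaussDVR.V O E)
    (fun c => tau_mem_V τ ϖ hϖ hτfrac S hS c.2)

/-- **The reduction map** on the integral closure of a subalgebra `S` with `τ S ⊆ V`. -/
def redSub (S : Subalgebra O L) (hS : ∀ x : L, x ∈ S → τ x ∈ GaussDVR.V O E) :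
    integralClosure S L →+* LaurentSeries (IsLocalRing.ResidueField O) :=
  (GaussDVR.red O E).comp (toVSub τ ϖ hϖ hτfrac S hS)

theorem redSub_apply (S : Subalgebra O L) (hS : ∀ x : L, x ∈ S → τ x ∈ GaussDVR.V O E)
    (c : integralClosure S L) (hc : τ (c : L) ∈ GaussDVR.V O E) :
    redSub τ ϖ hϖ hτfrac S hS c = GaussDVR.red O E ⟨τ (c : L), hc⟩ := rfl

theorem mem_ker_redSub_iff (S : Subalgebra O L) (hS : ∀ x : L, x ∈ S → τ x ∈ GaussDVR.V O E)
    (c : integralClosure S L) (hc : τ (c : L) ∈ GaussDVR.V O E) :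
    c ∈ RingHom.ker (redSub τ ϖ hϖ hτfrac S hS) ↔ GaussDVR.red O E ⟨τ (c : L), hc⟩ = 0 :=
  Iff.rfl

/-- Compatibility with the inclusion of integral closures of nested subalgebras. -/
theorem redSub_inclHom {S T : Subalgebra O L} (h : S ≤ T)
    (hS : ∀ x : L, x ∈ S → τ x ∈ GaussDVR.V O E) (hT : ∀ x : L, x ∈ T → τ x ∈ GaussDVR.V O E)
    (c : integralClosure S L) :
    redSub τ ϖ hϖ hτfrac T hT (inclHom h c) = redSub τ ϖ hϖ hτfrac S hS c := rfl

theorem comap_ker_redSub {S T : Subalgebra O L} (h : S ≤ T)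
    (hS : ∀ x : L, x ∈ S → τ x ∈ GaussDVR.V O E) (hT : ∀ x : L, x ∈ T → τ x ∈ GaussDVR.V O E) :
    (RingHom.ker (redSub τ ϖ hϖ hτfrac T hT)).comap (inclHom h) =
      RingHom.ker (redSub τ ϖ hϖ hτfrac S hS) := rfl

/-- The uniformiser reduces to zero. -/
theorem redSub_piElt (hτO : ∀ r : O, τ (algebraMap O L r) = HahnSeries.C (algebraMap O E r))
    (S : Subalgebra O L) (hS : ∀ x : L, x ∈ S → τ x ∈ GaussDVR.V O E) :
    redSub τ ϖ hϖ hτfrac S hS (piElt S ϖ) = 0 := by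
  have h : toVSub τ ϖ hϖ hτfrac S hS (piElt S ϖ) = GaussDVR.ofInt O E (HahnSeries.C ϖ) :=
    Subtype.ext (by
      show τ (algebraMap O L ϖ) = _
      rw [hτO, GaussDVR.coe_ofInt, GaussDVR.iota_C])
  show GaussDVR.red O E (toVSub τ ϖ hϖ hτfrac S hS (piElt S ϖ)) = _
  rw [h, GaussDVR.red_ofInt]
  exact GaussDVR.rho_C_unif ϖ hϖ

variable (hτO : ∀ r : O, τ (algebraMap O L r) = HahnSeries.C (algebraMap O E r))

include hτO in
/-- `O[T] ⊆ V` as soon as `τ T ⊆ V`. -/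
theorem adjoin_le_V (T : Set L) (hT : ∀ t ∈ T, τ t ∈ GaussDVR.V O E) :
    ∀ x : L, x ∈ Algebra.adjoin O T → τ x ∈ GaussDVR.V O E := by
  intro x hx
  induction hx using Algebra.adjoin_induction with
  | mem x hx => exact hT x hx
  | algebraMap a =>
      rw [hτO, ← GaussDVR.iota_C]
      exact GaussDVR.mem_of_int O E _
  | add x y _ _ hx hy => rw [map_add]; exact (GaussDVR.V O E).add_mem hx hy
  | mul x y _ _ hx hy => rw [map_mul]; exact (GaussDVR.V O E).mul_mem hx hy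

/-- `τ u = ι U ∈ V`. -/
theorem tau_u_mem_V (u : L) (U : LaurentSeries O) (hτu : τ u = GaussDVR.iota O E U) :
    τ u ∈ GaussDVR.V O E := by
  rw [hτu]; exact GaussDVR.mem_of_int O E U

/-- `τ u⁻¹ ∈ V` when `ρ U ≠ 0`. -/
theorem tau_inv_mem_V (u : L) (U : LaurentSeries O) (hτu : τ u = GaussDVR.iota O E U)
    (hρ : GaussDVR.rho O U ≠ 0) : τ u⁻¹ ∈ GaussDVR.V O E := by
  rw [map_inv₀, hτu]
  have h := GaussDVR.inv_mem O E (GaussDVR.ofInt O E U) (by rw [GaussDVR.red_ofInt]; exact hρ)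
  exact h

include hτO in
theorem adjoin_singleton_le_V (u : L) (U : LaurentSeries O)
    (hτu : τ u = GaussDVR.iota O E U) :
    ∀ x : L, x ∈ Algebra.adjoin O ({u} : Set L) → τ x ∈ GaussDVR.V O E :=
  adjoin_le_V τ hτO _ (fun t ht => by
    rw [Set.mem_singleton_iff.mp ht]; exact tau_u_mem_V τ u U hτu)

include hτO in
theorem adjoin_inv_le_V (u : L) (U : LaurentSeries O)
    (hτu : τ u = GaussDVR.iota O E U) (hρ : GaussDVR.rho O U ≠ 0) :
    ∀ x : L, x ∈ Algebra.adjoin O ({u⁻¹} : Set L) → τ x ∈ GaussDVR.V O E :=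
  adjoin_le_V τ hτO _ (fun t ht => by
    rw [Set.mem_singleton_iff.mp ht]; exact tau_inv_mem_V τ u U hτu hρ)

include hτO in
theorem adjoin_pair_le_V (u : L) (U : LaurentSeries O)
    (hτu : τ u = GaussDVR.iota O E U) (hρ : GaussDVR.rho O U ≠ 0) :
    ∀ x : L, x ∈ Algebra.adjoin O ({u, u⁻¹} : Set L) → τ x ∈ GaussDVR.V O E :=
  adjoin_le_V τ hτO _ (fun t ht => by
    rcases ht with rfl | ht
    · exact tau_u_mem_V τ t U hτu
    · rw [Set.mem_singleton_iff.mp ht]; exact tau_inv_mem_V τ u U hτu hρ)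

/-- `redSub` on the chart of `u` is `TwoPrimesGauss.redHom`. -/
theorem redSub_eq_redHom (u : L) (U : LaurentSeries O) (hτu : τ u = GaussDVR.iota O E U) :
    redSub τ ϖ hϖ hτfrac (Algebra.adjoin O ({u} : Set L))
        (adjoin_singleton_le_V τ hτO u U hτu) =
      redHom τ hτO ϖ hϖ hτfrac u U hτu := rfl

/-- **Reduction on the overlap chart** (integral closure of `O[u, u⁻¹]`). -/
def redOv (u : L) (U : LaurentSeries O) (hτu : τ u = GaussDVR.iota O E U)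
    (hρ : GaussDVR.rho O U ≠ 0) :
    Nodal.Overlap O u →+* LaurentSeries (IsLocalRing.ResidueField O) :=
  redSub τ ϖ hϖ hτfrac (Algebra.adjoin O ({u, u⁻¹} : Set L)) (adjoin_pair_le_V τ hτO u U hτu hρ)

/-- **Reduction on the chart at infinity** (integral closure of `O[u⁻¹]`). -/
def redInv (u : L) (U : LaurentSeries O) (hτu : τ u = GaussDVR.iota O E U)
    (hρ : GaussDVR.rho O U ≠ 0) :
    Nodal.Chart O u⁻¹ →+* LaurentSeries (IsLocalRing.ResidueField O) :=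
  redSub τ ϖ hϖ hτfrac (Algebra.adjoin O ({u⁻¹} : Set L)) (adjoin_inv_le_V τ hτO u U hτu hρ)

theorem redOv_apply (u : L) (U : LaurentSeries O) (hτu : τ u = GaussDVR.iota O E U)
    (hρ : GaussDVR.rho O U ≠ 0) (x : Nodal.Overlap O u) (hx : τ (x : L) ∈ GaussDVR.V O E) :
    redOv τ ϖ hϖ hτfrac hτO u U hτu hρ x = GaussDVR.red O E ⟨τ (x : L), hx⟩ := rfl

theorem redInv_apply (u : L) (U : LaurentSeries O) (hτu : τ u = GaussDVR.iota O E U)
    (hρ : GaussDVR.rho O U ≠ 0) (x : Nodal.Chart O u⁻¹) (hx : τ (x : L) ∈ GaussDVR.V O E) :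
    redInv τ ϖ hϖ hτfrac hτO u U hτu hρ x = GaussDVR.red O E ⟨τ (x : L), hx⟩ := rfl

theorem redOv_toOverlapZero (u : L) (U : LaurentSeries O) (hτu : τ u = GaussDVR.iota O E U)
    (hρ : GaussDVR.rho O U ≠ 0) (c : Nodal.Chart O u) :
    redOv τ ϖ hϖ hτfrac hτO u U hτu hρ (Nodal.toOverlapZero O u c) =
      redHom τ hτO ϖ hϖ hτfrac u U hτu c :=
  (redSub_inclHom τ ϖ hϖ hτfrac (Nodal.adjoin_le_overlap O u)
    (adjoin_singleton_le_V τ hτO u U hτu) (adjoin_pair_le_V τ hτO u U hτu hρ) c).trans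
    (RingHom.congr_fun (redSub_eq_redHom τ ϖ hϖ hτfrac hτO u U hτu) c)

theorem redOv_toOverlapInf (u : L) (U : LaurentSeries O) (hτu : τ u = GaussDVR.iota O E U)
    (hρ : GaussDVR.rho O U ≠ 0) (c : Nodal.Chart O u⁻¹) :
    redOv τ ϖ hϖ hτfrac hτO u U hτu hρ (Nodal.toOverlapInf O u c) =
      redInv τ ϖ hϖ hτfrac hτO u U hτu hρ c :=
  redSub_inclHom τ ϖ hϖ hτfrac (Nodal.adjoin_inv_le_overlap O u)
    (adjoin_inv_le_V τ hτO u U hτu hρ) (adjoin_pair_le_V τ hτO u U hτu hρ) c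

theorem comap_zero_ker_redOv (u : L) (U : LaurentSeries O) (hτu : τ u = GaussDVR.iota O E U)
    (hρ : GaussDVR.rho O U ≠ 0) :
    (RingHom.ker (redOv τ ϖ hϖ hτfrac hτO u U hτu hρ)).comap (Nodal.toOverlapZero O u) =
      RingHom.ker (redHom τ hτO ϖ hϖ hτfrac u U hτu) := by
  ext c
  rw [Ideal.mem_comap, RingHom.mem_ker, RingHom.mem_ker, redOv_toOverlapZero]

theorem comap_inf_ker_redOv (u : L) (U : LaurentSeries O) (hτu : τ u = GaussDVR.iota O E U)
    (hρ : GaussDVR.rho O U ≠ 0) :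
    (RingHom.ker (redOv τ ϖ hϖ hτfrac hτO u U hτu hρ)).comap (Nodal.toOverlapInf O u) =
      RingHom.ker (redInv τ ϖ hϖ hτfrac hτO u U hτu hρ) := by
  ext c
  rw [Ideal.mem_comap, RingHom.mem_ker, RingHom.mem_ker, redOv_toOverlapInf]

end RedSub

/-! ### The two Gauss primes on the overlap and the nodal datum -/

section Main

variable {O E : Type*} [CommRing O] [IsDomain O] [IsDiscreteValuationRing O] [Field E]
  [Algebra O E] [FaithfulSMul O E]
  {L' L : Type*} [Field L'] [Field L] [Algebra O L'] [Algebra O L]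
  (ϖ : O) (hϖ : Irreducible ϖ)
  (α : L' →+* L) (hαO : ∀ r : O, α (algebraMap O L' r) = algebraMap O L r)
  (σ : L →+* LaurentSeries E)
  (hσO : ∀ r : O, σ (algebraMap O L r) = HahnSeries.C (algebraMap O E r))
  (hσfrac : ∀ x : L, σ x ∈ GaussDVR.fracField O E)
  (u' : L') (U : LaurentSeries O) (hσu : σ (α u') = GaussDVR.iota O E U)
  (w : L ≃+* L) (hwO : ∀ r : O, w (algebraMap O L r) = algebraMap O L r)
  (ℓ : ℕ) [NeZero ℓ]
  (hwα : ∀ x : L', σ (w (α x)) = qExpand E ℓ (σ (α x)))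
  (hρ : GaussDVR.rho O U ≠ 0)

include hρ in
theorem rho_qExpand_ne_zero : GaussDVR.rho O (qExpand O ℓ U) ≠ 0 := by
  rw [coeffMap_qExpand]
  exact fun h0 => hρ (qExpand_injective ℓ (by rw [h0, map_zero]))

/-- Reduction at the `∞`-component on the overlap chart of `u = α u'`. -/
def redOvInf : Nodal.Overlap O (α u') →+* LaurentSeries (IsLocalRing.ResidueField O) :=
  redOv σ ϖ hϖ hσfrac hσO (α u') U hσu hρ

/-- Reduction at the `0`-component on the overlap chart of `u = α u'`: reduce `w x`. -/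
def redOvZero : Nodal.Overlap O (α u') →+* LaurentSeries (IsLocalRing.ResidueField O) :=
  redOv (σ.comp (w : L →+* L)) ϖ hϖ (fun x => hσfrac (w x)) (sigmaW_O σ hσO w hwO) (α u')
    (qExpand O ℓ U) (sigmaW_u α σ u' U hσu w ℓ hwα) (rho_qExpand_ne_zero U ℓ hρ)

/-- Reduction at the `∞`-component on the chart at infinity (chart of `u⁻¹`). -/
def redInvInf : Nodal.Chart O (α u')⁻¹ →+* LaurentSeries (IsLocalRing.ResidueField O) :=
  redInv σ ϖ hϖ hσfrac hσO (α u') U hσu hρ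

/-- Reduction at the `0`-component on the chart at infinity (chart of `u⁻¹`). -/
def redInvZero : Nodal.Chart O (α u')⁻¹ →+* LaurentSeries (IsLocalRing.ResidueField O) :=
  redInv (σ.comp (w : L →+* L)) ϖ hϖ (fun x => hσfrac (w x)) (sigmaW_O σ hσO w hwO) (α u')
    (qExpand O ℓ U) (sigmaW_u α σ u' U hσu w ℓ hwα) (rho_qExpand_ne_zero U ℓ hρ)

/-- **The `∞`-component** `P₁` on the overlap chart. -/
def P₁ : Ideal (Nodal.Overlap O (α u')) := RingHom.ker (redOvInf ϖ hϖ α σ hσO hσfrac u' U hσu hρ)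

/-- **The `0`-component** `P₂` on the overlap chart. -/
def P₂ : Ideal (Nodal.Overlap O (α u')) :=
  RingHom.ker (redOvZero ϖ hϖ α σ hσO hσfrac u' U hσu w hwO ℓ hwα hρ)

local notation "rI" => redInf ϖ hϖ α σ hσO hσfrac u' U hσu
local notation "rZ" => redZero ϖ hϖ α σ hσO hσfrac u' U hσu w hwO ℓ hwα
local notation "p₁" => P₁ ϖ hϖ α σ hσO hσfrac u' U hσu hρ
local notation "p₂" => P₂ ϖ hϖ α σ hσO hσfrac u' U hσu w hwO ℓ hwα hρ

instance isPrime_P₁ : (p₁).IsPrime := RingHom.ker_isPrime _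

instance isPrime_P₂ : (p₂).IsPrime := RingHom.ker_isPrime _

include hϖ hσO hσfrac hσu hρ in
/-- Elements of the overlap chart have `q`-expansion in the Gauss ring. -/
theorem sigma_mem_V_overlap (x : Nodal.Overlap O (α u')) : σ (x : L) ∈ GaussDVR.V O E :=
  tau_mem_V σ ϖ hϖ hσfrac _ (adjoin_pair_le_V σ hσO (α u') U hσu hρ) x.2

include hϖ hσO hσfrac hσu hwO hwα hρ in
/-- ... and so do their images under `w`. -/
theorem sigma_w_mem_V_overlap (x : Nodal.Overlap O (α u')) : σ (w (x : L)) ∈ GaussDVR.V O E :=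
  tau_mem_V (σ.comp (w : L →+* L)) ϖ hϖ (fun x => hσfrac (w x)) _
    (adjoin_pair_le_V (σ.comp (w : L →+* L)) (sigmaW_O σ hσO w hwO) (α u') (qExpand O ℓ U)
      (sigmaW_u α σ u' U hσu w ℓ hwα) (rho_qExpand_ne_zero U ℓ hρ)) x.2

/-- `x ∈ P₁ ↔ red (σ x) = 0` (any proof of `σ x ∈ V`). -/
theorem mem_P₁_iff (x : Nodal.Overlap O (α u')) (hx : σ (x : L) ∈ GaussDVR.V O E) :
    x ∈ p₁ ↔ GaussDVR.red O E ⟨σ (x : L), hx⟩ = 0 := Iff.rfl

/-- `x ∈ P₂ ↔ red (σ (w x)) = 0` (any proof of `σ (w x) ∈ V`). -/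
theorem mem_P₂_iff (x : Nodal.Overlap O (α u')) (hx : σ (w (x : L)) ∈ GaussDVR.V O E) :
    x ∈ p₂ ↔ GaussDVR.red O E ⟨σ (w (x : L)), hx⟩ = 0 := Iff.rfl

/-- The contraction of `P₁` to the chart of `u` is `ker redInf`. -/
theorem comap_zero_P₁ : (p₁).comap (Nodal.toOverlapZero O (α u')) = RingHom.ker rI :=
  comap_zero_ker_redOv σ ϖ hϖ hσfrac hσO (α u') U hσu hρ

/-- The contraction of `P₂` to the chart of `u` is `ker redZero`. -/
theorem comap_zero_P₂ : (p₂).comap (Nodal.toOverlapZero O (α u')) = RingHom.ker rZ :=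
  comap_zero_ker_redOv (σ.comp (w : L →+* L)) ϖ hϖ (fun x => hσfrac (w x))
    (sigmaW_O σ hσO w hwO) (α u') (qExpand O ℓ U) (sigmaW_u α σ u' U hσu w ℓ hwα)
    (rho_qExpand_ne_zero U ℓ hρ)

/-- The contraction of `P₁` to the chart of `u⁻¹` is `ker redInvInf`. -/
theorem comap_inf_P₁ : (p₁).comap (Nodal.toOverlapInf O (α u')) =
    RingHom.ker (redInvInf ϖ hϖ α σ hσO hσfrac u' U hσu hρ) :=
  comap_inf_ker_redOv σ ϖ hϖ hσfrac hσO (α u') U hσu hρ

/-- The contraction of `P₂` to the chart of `u⁻¹` is `ker redInvZero`. -/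
theorem comap_inf_P₂ : (p₂).comap (Nodal.toOverlapInf O (α u')) =
    RingHom.ker (redInvZero ϖ hϖ α σ hσO hσfrac u' U hσu w hwO ℓ hwα hρ) :=
  comap_inf_ker_redOv (σ.comp (w : L →+* L)) ϖ hϖ (fun x => hσfrac (w x))
    (sigmaW_O σ hσO w hwO) (α u') (qExpand O ℓ U) (sigmaW_u α σ u' U hσu w ℓ hwα)
    (rho_qExpand_ne_zero U ℓ hρ)

/-- Elementwise form on the chart at infinity: `x ∈ P₁^∞ ↔ red (σ x) = 0`. -/
theorem mem_comap_inf_P₁_iff (x : Nodal.Chart O (α u')⁻¹) (hx : σ (x : L) ∈ GaussDVR.V O E) :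
    x ∈ (p₁).comap (Nodal.toOverlapInf O (α u')) ↔ GaussDVR.red O E ⟨σ (x : L), hx⟩ = 0 := by
  rw [comap_inf_P₁]
  exact mem_ker_redSub_iff σ ϖ hϖ hσfrac _ _ x hx

/-- Elementwise form on the chart at infinity: `x ∈ P₂^∞ ↔ red (σ (w x)) = 0`. -/
theorem mem_comap_inf_P₂_iff (x : Nodal.Chart O (α u')⁻¹)
    (hx : σ (w (x : L)) ∈ GaussDVR.V O E) :
    x ∈ (p₂).comap (Nodal.toOverlapInf O (α u')) ↔
      GaussDVR.red O E ⟨σ (w (x : L)), hx⟩ = 0 := by
  rw [comap_inf_P₂]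
  exact mem_ker_redSub_iff (σ.comp (w : L →+* L)) ϖ hϖ (fun x => hσfrac (w x)) _ _ x hx

/-- The uniformiser lies in both components. -/
theorem piElt_mem_P₁ : piElt (Algebra.adjoin O ({α u', (α u')⁻¹} : Set L)) ϖ ∈ p₁ :=
  redSub_piElt σ ϖ hϖ hσfrac hσO _ _

theorem piElt_mem_P₂ : piElt (Algebra.adjoin O ({α u', (α u')⁻¹} : Set L)) ϖ ∈ p₂ :=
  redSub_piElt (σ.comp (w : L →+* L)) ϖ hϖ (fun x => hσfrac (w x)) (sigmaW_O σ hσO w hwO) _ _

/-- The nodal datum with primes `P₁`, `P₂` from its two chart statements (no other input). -/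
def mkDatum
    (hzero : Nodal.IsNodalChart ϖ (α u') ((p₁).comap (Nodal.toOverlapZero O (α u')))
      ((p₂).comap (Nodal.toOverlapZero O (α u'))))
    (hinf : Nodal.IsNodalChart ϖ (α u')⁻¹ ((p₁).comap (Nodal.toOverlapInf O (α u')))
      ((p₂).comap (Nodal.toOverlapInf O (α u')))) :
    Nodal.NodalDatum ϖ (α u') where
  P₁ := p₁
  P₂ := p₂
  isPrime₁ := isPrime_P₁ ϖ hϖ α σ hσO hσfrac u' U hσu hρ
  isPrime₂ := isPrime_P₂ ϖ hϖ α σ hσO hσfrac u' U hσu w hwO ℓ hwα hρ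
  chartZero := hzero
  chartInf := hinf

theorem mkDatum_P₁
    (hzero : Nodal.IsNodalChart ϖ (α u') ((p₁).comap (Nodal.toOverlapZero O (α u')))
      ((p₂).comap (Nodal.toOverlapZero O (α u'))))
    (hinf : Nodal.IsNodalChart ϖ (α u')⁻¹ ((p₁).comap (Nodal.toOverlapInf O (α u')))
      ((p₂).comap (Nodal.toOverlapInf O (α u')))) :
    (mkDatum ϖ hϖ α σ hσO hσfrac u' U hσu w hwO ℓ hwα hρ hzero hinf).P₁ = p₁ := rfl

theorem mkDatum_P₂
    (hzero : Nodal.IsNodalChart ϖ (α u') ((p₁).comap (Nodal.toOverlapZero O (α u')))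
      ((p₂).comap (Nodal.toOverlapZero O (α u'))))
    (hinf : Nodal.IsNodalChart ϖ (α u')⁻¹ ((p₁).comap (Nodal.toOverlapInf O (α u')))
      ((p₂).comap (Nodal.toOverlapInf O (α u')))) :
    (mkDatum ϖ hϖ α σ hσO hσfrac u' U hσu w hwO ℓ hwα hρ hzero hinf).P₂ = p₂ := rfl

end Main

/-! ### The nodal datum -/

section Datum

variable {O E : Type*} [CommRing O] [IsDomain O] [IsDiscreteValuationRing O] [Field E]
  [Algebra O E] [FaithfulSMul O E]
  {L' L : Type*} [Field L'] [Field L] [Algebra O L'] [Algebra O L]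
  (ϖ : O) (hϖ : Irreducible ϖ)
  (α : L' →+* L) (hαO : ∀ r : O, α (algebraMap O L' r) = algebraMap O L r)
  (σ : L →+* LaurentSeries E)
  (hσO : ∀ r : O, σ (algebraMap O L r) = HahnSeries.C (algebraMap O E r))
  (hσfrac : ∀ x : L, σ x ∈ GaussDVR.fracField O E)
  (u' : L') (U : LaurentSeries O) (hσu : σ (α u') = GaussDVR.iota O E U)
  (w : L ≃+* L) (hwO : ∀ r : O, w (algebraMap O L r) = algebraMap O L r)
  (ℓ : ℕ) [NeZero ℓ]
  (hwα : ∀ x : L', σ (w (α x)) = qExpand E ℓ (σ (α x)))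
  (hww : ∀ z : L, w (w z) = z)
  (hprime : Prime (piC u' ϖ))
  (hcop : IsCoprime (GaussDVR.rho O U).order (ℓ : ℤ)) (hord : (GaussDVR.rho O U).order ≠ 0)
  (hℓ : 2 ≤ ℓ)
  (hfrob : qExpand (IsLocalRing.ResidueField O) ℓ (GaussDVR.rho O U) = GaussDVR.rho O U ^ ℓ)
  (hwu : IsIntegral (Algebra.adjoin O {α u'}) (w (α u')))
  (hrank : ∀ v : Option (Fin 1 ⊕ Fin ℓ) → Chart O (α u'),
    ∃ c : Option (Fin 1 ⊕ Fin ℓ) → Chart O u', c ≠ 0 ∧ ∑ i, incl α hαO u' (c i) * v i = 0)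
  (hρ : GaussDVR.rho O U ≠ 0)

local notation "rM" => redM ϖ hϖ α hαO σ hσO hσfrac u' U hσu
local notation "p₁" => P₁ ϖ hϖ α σ hσO hσfrac u' U hσu hρ
local notation "p₂" => P₂ ϖ hϖ α σ hσO hσfrac u' U hσu w hwO ℓ hwα hρ

include hww hprime hcop hord hℓ hfrob hwu hrank in
/-- **`chartZero`** for the contractions of the overlap primes `P₁`, `P₂`
(= `ChartZero.isNodalChart_zero`). -/
theorem chartZero
    (hD : IsDedekindDomain (Chart O u' ⧸ Ideal.span {piC u' ϖ}))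
    (hK : ∀ r : Chart O u', ∃ s : Chart O u',
      qExpand (IsLocalRing.ResidueField O) ℓ (rM r) = rM s ^ ℓ) :
    Nodal.IsNodalChart ϖ (α u') ((p₁).comap (Nodal.toOverlapZero O (α u')))
      ((p₂).comap (Nodal.toOverlapZero O (α u'))) := by
  rw [comap_zero_P₁, comap_zero_P₂]
  exact ChartZero.isNodalChart_zero ϖ hϖ α hαO σ hσO hσfrac u' U hσu w hwO ℓ hwα hww hprime hcop
    hord hℓ hfrob hwu hrank hD hK

/-- **The nodal datum** of the chart `u = α u'` at level `ℓM`: the two Gauss primes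
`P₁ = ker (red ∘ σ)`, `P₂ = ker (red ∘ σ ∘ w)` of the overlap chart; `chartZero` from
`ChartZero.isNodalChart_zero`, `chartInf` a hypothesis (produced by `Nodal/ChartTransfer` and
the cusp analysis). -/
def nodalDatum
    (hD : IsDedekindDomain (Chart O u' ⧸ Ideal.span {piC u' ϖ}))
    (hK : ∀ r : Chart O u', ∃ s : Chart O u',
      qExpand (IsLocalRing.ResidueField O) ℓ (rM r) = rM s ^ ℓ)
    (hinf : Nodal.IsNodalChart ϖ (α u')⁻¹ ((p₁).comap (Nodal.toOverlapInf O (α u')))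
      ((p₂).comap (Nodal.toOverlapInf O (α u')))) :
    Nodal.NodalDatum ϖ (α u') where
  P₁ := p₁
  P₂ := p₂
  isPrime₁ := isPrime_P₁ ϖ hϖ α σ hσO hσfrac u' U hσu hρ
  isPrime₂ := isPrime_P₂ ϖ hϖ α σ hσO hσfrac u' U hσu w hwO ℓ hwα hρ
  chartZero := chartZero ϖ hϖ α hαO σ hσO hσfrac u' U hσu w hwO ℓ hwα hww hprime hcop hord hℓ
    hfrob hwu hrank hρ hD hK
  chartInf := hinf

theorem nodalDatum_P₁
    (hD : IsDedekindDomain (Chart O u' ⧸ Ideal.span {piC u' ϖ}))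
    (hK : ∀ r : Chart O u', ∃ s : Chart O u',
      qExpand (IsLocalRing.ResidueField O) ℓ (rM r) = rM s ^ ℓ)
    (hinf : Nodal.IsNodalChart ϖ (α u')⁻¹ ((p₁).comap (Nodal.toOverlapInf O (α u')))
      ((p₂).comap (Nodal.toOverlapInf O (α u')))) :
    (nodalDatum ϖ hϖ α hαO σ hσO hσfrac u' U hσu w hwO ℓ hwα hww hprime hcop hord hℓ hfrob hwu
      hrank hρ hD hK hinf).P₁ = p₁ := rfl

theorem nodalDatum_P₂
    (hD : IsDedekindDomain (Chart O u' ⧸ Ideal.span {piC u' ϖ}))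
    (hK : ∀ r : Chart O u', ∃ s : Chart O u',
      qExpand (IsLocalRing.ResidueField O) ℓ (rM r) = rM s ^ ℓ)
    (hinf : Nodal.IsNodalChart ϖ (α u')⁻¹ ((p₁).comap (Nodal.toOverlapInf O (α u')))
      ((p₂).comap (Nodal.toOverlapInf O (α u')))) :
    (nodalDatum ϖ hϖ α hαO σ hσO hσfrac u' U hσu w hwO ℓ hwα hww hprime hcop hord hℓ hfrob hwu
      hrank hρ hD hK hinf).P₂ = p₂ := rfl

end Datum

/-! ### Two `w`-stable charts: `chartInf` from the chart-zero theorem at a second coordinate -/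

section TwoCharts

variable {O E : Type*} [CommRing O] [IsDomain O] [IsDiscreteValuationRing O] [Field E]
  [Algebra O E] [FaithfulSMul O E]
  {L' L : Type*} [Field L'] [Field L] [Algebra O L'] [Algebra O L]
  (ϖ : O) (hϖ : Irreducible ϖ)
  (α : L' →+* L) (hαO : ∀ r : O, α (algebraMap O L' r) = algebraMap O L r)
  (σ : L →+* LaurentSeries E)
  (hσO : ∀ r : O, σ (algebraMap O L r) = HahnSeries.C (algebraMap O E r))
  (hσfrac : ∀ x : L, σ x ∈ GaussDVR.fracField O E)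
  (w : L ≃+* L) (hwO : ∀ r : O, w (algebraMap O L r) = algebraMap O L r)
  (ℓ : ℕ) [NeZero ℓ]
  (hwα : ∀ x : L', σ (w (α x)) = qExpand E ℓ (σ (α x)))
  (hww : ∀ z : L, w (w z) = z) (hℓ : 2 ≤ ℓ)
  -- the coordinate `v'` (the chart-zero package at `v'`)
  (v' : L') (U' : LaurentSeries O) (hσv : σ (α v') = GaussDVR.iota O E U')
  (hprime' : Prime (piC v' ϖ))
  (hcop' : IsCoprime (GaussDVR.rho O U').order (ℓ : ℤ)) (hord' : (GaussDVR.rho O U').order ≠ 0)
  (hfrob' : qExpand (IsLocalRing.ResidueField O) ℓ (GaussDVR.rho O U') = GaussDVR.rho O U' ^ ℓ)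
  (hwv : IsIntegral (Algebra.adjoin O {α v'}) (w (α v')))
  (hrank' : ∀ v : Option (Fin 1 ⊕ Fin ℓ) → Chart O (α v'),
    ∃ c : Option (Fin 1 ⊕ Fin ℓ) → Chart O v', c ≠ 0 ∧ ∑ i, incl α hαO v' (c i) * v i = 0)

include hwO hwα hww hℓ hprime' hcop' hord' hfrob' hwv hrank' in
/-- **Chart-zero theorem at the coordinate `v'`, transported to any `t = α v'`**, in the
`redSub` vocabulary (any proofs of `O[t] ⊆ V`). -/
theorem isNodalChart_redSub_of_eq
    (hD' : IsDedekindDomain (Chart O v' ⧸ Ideal.span {piC v' ϖ}))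
    (hK' : ∀ r : Chart O v', ∃ s : Chart O v',
      qExpand (IsLocalRing.ResidueField O) ℓ (redM ϖ hϖ α hαO σ hσO hσfrac v' U' hσv r) =
        redM ϖ hϖ α hαO σ hσO hσfrac v' U' hσv s ^ ℓ)
    (t : L) (ht : α v' = t)
    (hS₁ : ∀ x : L, x ∈ Algebra.adjoin O ({t} : Set L) → σ x ∈ GaussDVR.V O E)
    (hS₂ : ∀ x : L, x ∈ Algebra.adjoin O ({t} : Set L) →
      (σ.comp (w : L →+* L)) x ∈ GaussDVR.V O E) :
    Nodal.IsNodalChart ϖ t
      (RingHom.ker (redSub σ ϖ hϖ hσfrac (Algebra.adjoin O ({t} : Set L)) hS₁))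
      (RingHom.ker (redSub (σ.comp (w : L →+* L)) ϖ hϖ (fun x => hσfrac (w x))
        (Algebra.adjoin O ({t} : Set L)) hS₂)) := by
  subst ht
  have h0 := ChartZero.isNodalChart_zero ϖ hϖ α hαO σ hσO hσfrac v' U' hσv w hwO ℓ hwα hww
    hprime' hcop' hord' hℓ hfrob' hwv hrank' hD' hK'
  have e1 : redSub σ ϖ hϖ hσfrac (Algebra.adjoin O ({α v'} : Set L)) hS₁ =
      redInf ϖ hϖ α σ hσO hσfrac v' U' hσv :=
    redSub_eq_redHom σ ϖ hϖ hσfrac hσO (α v') U' hσv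
  have e2 : redSub (σ.comp (w : L →+* L)) ϖ hϖ (fun x => hσfrac (w x))
      (Algebra.adjoin O ({α v'} : Set L)) hS₂ =
      redZero ϖ hϖ α σ hσO hσfrac v' U' hσv w hwO ℓ hwα :=
    redSub_eq_redHom (σ.comp (w : L →+* L)) ϖ hϖ (fun x => hσfrac (w x)) (sigmaW_O σ hσO w hwO)
      (α v') (qExpand O ℓ U') (sigmaW_u α σ v' U' hσv w ℓ hwα)
  rw [e1, e2]
  exact h0

/-- **Transport along `α v' = t`** of ANY statement `Q` about the two Gauss primes of the chart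
of `α v'` (TwoPrimesGauss vocabulary: `ker redInf`, `ker redZero` at the coordinate `v'`) to the
chart of `t` (`redSub` vocabulary, any proofs of `O[t] ⊆ V`).  No cast is left to the consumer:
choose `Q := fun s p₁ p₂ => …` (e.g. the `hsep` / `hreg` shapes of `Nodal/ChartTransfer`, or
`IsDedekindDomain (Chart O s ⧸ p₁)`). -/
theorem transport_of_eq (t : L) (ht : α v' = t)
    (hS₁ : ∀ x : L, x ∈ Algebra.adjoin O ({t} : Set L) → σ x ∈ GaussDVR.V O E)
    (hS₂ : ∀ x : L, x ∈ Algebra.adjoin O ({t} : Set L) →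
      (σ.comp (w : L →+* L)) x ∈ GaussDVR.V O E)
    (Q : ∀ s : L, Ideal (Nodal.Chart O s) → Ideal (Nodal.Chart O s) → Prop)
    (h : Q (α v') (RingHom.ker (redInf ϖ hϖ α σ hσO hσfrac v' U' hσv))
      (RingHom.ker (redZero ϖ hϖ α σ hσO hσfrac v' U' hσv w hwO ℓ hwα))) :
    Q t (RingHom.ker (redSub σ ϖ hϖ hσfrac (Algebra.adjoin O ({t} : Set L)) hS₁))
      (RingHom.ker (redSub (σ.comp (w : L →+* L)) ϖ hϖ (fun x => hσfrac (w x))
        (Algebra.adjoin O ({t} : Set L)) hS₂)) := by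
  subst ht
  have e1 : redSub σ ϖ hϖ hσfrac (Algebra.adjoin O ({α v'} : Set L)) hS₁ =
      redInf ϖ hϖ α σ hσO hσfrac v' U' hσv :=
    redSub_eq_redHom σ ϖ hϖ hσfrac hσO (α v') U' hσv
  have e2 : redSub (σ.comp (w : L →+* L)) ϖ hϖ (fun x => hσfrac (w x))
      (Algebra.adjoin O ({α v'} : Set L)) hS₂ =
      redZero ϖ hϖ α σ hσO hσfrac v' U' hσv w hwO ℓ hwα :=
    redSub_eq_redHom (σ.comp (w : L →+* L)) ϖ hϖ (fun x => hσfrac (w x)) (sigmaW_O σ hσO w hwO)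
      (α v') (qExpand O ℓ U') (sigmaW_u α σ v' U' hσv w ℓ hwα)
  rw [e1, e2]
  exact h

variable (u' : L') (U : LaurentSeries O) (hσu : σ (α u') = GaussDVR.iota O E U)
  (hρ : GaussDVR.rho O U ≠ 0)

local notation "p₁" => P₁ ϖ hϖ α σ hσO hσfrac u' U hσu hρ
local notation "p₂" => P₂ ϖ hϖ α σ hσO hσfrac u' U hσu w hwO ℓ hwα hρ

/-- **Transport to the chart at infinity of the datum**: a statement `Q` about the two Gauss
primes at a coordinate `v'` with `α v' = (α u')⁻¹` (TwoPrimesGauss vocabulary) holds for the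
contractions `P₁.comap toOverlapInf`, `P₂.comap toOverlapInf` of the overlap primes of `u'`. -/
theorem transport_inf (hv : α v' = (α u')⁻¹)
    (Q : ∀ s : L, Ideal (Nodal.Chart O s) → Ideal (Nodal.Chart O s) → Prop)
    (h : Q (α v') (RingHom.ker (redInf ϖ hϖ α σ hσO hσfrac v' U' hσv))
      (RingHom.ker (redZero ϖ hϖ α σ hσO hσfrac v' U' hσv w hwO ℓ hwα))) :
    Q (α u')⁻¹ ((p₁).comap (Nodal.toOverlapInf O (α u')))
      ((p₂).comap (Nodal.toOverlapInf O (α u'))) := by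
  rw [comap_inf_P₁, comap_inf_P₂]
  exact transport_of_eq ϖ hϖ α σ hσO hσfrac w hwO ℓ hwα v' U' hσv (α u')⁻¹ hv _ _ Q h

include hww hℓ hprime' hcop' hord' hfrob' hwv hrank' in
/-- **`chartInf` when the chart at infinity is `w`-stable**: if `v'` is a level-`M` coordinate
with `α v' = (α u')⁻¹` satisfying the chart-zero package, the contractions of `P₁`, `P₂` to the
chart of `u⁻¹` satisfy the nodal contract. -/
theorem chartInf_of_inv
    (hD' : IsDedekindDomain (Chart O v' ⧸ Ideal.span {piC v' ϖ}))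
    (hK' : ∀ r : Chart O v', ∃ s : Chart O v',
      qExpand (IsLocalRing.ResidueField O) ℓ (redM ϖ hϖ α hαO σ hσO hσfrac v' U' hσv r) =
        redM ϖ hϖ α hαO σ hσO hσfrac v' U' hσv s ^ ℓ)
    (hv : α v' = (α u')⁻¹) :
    Nodal.IsNodalChart ϖ (α u')⁻¹ ((p₁).comap (Nodal.toOverlapInf O (α u')))
      ((p₂).comap (Nodal.toOverlapInf O (α u'))) := by
  rw [comap_inf_P₁, comap_inf_P₂]
  exact isNodalChart_redSub_of_eq ϖ hϖ α hαO σ hσO hσfrac w hwO ℓ hwα hww hℓ v' U' hσv hprime'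
    hcop' hord' hfrob' hwv hrank' hD' hK' (α u')⁻¹ hv _ _

end TwoCharts

section TwoChartsDatum

variable {O E : Type*} [CommRing O] [IsDomain O] [IsDiscreteValuationRing O] [Field E]
  [Algebra O E] [FaithfulSMul O E]
  {L' L : Type*} [Field L'] [Field L] [Algebra O L'] [Algebra O L]
  (ϖ : O) (hϖ : Irreducible ϖ)
  (α : L' →+* L) (hαO : ∀ r : O, α (algebraMap O L' r) = algebraMap O L r)
  (σ : L →+* LaurentSeries E)
  (hσO : ∀ r : O, σ (algebraMap O L r) = HahnSeries.C (algebraMap O E r))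
  (hσfrac : ∀ x : L, σ x ∈ GaussDVR.fracField O E)
  (w : L ≃+* L) (hwO : ∀ r : O, w (algebraMap O L r) = algebraMap O L r)
  (ℓ : ℕ) [NeZero ℓ]
  (hwα : ∀ x : L', σ (w (α x)) = qExpand E ℓ (σ (α x)))
  (hww : ∀ z : L, w (w z) = z) (hℓ : 2 ≤ ℓ)
  -- the coordinate `u'`
  (u' : L') (U : LaurentSeries O) (hσu : σ (α u') = GaussDVR.iota O E U)
  (hprime : Prime (piC u' ϖ))
  (hcop : IsCoprime (GaussDVR.rho O U).order (ℓ : ℤ)) (hord : (GaussDVR.rho O U).order ≠ 0)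
  (hfrob : qExpand (IsLocalRing.ResidueField O) ℓ (GaussDVR.rho O U) = GaussDVR.rho O U ^ ℓ)
  (hwu : IsIntegral (Algebra.adjoin O {α u'}) (w (α u')))
  (hrank : ∀ v : Option (Fin 1 ⊕ Fin ℓ) → Chart O (α u'),
    ∃ c : Option (Fin 1 ⊕ Fin ℓ) → Chart O u', c ≠ 0 ∧ ∑ i, incl α hαO u' (c i) * v i = 0)
  (hρ : GaussDVR.rho O U ≠ 0)
  -- the coordinate `v'` with `α v' = (α u')⁻¹`
  (v' : L') (U' : LaurentSeries O) (hσv : σ (α v') = GaussDVR.iota O E U')
  (hprime' : Prime (piC v' ϖ))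
  (hcop' : IsCoprime (GaussDVR.rho O U').order (ℓ : ℤ)) (hord' : (GaussDVR.rho O U').order ≠ 0)
  (hfrob' : qExpand (IsLocalRing.ResidueField O) ℓ (GaussDVR.rho O U') = GaussDVR.rho O U' ^ ℓ)
  (hwv : IsIntegral (Algebra.adjoin O {α v'}) (w (α v')))
  (hrank' : ∀ v : Option (Fin 1 ⊕ Fin ℓ) → Chart O (α v'),
    ∃ c : Option (Fin 1 ⊕ Fin ℓ) → Chart O v', c ≠ 0 ∧ ∑ i, incl α hαO v' (c i) * v i = 0)

/-- **The nodal datum when both charts are `w`-stable** (e.g. the Hauptmodul `t_r` at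
`ℓ ∈ {2, 3}`): `chartZero` from the package at `u'`, `chartInf` from the package at a
coordinate `v'` with `α v' = (α u')⁻¹`.  The primes are `Datum.P₁`, `Datum.P₂` of `u'`. -/
def nodalDatum_of_inv
    (hD : IsDedekindDomain (Chart O u' ⧸ Ideal.span {piC u' ϖ}))
    (hK : ∀ r : Chart O u', ∃ s : Chart O u',
      qExpand (IsLocalRing.ResidueField O) ℓ (redM ϖ hϖ α hαO σ hσO hσfrac u' U hσu r) =
        redM ϖ hϖ α hαO σ hσO hσfrac u' U hσu s ^ ℓ)
    (hD' : IsDedekindDomain (Chart O v' ⧸ Ideal.span {piC v' ϖ}))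
    (hK' : ∀ r : Chart O v', ∃ s : Chart O v',
      qExpand (IsLocalRing.ResidueField O) ℓ (redM ϖ hϖ α hαO σ hσO hσfrac v' U' hσv r) =
        redM ϖ hϖ α hαO σ hσO hσfrac v' U' hσv s ^ ℓ)
    (hv : α v' = (α u')⁻¹) : Nodal.NodalDatum ϖ (α u') :=
  nodalDatum ϖ hϖ α hαO σ hσO hσfrac u' U hσu w hwO ℓ hwα hww hprime hcop hord hℓ hfrob hwu
    hrank hρ hD hK
    (chartInf_of_inv ϖ hϖ α hαO σ hσO hσfrac w hwO ℓ hwα hww hℓ v' U' hσv hprime' hcop' hord'
      hfrob' hwv hrank' u' U hσu hρ hD' hK' hv)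

theorem nodalDatum_of_inv_P₁
    (hD : IsDedekindDomain (Chart O u' ⧸ Ideal.span {piC u' ϖ}))
    (hK : ∀ r : Chart O u', ∃ s : Chart O u',
      qExpand (IsLocalRing.ResidueField O) ℓ (redM ϖ hϖ α hαO σ hσO hσfrac u' U hσu r) =
        redM ϖ hϖ α hαO σ hσO hσfrac u' U hσu s ^ ℓ)
    (hD' : IsDedekindDomain (Chart O v' ⧸ Ideal.span {piC v' ϖ}))
    (hK' : ∀ r : Chart O v', ∃ s : Chart O v',
      qExpand (IsLocalRing.ResidueField O) ℓ (redM ϖ hϖ α hαO σ hσO hσfrac v' U' hσv r) =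
        redM ϖ hϖ α hαO σ hσO hσfrac v' U' hσv s ^ ℓ)
    (hv : α v' = (α u')⁻¹) :
    (nodalDatum_of_inv ϖ hϖ α hαO σ hσO hσfrac w hwO ℓ hwα hww hℓ u' U hσu hprime hcop hord
      hfrob hwu hrank hρ v' U' hσv hprime' hcop' hord' hfrob' hwv hrank' hD hK hD' hK' hv).P₁ =
      P₁ ϖ hϖ α σ hσO hσfrac u' U hσu hρ := rfl

theorem nodalDatum_of_inv_P₂
    (hD : IsDedekindDomain (Chart O u' ⧸ Ideal.span {piC u' ϖ}))
    (hK : ∀ r : Chart O u', ∃ s : Chart O u',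
      qExpand (IsLocalRing.ResidueField O) ℓ (redM ϖ hϖ α hαO σ hσO hσfrac u' U hσu r) =
        redM ϖ hϖ α hαO σ hσO hσfrac u' U hσu s ^ ℓ)
    (hD' : IsDedekindDomain (Chart O v' ⧸ Ideal.span {piC v' ϖ}))
    (hK' : ∀ r : Chart O v', ∃ s : Chart O v',
      qExpand (IsLocalRing.ResidueField O) ℓ (redM ϖ hϖ α hαO σ hσO hσfrac v' U' hσv r) =
        redM ϖ hϖ α hαO σ hσO hσfrac v' U' hσv s ^ ℓ)
    (hv : α v' = (α u')⁻¹) :
    (nodalDatum_of_inv ϖ hϖ α hαO σ hσO hσfrac w hwO ℓ hwα hww hℓ u' U hσu hprime hcop hord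
      hfrob hwu hrank hρ v' U' hσv hprime' hcop' hord' hfrob' hwv hrank' hD hK hD' hK' hv).P₂ =
      P₂ ϖ hϖ α σ hσO hσfrac u' U hσu w hwO ℓ hwα hρ := rfl

end TwoChartsDatum

end Fermat.Agent.S34.Modular.Datum
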