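import Mathlib
import Fermat.Agent.S34.Modular.Kronecker
import Fermat.Agent.S34.Modular.ChartZero

/-!
# S34 / Program U, (M1): the Kronecker hypothesis `hK` of `ChartZero.isNodalChart_zero`

`hK : ∀ r : Chart O u', ∃ s : Chart O u', qExpand κ ℓ (redM r) = redM s ^ ℓ`
("`β(r) ≡ α(s)^ℓ` at the Gauss valuation": the reduction of `r(q^ℓ)` is an `ℓ`-th power in the
reduction of the level-`M` chart ring).

* `exists_pow_of_aut` : level-free.  A ring endomorphism `g` of the level-`M` field preserving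
  `O[u']` such that `red (x(q^ℓ)) = red (g x)^ℓ` on the Gauss ring gives `hK` with `s = g r`.
* `exists_pow` : the modular instance.  `E ⊆ ℚ̄` normal over `ℚ`, `O = A ∩ E`, `φ` a Frobenius
  element at `A`, `u' ∈ LE M E` any coordinate with Galois-fixed `q`-expansion; `g` is the
  coefficientwise action of `φ⁻¹` (`TrivModE.galE`), by `Kronecker.red_qExpand_eq_pow`.
* `exists_pow_of_coeffEmb` : the case `u' = ` (a series with rational coefficients), e.g. `j` or
  the Hauptmoduln `t_r`.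

The statements are for an arbitrary expansion homomorphism `σ'` of the level-`M` field which is
the coercion to `E((q))`; with `σ' := σ.comp α` this is literally the `redM` of
`TwoPrimesGauss` / `ChartZero`.
-/

set_option autoImplicit false
set_option linter.unusedSectionVars false
set_option linter.style.haveILetI false
set_option synthInstance.maxHeartbeats 400000

open ModularCurve

noncomputable section

namespace Fermat.Agent.S34.Modular.KroneckerChart

open Fermat.Agent.S30 Fermat.Agent.S34.TwoPrimesGauss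

/-! ### Level-free form -/

section Generic

variable {O E : Type*} [CommRing O] [IsDomain O] [IsDiscreteValuationRing O] [Field E]
  [Algebra O E] [FaithfulSMul O E] {L : Type*} [Field L] [Algebra O L]
  (σ' : L →+* LaurentSeries E)
  (hσO : ∀ r : O, σ' (algebraMap O L r) = HahnSeries.C (algebraMap O E r))
  (ϖ : O) (hϖ : Irreducible ϖ) (hσfrac : ∀ x : L, σ' x ∈ GaussDVR.fracField O E)
  (u' : L) (U : LaurentSeries O) (hσu : σ' u' = GaussDVR.iota O E U)

theorem redHom_apply (c : Chart O u') :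
    redHom σ' hσO ϖ hϖ hσfrac u' U hσu c =
      GaussDVR.red O E ⟨σ' (c : L), sigma_mem_V σ' hσO ϖ hϖ hσfrac u' U hσu c.2⟩ := rfl

/-- **Kronecker hypothesis, level-free.**  If a ring endomorphism `g` of `L` preserves `O[u']`
and satisfies `red (x(q^ℓ)) = red (g x)^ℓ` on the Gauss ring, then the reduction of `r(q^ℓ)` is
the `ℓ`-th power of the reduction of `g r`, for every `r` in the chart ring. -/
theorem exists_pow_of_aut (ℓ : ℕ) [NeZero ℓ] (g : L →+* L)
    (hgD : ∀ d : L, d ∈ Algebra.adjoin O {u'} → g d ∈ Algebra.adjoin O {u'})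
    (hkr : ∀ (x : L) (hx : σ' x ∈ GaussDVR.V O E) (hgx : σ' (g x) ∈ GaussDVR.V O E),
      GaussDVR.red O E ⟨qExpand E ℓ (σ' x), TwoPrimesGauss.qExpand_mem_V ℓ hx⟩ =
        GaussDVR.red O E ⟨σ' (g x), hgx⟩ ^ ℓ)
    (r : Chart O u') :
    ∃ s : Chart O u', qExpand (IsLocalRing.ResidueField O) ℓ
        (redHom σ' hσO ϖ hϖ hσfrac u' U hσu r) = redHom σ' hσO ϖ hϖ hσfrac u' U hσu s ^ ℓ := by
  have hint : IsIntegral (Algebra.adjoin O {u'}) (g (r : L)) :=
    TrivModE.isIntegral_map_of_stable (Algebra.adjoin O {u'}) g hgD r.2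
  have hrV : σ' (r : L) ∈ GaussDVR.V O E := sigma_mem_V σ' hσO ϖ hϖ hσfrac u' U hσu r.2
  have hgV : σ' (g (r : L)) ∈ GaussDVR.V O E :=
    sigma_mem_V σ' hσO ϖ hϖ hσfrac u' U hσu hint
  refine ⟨⟨g (r : L), hint⟩, ?_⟩
  have h1 := TwoPrimesGauss.red_qExpand ℓ (⟨σ' (r : L), hrV⟩ : GaussDVR.V O E)
  rw [redHom_apply, redHom_apply, ← h1]
  exact hkr (r : L) hrV hgV

end Generic

/-! ### The modular instance -/

section Modular

open Fermat.Agent.S18.K1Defs Fermat.Agent.S18.K1Top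

local notation "Qb" => AlgebraicClosure ℚ
local notation "Gq" => (AlgebraicClosure ℚ ≃ₐ[ℚ] AlgebraicClosure ℚ)

variable (A : ValuationSubring Qb) (E : IntermediateField ℚ Qb) [Normal ℚ E]

/-- The restriction of `φ⁻¹` to `E` is the inverse of the restriction of `φ`. -/
theorem restrictNormal_inv_eq_symm (φ : Gq) :
    (((φ⁻¹ : Gq).restrictNormal E : E ≃ₐ[ℚ] E) : E →+* E)
      = (((φ.restrictNormal E : E ≃ₐ[ℚ] E).symm : E ≃ₐ[ℚ] E) : E →+* E) := by
  refine RingHom.ext fun c => ?_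
  apply (algebraMap E Qb).injective
  show algebraMap E Qb ((φ⁻¹ : Gq).restrictNormal E c)
    = algebraMap E Qb ((φ.restrictNormal E).symm c)
  rw [AlgEquiv.restrictNormal_commutes]
  have h1 : algebraMap E Qb c = φ (algebraMap E Qb ((φ.restrictNormal E).symm c)) := by
    rw [← AlgEquiv.restrictNormal_commutes, AlgEquiv.apply_symm_apply]
  rw [h1]
  exact φ.symm_apply_apply _

/-- The coefficientwise action of `τ|_E` on the level-`M` function field, as a bare existence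
statement (keeps the elaboration of the main theorem cheap). -/
theorem exists_galE (M : ℕ) (τ : Gq) :
    ∃ g : LE M E ≃+* LE M E, ∀ x : LE M E, ((g x : LE M E) : LaurentSeries E)
      = coeffMap ((τ.restrictNormal E : E ≃ₐ[ℚ] E) : E →+* E) (x : LaurentSeries E) :=
  ⟨TrivModE.galE E M τ, TrivModE.coe_galE E M τ⟩

variable [IsDiscreteValuationRing (OE A E)]

set_option maxHeartbeats 1600000 in
/-- **Kronecker hypothesis `hK`, modular form.**  `E ⊆ ℚ̄` normal over `ℚ`, `O = A ∩ E`, `φ` a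
Frobenius element at `A` (over `ℓ`), `u'` a coordinate of the level-`M` field whose `q`-expansion
is fixed by the coefficientwise Galois action.  Then for every `r` in the chart ring of `u'` the
reduction of `r(q^ℓ)` is the `ℓ`-th power of the reduction of the chart element
`s = φ⁻¹(r)` (coefficientwise). -/
theorem exists_pow {ℓ : ℕ} [Fact ℓ.Prime] (hA : A.LiesOverPrime ℓ) {φ : Gq}
    (hφ : A.IsFrobeniusAt φ ℓ) (M : ℕ) [NeZero M] [Algebra (OE A E) (LE M E)]
    [IsScalarTower (OE A E) E (LE M E)]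
    (σ' : LE M E →+* LaurentSeries E) (hσ' : ∀ x : LE M E, σ' x = (x : LaurentSeries E))
    (hσO : ∀ r : OE A E, σ' (algebraMap (OE A E) (LE M E) r)
      = HahnSeries.C (algebraMap (OE A E) E r))
    (ϖ : OE A E) (hϖ : Irreducible ϖ)
    (hσfrac : ∀ x : LE M E, σ' x ∈ GaussDVR.fracField (OE A E) E)
    (u' : LE M E) (U : LaurentSeries (OE A E)) (hσu : σ' u' = GaussDVR.iota (OE A E) E U)
    (hfix : ∀ τ : E ≃ₐ[ℚ] E, coeffMap (τ : E →+* E) (u' : LaurentSeries E)
      = (u' : LaurentSeries E))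
    (r : Chart (OE A E) u') :
    haveI : NeZero ℓ := ⟨(Fact.out : ℓ.Prime).ne_zero⟩
    ∃ s : Chart (OE A E) u', qExpand (IsLocalRing.ResidueField (OE A E)) ℓ
        (redHom σ' hσO ϖ hϖ hσfrac u' U hσu r) = redHom σ' hσO ϖ hϖ hσfrac u' U hσu s ^ ℓ := by
  haveI : NeZero ℓ := ⟨(Fact.out : ℓ.Prime).ne_zero⟩
  obtain ⟨τ, hτφ⟩ : ∃ τ : A.decompositionSubgroup ℚ, (τ : Gq) = φ⁻¹ :=
    ⟨⟨φ, hφ.mem_decompositionSubgroup⟩⁻¹, rfl⟩
  have hgal := exists_galE E M (τ : Gq)
  obtain ⟨g, hgcoe⟩ := hgal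
  have hgu : g u' = u' := Subtype.ext (by rw [hgcoe, hfix])
  have hgD : ∀ d : LE M E, d ∈ Algebra.adjoin (OE A E) {u'} →
      (g : LE M E →+* LE M E) d ∈ Algebra.adjoin (OE A E) {u'} :=
    TrivModE.adjoin_stable (LE M E) (TrivModE.sOE A E τ)
      ((((τ : Gq).restrictNormal E : E ≃ₐ[ℚ] E) : E →+* E))
      (TrivModE.restrictNormal_algebraMap_OE A E τ) g hgcoe {u'}
      (fun s hs => by rw [Set.mem_singleton_iff.mp hs]; exact hgu)
  refine exists_pow_of_aut σ' hσO ϖ hϖ hσfrac u' U hσu ℓ (g : LE M E →+* LE M E) hgD ?_ r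
  intro x hx hgx
  have hx' : (x : LaurentSeries E) ∈ GaussDVR.V (OE A E) E := by rw [← hσ']; exact hx
  have h1 := Kronecker.red_qExpand_eq_pow A E hA hφ hx'
  have h2 : σ' ((g : LE M E →+* LE M E) x)
      = coeffMap (((φ.restrictNormal E : E ≃ₐ[ℚ] E).symm : E ≃ₐ[ℚ] E) : E →+* E)
          (x : LaurentSeries E) := by
    rw [hσ']
    show ((g x : LE M E) : LaurentSeries E) = _
    rw [hgcoe, hτφ, restrictNormal_inv_eq_symm]
  have e1 : (⟨qExpand E ℓ (σ' x), TwoPrimesGauss.qExpand_mem_V ℓ hx⟩ : GaussDVR.V (OE A E) E)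
      = ⟨qExpand E ℓ (x : LaurentSeries E), Kronecker.qExpand_mem_V ℓ hx'⟩ :=
    Subtype.ext (congrArg (qExpand E ℓ) (hσ' x))
  have e2 : (⟨σ' ((g : LE M E →+* LE M E) x), hgx⟩ : GaussDVR.V (OE A E) E)
      = ⟨coeffMap (((φ.restrictNormal E : E ≃ₐ[ℚ] E).symm : E ≃ₐ[ℚ] E) : E →+* E)
          (x : LaurentSeries E), Kronecker.coeffMap_symm_mem_V A E hφ hx'⟩ :=
    Subtype.ext h2
  rw [e1, e2]
  exact h1

set_option maxHeartbeats 1600000 in
/-- **`hK` for a coordinate with rational `q`-expansion** (`j`, the Hauptmoduln `t_r`, ...). -/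
theorem exists_pow_of_coeffEmb {ℓ : ℕ} [Fact ℓ.Prime] (hA : A.LiesOverPrime ℓ) {φ : Gq}
    (hφ : A.IsFrobeniusAt φ ℓ) (M : ℕ) [NeZero M] [Algebra (OE A E) (LE M E)]
    [IsScalarTower (OE A E) E (LE M E)]
    (σ' : LE M E →+* LaurentSeries E) (hσ' : ∀ x : LE M E, σ' x = (x : LaurentSeries E))
    (hσO : ∀ r : OE A E, σ' (algebraMap (OE A E) (LE M E) r)
      = HahnSeries.C (algebraMap (OE A E) E r))
    (ϖ : OE A E) (hϖ : Irreducible ϖ)
    (hσfrac : ∀ x : LE M E, σ' x ∈ GaussDVR.fracField (OE A E) E)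
    (u' : LE M E) (U : LaurentSeries (OE A E)) (hσu : σ' u' = GaussDVR.iota (OE A E) E U)
    (x₀ : LaurentSeries ℚ) (hx₀ : (u' : LaurentSeries E) = coeffEmb E x₀)
    (r : Chart (OE A E) u') :
    haveI : NeZero ℓ := ⟨(Fact.out : ℓ.Prime).ne_zero⟩
    ∃ s : Chart (OE A E) u', qExpand (IsLocalRing.ResidueField (OE A E)) ℓ
        (redHom σ' hσO ϖ hϖ hσfrac u' U hσu r) = redHom σ' hσO ϖ hϖ hσfrac u' U hσu s ^ ℓ :=
  exists_pow A E hA hφ M σ' hσ' hσO ϖ hϖ hσfrac u' U hσu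
    (fun τ => by rw [hx₀]; exact coeffMap_coeffEmb τ x₀) r

/-! ### The literal shape of `ChartZero.isNodalChart_zero` -/

section Plug

variable {L : Type*} [Field L] [Algebra (OE A E) L]

set_option maxHeartbeats 1600000 in
/-- **`hK` verbatim as in `ChartZero.isNodalChart_zero`**, for `L' = LE M E`, `O = OE A E`, any
level-raising map `α : LE M E →+* L` and expansion `σ : L →+* E((q))` with `σ (α x) = x`. -/
theorem hK_redM (ℓ : ℕ) [NeZero ℓ] (hℓ : ℓ.Prime) (hA : A.LiesOverPrime ℓ) {φ : Gq}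
    (hφ : A.IsFrobeniusAt φ ℓ) (M : ℕ) [NeZero M] [Algebra (OE A E) (LE M E)]
    [IsScalarTower (OE A E) E (LE M E)]
    (ϖ : OE A E) (hϖ : Irreducible ϖ) (α : LE M E →+* L)
    (hαO : ∀ r : OE A E, α (algebraMap (OE A E) (LE M E) r) = algebraMap (OE A E) L r)
    (σ : L →+* LaurentSeries E)
    (hσO : ∀ r : OE A E, σ (algebraMap (OE A E) L r) = HahnSeries.C (algebraMap (OE A E) E r))
    (hσfrac : ∀ x : L, σ x ∈ GaussDVR.fracField (OE A E) E)
    (u' : LE M E) (U : LaurentSeries (OE A E)) (hσu : σ (α u') = GaussDVR.iota (OE A E) E U)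
    (hσα : ∀ x : LE M E, σ (α x) = (x : LaurentSeries E))
    (hfix : ∀ τ : E ≃ₐ[ℚ] E, coeffMap (τ : E →+* E) (u' : LaurentSeries E)
      = (u' : LaurentSeries E)) :
    ∀ r : Chart (OE A E) u', ∃ s : Chart (OE A E) u',
      qExpand (IsLocalRing.ResidueField (OE A E)) ℓ (redM ϖ hϖ α hαO σ hσO hσfrac u' U hσu r)
        = redM ϖ hϖ α hαO σ hσO hσfrac u' U hσu s ^ ℓ := by
  intro r
  haveI : Fact ℓ.Prime := ⟨hℓ⟩
  exact exists_pow A E hA hφ M (σ.comp α) hσα (sigmaM_O α hαO σ hσO) ϖ hϖ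
    (fun x => hσfrac (α x)) u' U hσu hfix r

set_option maxHeartbeats 1600000 in
/-- `hK_redM` for a coordinate with rational `q`-expansion (`j`, the Hauptmoduln `t_r`, ...). -/
theorem hK_redM_of_coeffEmb (ℓ : ℕ) [NeZero ℓ] (hℓ : ℓ.Prime) (hA : A.LiesOverPrime ℓ) {φ : Gq}
    (hφ : A.IsFrobeniusAt φ ℓ) (M : ℕ) [NeZero M] [Algebra (OE A E) (LE M E)]
    [IsScalarTower (OE A E) E (LE M E)]
    (ϖ : OE A E) (hϖ : Irreducible ϖ) (α : LE M E →+* L)
    (hαO : ∀ r : OE A E, α (algebraMap (OE A E) (LE M E) r) = algebraMap (OE A E) L r)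
    (σ : L →+* LaurentSeries E)
    (hσO : ∀ r : OE A E, σ (algebraMap (OE A E) L r) = HahnSeries.C (algebraMap (OE A E) E r))
    (hσfrac : ∀ x : L, σ x ∈ GaussDVR.fracField (OE A E) E)
    (u' : LE M E) (U : LaurentSeries (OE A E)) (hσu : σ (α u') = GaussDVR.iota (OE A E) E U)
    (hσα : ∀ x : LE M E, σ (α x) = (x : LaurentSeries E))
    (x₀ : LaurentSeries ℚ) (hx₀ : (u' : LaurentSeries E) = coeffEmb E x₀) :
    ∀ r : Chart (OE A E) u', ∃ s : Chart (OE A E) u',
      qExpand (IsLocalRing.ResidueField (OE A E)) ℓ (redM ϖ hϖ α hαO σ hσO hσfrac u' U hσu r)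
        = redM ϖ hϖ α hαO σ hσO hσfrac u' U hσu s ^ ℓ :=
  hK_redM A E ℓ hℓ hA hφ M ϖ hϖ α hαO σ hσO hσfrac u' U hσu hσα
    (fun τ => by rw [hx₀]; exact coeffMap_coeffEmb τ x₀)

end Plug

end Modular

end Fermat.Agent.S34.Modular.KroneckerChart
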