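import Mathlib
import Fermat.Agent.S34.TwoPrimesGauss

/-!
# PROGRAM U, (M2) cusp production, (K1)–(K3): the function `θ' = W(u) · x^ℓ`

Setting of `S34/TwoPrimesGauss.lean` (section `Main`), read on the chart at infinity: the
level-`M` chart coordinate is `x' : L'` (think `x' = 1/j`), with integral `q`-expansion `Xq`
(`σ (α x') = ι Xq`), `w` is the Atkin–Lehner involution (`σ (w (α z)) = (σ (α z))(q^ℓ)`), and
`u : L` is the inverse of the coordinate: `u * α x' = 1` (think `u = j`).  No inverse is ever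
written: the pole coordinate enters only through `u` and `hux`.

**Shape input.**  A "modular equation" `P ∈ O[X][Y]`, monic in `Y`, with `P(u, w u) = 0`
(`hroot : P.eval₂ (aeval u) (w u) = 0`) and the degree bounds
`deg_X (coeff_k P) ≤ ℓ * (deg_Y P - k)` for `k < deg_Y P` (`hbound`).  For a polynomial with the
bounds of `PhiShape.IsShape` (`deg_Y = ℓ + 1`, `deg c_k ≤ ℓ` for `1 ≤ k ≤ ℓ`, `deg c_0 ≤ ℓ + 1`)
this is `bound_of_shape`.

**Results.**

* (K1) `isIntegral_theta` : `θ' := w u * (α x')^ℓ` is integral over `O[α x']`, i.e. lies in the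
  chart ring `Chart O (α x')`  (`isIntegral_mul_pow` is the underlying algebra lemma);
* (K2) `redInf_theta` : `redInf θ' = 1`;  `redZero_theta` : `redZero θ' = ρ^(ℓ*ℓ - 1)`
  (`ρ = GaussDVR.rho O Xq`, the reduction of the `q`-expansion of the coordinate);
  also `redInf_coord`, `redZero_coord` : `redInf x = ρ`, `redZero x = ρ^ℓ`;
* (K3) `exists_add_add_eq_one` : `1 = a + b + c * x` with `a ∈ p_∞ = ker redInf`,
  `b ∈ p_0 = ker redZero`;  `eq_top_of_mem`, `hsep` : no proper ideal (no maximal ideal) of the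
  chart ring contains `x`, `p_∞` and `p_0` — the two components are disjoint at the cusps.
* `root_of_sigma` : the root hypothesis from the corresponding identity of `q`-expansions.
-/

set_option autoImplicit false
set_option linter.unusedSectionVars false
set_option linter.style.haveILetI false

noncomputable section

namespace Fermat.Agent.S34.Modular.ThetaInf

open ModularCurve Polynomial
open Fermat.Agent.S30 Fermat.Agent.S34 Fermat.Agent.S34.TwoPrimesGauss

/-! ### (K1): integrality, pure algebra -/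

section Algebra

variable {O L : Type*} [CommRing O] [CommRing L] [Algebra O L]

/-- Reflection: if `u * x = 1` and `deg p ≤ d`, then `(reflect d p)(x) = x^d * p(u)`. -/
theorem aeval_reflect_eq (u x : L) (hux : u * x = 1) (d : ℕ) (p : O[X])
    (hp : p.natDegree ≤ d) : aeval x (p.reflect d) = x ^ d * aeval u p := by
  letI : Invertible u := ⟨x, by rw [mul_comm]; exact hux, hux⟩
  have h := eval₂_reflect_mul_pow (algebraMap O L) u d p hp
  have hinv : ⅟u = x := rfl
  rw [hinv] at h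
  rw [aeval_def, aeval_def, ← h, mul_comm (x ^ d), mul_assoc, ← mul_pow, hux, one_pow, mul_one]

/-- **(K1), algebra.**  Let `u * x = 1` and let `y` be a root of a polynomial `P ∈ O[X][Y]`,
monic in `Y` of degree `n`, evaluated at `X = u`, whose coefficients satisfy
`deg_X (coeff_k P) ≤ ℓ * (n - k)` for `k < n`.  Then `y * x^ℓ` is integral over `O[x]`
(in ring-hom form over `O[X]`). -/
theorem isIntegralElem_mul_pow (u x y : L) (hux : u * x = 1) (ℓ : ℕ) (P : O[X][X])
    (hP : P.Monic)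
    (hbound : ∀ k, k < P.natDegree → (P.coeff k).natDegree ≤ ℓ * (P.natDegree - k))
    (hroot : P.eval₂ ((aeval u : O[X] →ₐ[O] L) : O[X] →+* L) y = 0) :
    ((aeval x : O[X] →ₐ[O] L) : O[X] →+* L).IsIntegralElem (y * x ^ ℓ) := by
  classical
  set n := P.natDegree with hn
  set fu : O[X] →+* L := ((aeval u : O[X] →ₐ[O] L) : O[X] →+* L) with hfu
  set fx : O[X] →+* L := ((aeval x : O[X] →ₐ[O] L) : O[X] →+* L) with hfx
  let a : Fin n → O[X] := fun k => (P.coeff (k : ℕ)).reflect (ℓ * (n - (k : ℕ)))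
  refine ⟨X ^ n + ∑ k : Fin n, C (a k) * X ^ (k : ℕ), monic_X_pow_add (degree_sum_fin_lt a), ?_⟩
  have ha : ∀ k : Fin n, fx (a k) = x ^ (ℓ * (n - (k : ℕ))) * fu (P.coeff (k : ℕ)) := fun k =>
    aeval_reflect_eq u x hux _ _ (hbound k k.2)
  have hroot' : y ^ n + ∑ k : Fin n, fu (P.coeff (k : ℕ)) * y ^ (k : ℕ) = 0 := by
    rw [eval₂_eq_sum_range, ← hn, Finset.sum_range_succ] at hroot
    rw [Fin.sum_univ_eq_sum_range (fun k => fu (P.coeff k) * y ^ k) n, add_comm]
    have h1 : P.coeff n = 1 := hP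
    rw [h1, map_one, one_mul] at hroot
    exact hroot
  have hterm : ∀ k : Fin n, fx (a k) * (y * x ^ ℓ) ^ (k : ℕ) =
      x ^ (ℓ * n) * (fu (P.coeff (k : ℕ)) * y ^ (k : ℕ)) := by
    intro k
    have hk : ℓ * n = ℓ * (n - (k : ℕ)) + ℓ * (k : ℕ) := by
      rw [← Nat.mul_add, Nat.sub_add_cancel k.2.le]
    rw [ha, mul_pow, ← pow_mul, hk, pow_add]
    ring
  rw [eval₂_add, eval₂_pow, eval₂_X, eval₂_finsetSum]
  have hsum : ∑ k : Fin n, eval₂ fx (y * x ^ ℓ) (C (a k) * X ^ (k : ℕ)) =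
      x ^ (ℓ * n) * ∑ k : Fin n, fu (P.coeff (k : ℕ)) * y ^ (k : ℕ) := by
    rw [Finset.mul_sum]
    refine Finset.sum_congr rfl fun k _ => ?_
    rw [eval₂_mul, eval₂_C, eval₂_pow, eval₂_X, hterm]
  have e : (y * x ^ ℓ) ^ n = x ^ (ℓ * n) * y ^ n := by rw [mul_pow, ← pow_mul, mul_comm]
  rw [hsum, e, ← mul_add, hroot', mul_zero]

/-- The degree bounds of `PhiShape.IsShape` imply the bound used here. -/
theorem bound_of_shape (ℓ : ℕ) (hℓ : 1 ≤ ℓ) (P : O[X][X]) (hdeg : P.natDegree = ℓ + 1)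
    (h1 : ∀ k, 1 ≤ k → k ≤ ℓ → (P.coeff k).natDegree ≤ ℓ)
    (h0 : (P.coeff 0).natDegree ≤ ℓ + 1) :
    ∀ k, k < P.natDegree → (P.coeff k).natDegree ≤ ℓ * (P.natDegree - k) := by
  intro k hk
  rw [hdeg] at hk ⊢
  rcases Nat.eq_zero_or_pos k with rfl | hk0
  · refine h0.trans ?_
    rw [Nat.sub_zero]
    exact Nat.le_mul_of_pos_left _ hℓ
  · refine (h1 k hk0 (by omega)).trans ?_
    exact Nat.le_mul_of_pos_right _ (by omega)

end Algebra

section AlgebraField

variable {O L : Type*} [CommRing O] [IsDomain O] [IsDiscreteValuationRing O] [Field L]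
  [Algebra O L]

/-- **(K1)** in chart form: `y * x^ℓ` is integral over `O[x]`. -/
theorem isIntegral_mul_pow (u x y : L) (hux : u * x = 1) (ℓ : ℕ) (P : O[X][X])
    (hP : P.Monic)
    (hbound : ∀ k, k < P.natDegree → (P.coeff k).natDegree ≤ ℓ * (P.natDegree - k))
    (hroot : P.eval₂ ((aeval u : O[X] →ₐ[O] L) : O[X] →+* L) y = 0) :
    IsIntegral (Algebra.adjoin O {x}) (y * x ^ ℓ) :=
  (isIntegral_adjoin_iff x _).mpr (isIntegralElem_mul_pow u x y hux ℓ P hP hbound hroot)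

end AlgebraField

/-! ### The root hypothesis from `q`-expansions -/

section Root

variable {O E L : Type*} [CommRing O] [Field E] [Algebra O E] [Field L] [Algebra O L]
  (σ : L →+* LaurentSeries E)
  (hσO : ∀ r : O, σ (algebraMap O L r) = HahnSeries.C (algebraMap O E r))

include hσO in
/-- `σ ∘ (p ↦ p(u))` is evaluation of the coefficientwise image at `σ u`. -/
theorem sigma_comp_aeval (u : L) :
    σ.comp ((aeval u : O[X] →ₐ[O] L) : O[X] →+* L) =
      eval₂RingHom ((HahnSeries.C : E →+* LaurentSeries E).comp (algebraMap O E)) (σ u) := by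
  refine Polynomial.ringHom_ext (fun r => ?_) ?_
  · simp [hσO]
  · simp

include hσO in
/-- The root hypothesis `P(u, y) = 0` in `L` follows from the identity of `q`-expansions
`P(σ u, σ y) = 0` (`σ` is injective). -/
theorem root_of_sigma (u y : L) (P : O[X][X])
    (h : P.eval₂ (eval₂RingHom ((HahnSeries.C : E →+* LaurentSeries E).comp (algebraMap O E))
      (σ u)) (σ y) = 0) :
    P.eval₂ ((aeval u : O[X] →ₐ[O] L) : O[X] →+* L) y = 0 := by
  apply σ.injective
  rw [map_zero, hom_eval₂, sigma_comp_aeval σ hσO u]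
  exact h

include hσO in
/-- Variant: the polynomial is first mapped to `E[X][Y]` (the shape of `PhiShape.IsShape.root`
over `E`, with `σ u` for `j(q)` and `σ y` for `j(q^ℓ)`). -/
theorem root_of_sigma_map (u y : L) (P : O[X][X])
    (h : (P.map (mapRingHom (algebraMap O E))).eval₂
      (eval₂RingHom (HahnSeries.C : E →+* LaurentSeries E) (σ u)) (σ y) = 0) :
    P.eval₂ ((aeval u : O[X] →ₐ[O] L) : O[X] →+* L) y = 0 := by
  refine root_of_sigma σ hσO u y P ?_
  rw [eval₂_map] at h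
  have hc : (eval₂RingHom (HahnSeries.C : E →+* LaurentSeries E) (σ u)).comp
      (mapRingHom (algebraMap O E)) =
      eval₂RingHom ((HahnSeries.C : E →+* LaurentSeries E).comp (algebraMap O E)) (σ u) := by
    refine Polynomial.ringHom_ext (fun r => ?_) ?_
    · simp
    · simp
  rw [hc] at h
  exact h

end Root

/-! ### (K2), (K3): the reductions of `θ'` at the two components -/

section Gauss

variable {O E : Type*} [CommRing O] [IsDomain O] [IsDiscreteValuationRing O] [Field E]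
  [Algebra O E] [FaithfulSMul O E]
  {L' L : Type*} [Field L'] [Field L] [Algebra O L'] [Algebra O L]
  (ϖ : O) (hϖ : Irreducible ϖ)
  (α : L' →+* L)
  (σ : L →+* LaurentSeries E)
  (hσO : ∀ r : O, σ (algebraMap O L r) = HahnSeries.C (algebraMap O E r))
  (hσfrac : ∀ x : L, σ x ∈ GaussDVR.fracField O E)
  (x' : L') (Xq : LaurentSeries O) (hσx : σ (α x') = GaussDVR.iota O E Xq)
  (w : L ≃+* L) (hwO : ∀ r : O, w (algebraMap O L r) = algebraMap O L r)
  (ℓ : ℕ) [NeZero ℓ]
  (hwα : ∀ x : L', σ (w (α x)) = qExpand E ℓ (σ (α x)))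
  (hww : ∀ z : L, w (w z) = z)
  (hord : (GaussDVR.rho O Xq).order ≠ 0)
  (hfrob : qExpand (IsLocalRing.ResidueField O) ℓ (GaussDVR.rho O Xq) = GaussDVR.rho O Xq ^ ℓ)
  (u : L) (hux : u * α x' = 1)

local notation "rI" => redInf ϖ hϖ α σ hσO hσfrac x' Xq hσx
local notation "rZ" => redZero ϖ hϖ α σ hσO hσfrac x' Xq hσx w hwO ℓ hwα
local notation "ρX" => GaussDVR.rho O Xq

/-- The coordinate reduces to `ρ` at the `∞`-component. -/
theorem redInf_coord (xC : Chart O (α x')) (hxC : (xC : L) = α x') : rI xC = ρX :=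
  redHom_of_int σ hσO ϖ hϖ hσfrac (α x') Xq hσx xC Xq (by rw [hxC, hσx])

include hfrob in
/-- The coordinate reduces to `ρ^ℓ` at the `0`-component. -/
theorem redZero_coord (xC : Chart O (α x')) (hxC : (xC : L) = α x') : rZ xC = ρX ^ ℓ := by
  rw [← hfrob, ← coeffMap_qExpand]
  exact redHom_of_int (σ.comp (w : L →+* L)) (sigmaW_O σ hσO w hwO) ϖ hϖ (fun x => hσfrac (w x))
    (α x') (qExpand O ℓ Xq) (sigmaW_u α σ x' Xq hσx w ℓ hwα) xC (qExpand O ℓ Xq)
    (by rw [hxC]; exact sigmaW_u α σ x' Xq hσx w ℓ hwα)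

include hwα hord hfrob hux in
/-- **(K2), `∞`-component**: `θ' = w u * x^ℓ` reduces to `1`. -/
theorem redInf_theta (θ : Chart O (α x')) (hθ : (θ : L) = w u * α x' ^ ℓ) : rI θ = 1 := by
  have hρ0 : ρX ≠ 0 := fun h => hord (by rw [h, HahnSeries.order_zero])
  have hb : GaussDVR.rho O (qExpand O ℓ Xq) ≠ 0 := by
    rw [coeffMap_qExpand]
    exact fun h0 => hρ0 (qExpand_injective ℓ (by rw [h0, map_zero]))
  have hwx : σ (w (α x')) = GaussDVR.iota O E (qExpand O ℓ Xq) := by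
    rw [hwα, hσx]
    exact (coeffMap_qExpand _ _ _).symm
  have h1 : σ (w u) * σ (w (α x')) = 1 := by
    rw [← map_mul, ← map_mul, hux, map_one, map_one]
  have key : ((toV σ hσO ϖ hϖ hσfrac (α x') Xq hσx θ : GaussDVR.V O E) : LaurentSeries E) *
      GaussDVR.iota O E (qExpand O ℓ Xq) = GaussDVR.iota O E (Xq ^ ℓ) := by
    rw [coe_toV, hθ, map_mul, map_pow, ← hwx, mul_right_comm, h1, one_mul, hσx, map_pow]
  show GaussDVR.red O E (toV σ hσO ϖ hϖ hσfrac (α x') Xq hσx θ) = 1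
  rw [GaussDVR.red_eq O E _ _ _ hb key, map_pow, coeffMap_qExpand, hfrob,
    div_self (pow_ne_zero _ hρ0)]

include hww hord hfrob hux in
/-- **(K2), `0`-component**: `θ' = w u * x^ℓ` reduces to `ρ^(ℓ² - 1)`. -/
theorem redZero_theta (θ : Chart O (α x')) (hθ : (θ : L) = w u * α x' ^ ℓ) :
    rZ θ = ρX ^ (ℓ * ℓ - 1) := by
  have hρ0 : ρX ≠ 0 := fun h => hord (by rw [h, HahnSeries.order_zero])
  have hwx : σ (w (α x')) = GaussDVR.iota O E (qExpand O ℓ Xq) := by
    rw [hwα, hσx]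
    exact (coeffMap_qExpand _ _ _).symm
  have hσu : σ u * GaussDVR.iota O E Xq = 1 := by rw [← hσx, ← map_mul, hux, map_one]
  have key : ((toV (σ.comp (w : L →+* L)) (sigmaW_O σ hσO w hwO) ϖ hϖ (fun x => hσfrac (w x))
      (α x') (qExpand O ℓ Xq) (sigmaW_u α σ x' Xq hσx w ℓ hwα) θ : GaussDVR.V O E) :
        LaurentSeries E) * GaussDVR.iota O E Xq = GaussDVR.iota O E (qExpand O ℓ Xq ^ ℓ) := by
    show σ (w (θ : L)) * _ = _
    rw [hθ, map_mul, map_pow, hww, map_mul, map_pow, hwx, mul_right_comm, hσu, one_mul, map_pow]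
  have hℓℓ : 1 ≤ ℓ * ℓ := Nat.mul_pos (NeZero.pos ℓ) (NeZero.pos ℓ)
  show GaussDVR.red O E (toV (σ.comp (w : L →+* L)) (sigmaW_O σ hσO w hwO) ϖ hϖ
    (fun x => hσfrac (w x)) (α x') (qExpand O ℓ Xq) (sigmaW_u α σ x' Xq hσx w ℓ hwα) θ) = _
  rw [GaussDVR.red_eq O E _ _ _ hρ0 key, map_pow, coeffMap_qExpand, hfrob, ← pow_mul,
    div_eq_iff hρ0, ← pow_succ, Nat.sub_add_cancel hℓℓ]

include hww hord hfrob hux in
/-- **(K3), partition of unity**: `1 = a + b + c * x` with `a ∈ p_∞`, `b ∈ p_0`. -/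
theorem exists_add_add_eq_one (hℓ : 2 ≤ ℓ) (θ : Chart O (α x'))
    (hθ : (θ : L) = w u * α x' ^ ℓ) (xC : Chart O (α x')) (hxC : (xC : L) = α x') :
    ∃ a b c : Chart O (α x'), rI a = 0 ∧ rZ b = 0 ∧ a + b + c * xC = 1 := by
  refine ⟨1 - θ ^ ℓ, θ ^ ℓ - xC ^ (ℓ * ℓ - 1), xC ^ (ℓ * ℓ - 2), ?_, ?_, ?_⟩
  · rw [map_sub, map_one, map_pow,
      redInf_theta ϖ hϖ α σ hσO hσfrac x' Xq hσx w ℓ hwα hord hfrob u hux θ hθ, one_pow, sub_self]
  · rw [map_sub, map_pow, map_pow,
      redZero_theta ϖ hϖ α σ hσO hσfrac x' Xq hσx w hwO ℓ hwα hww hord hfrob u hux θ hθ,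
      redZero_coord ϖ hϖ α σ hσO hσfrac x' Xq hσx w hwO ℓ hwα hfrob xC hxC, ← pow_mul, ← pow_mul,
      mul_comm, sub_self]
  · have h4 : 4 ≤ ℓ * ℓ := by nlinarith
    have h : ℓ * ℓ - 1 = (ℓ * ℓ - 2) + 1 := by omega
    rw [h, pow_succ]
    ring

include hww hord hfrob hux in
/-- **(K3)**: an ideal of the chart ring containing the coordinate `x` and both Gauss primes
`p_∞ = ker redInf`, `p_0 = ker redZero` is the unit ideal. -/
theorem eq_top_of_mem (hℓ : 2 ≤ ℓ) (θ : Chart O (α x'))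
    (hθ : (θ : L) = w u * α x' ^ ℓ) (xC : Chart O (α x')) (hxC : (xC : L) = α x')
    (M : Ideal (Chart O (α x'))) (hx : xC ∈ M) (h₁ : RingHom.ker rI ≤ M)
    (h₂ : RingHom.ker rZ ≤ M) : M = ⊤ := by
  obtain ⟨a, b, c, ha, hb, habc⟩ := exists_add_add_eq_one ϖ hϖ α σ hσO hσfrac x' Xq hσx w hwO ℓ
    hwα hww hord hfrob u hux hℓ θ hθ xC hxC
  rw [Ideal.eq_top_iff_one, ← habc]
  exact M.add_mem (M.add_mem (h₁ ha) (h₂ hb)) (M.mul_mem_left c hx)

include hww hord hfrob hux in
/-- **(K3), `hsep`** in the pointwise shape of `Nodal/ChartTransfer`: no maximal ideal of the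
chart ring at infinity contains the coordinate and both components. -/
theorem hsep (hℓ : 2 ≤ ℓ) (θ : Chart O (α x'))
    (hθ : (θ : L) = w u * α x' ^ ℓ) (xC : Chart O (α x')) (hxC : (xC : L) = α x') :
    ∀ M : Ideal (Chart O (α x')), M.IsMaximal → xC ∈ M → RingHom.ker rI ≤ M →
      RingHom.ker rZ ≤ M → False := fun M hM hx h₁ h₂ =>
  hM.ne_top (eq_top_of_mem ϖ hϖ α σ hσO hσfrac x' Xq hσx w hwO ℓ hwα hww hord hfrob u hux hℓ θ hθ
    xC hxC M hx h₁ h₂)

include hww hord hfrob hux in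
/-- **(K1)+(K2)+(K3) from the shape input**: for a coordinate with a modular equation of the
shape `hbound`, no maximal ideal of the chart ring at infinity contains the coordinate and both
Gauss primes. -/
theorem hsep_of_shape (hℓ : 2 ≤ ℓ) (P : O[X][X]) (hP : P.Monic)
    (hbound : ∀ k, k < P.natDegree → (P.coeff k).natDegree ≤ ℓ * (P.natDegree - k))
    (hroot : P.eval₂ ((aeval u : O[X] →ₐ[O] L) : O[X] →+* L) (w u) = 0)
    (xC : Chart O (α x')) (hxC : (xC : L) = α x') :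
    ∀ M : Ideal (Chart O (α x')), M.IsMaximal → xC ∈ M → RingHom.ker rI ≤ M →
      RingHom.ker rZ ≤ M → False :=
  hsep ϖ hϖ α σ hσO hσfrac x' Xq hσx w hwO ℓ hwα hww hord hfrob u hux hℓ
    ⟨w u * α x' ^ ℓ, isIntegral_mul_pow u (α x') (w u) hux ℓ P hP hbound hroot⟩ rfl xC hxC

end Gauss

end Fermat.Agent.S34.Modular.ThetaInf
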