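import Mathlib
import Fermat.Agent.S34.Modular.Datum
import Fermat.Agent.S34.ChartInfAlt.InvChart

/-!
# PROGRAM U, (F4a): the chart at infinity of `Modular.Datum.nodalDatum`

The hypothesis `hinf` of `Modular.Datum.nodalDatum` at a level-`M` coordinate `u'` (`u' = j`):
the contractions of the two overlap primes `Datum.P₁`, `Datum.P₂` to the chart of `(α u')⁻¹`
satisfy the nodal contract.

* `hinf_of_nodal_inv` : transport (`Datum.transport_inf`) of ANY nodal-chart statement for the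
  two Gauss primes at the level-`M` coordinate `u'⁻¹` (TwoPrimesGauss vocabulary).
* `hinf_of_modEq` : level-free, `ε`-route (`ChartInfAlt.isNodalChart_inv`): the
  `TwoPrimesGauss` block at `u'⁻¹` **without `hwu`** plus the modular equation `P` of `u'`.
-/

set_option autoImplicit false
set_option linter.unusedSectionVars false
set_option linter.style.haveILetI false

noncomputable section

namespace Fermat.Agent.S34.Modular.ChartInfE

open ModularCurve Polynomial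
open Fermat.Agent.S30 Fermat.Agent.S34 Fermat.Agent.S34.TwoPrimesGauss

section LevelFree

variable {O E : Type*} [CommRing O] [IsDomain O] [IsDiscreteValuationRing O] [Field E]
  [Algebra O E] [FaithfulSMul O E]
  {L' L : Type*} [Field L'] [Field L] [Algebra O L'] [Algebra O L]
  (ϖ : O) (hϖ : Irreducible ϖ)
  (α : L' →+* L) (hαO : ∀ r : O, α (algebraMap O L' r) = algebraMap O L r)
  (σ : L →+* LaurentSeries E)
  (hσO : ∀ r : O, σ (algebraMap O L r) = HahnSeries.C (algebraMap O E r))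
  (hσfrac : ∀ x : L, σ x ∈ GaussDVR.fracField O E)
  (u' : L') (U : LaurentSeries O) (hσu : σ (α u') = GaussDVR.iota O E U)
  (w : L ≃+* L) (hwO : ∀ r : O, w (algebraMap O L r) = algebraMap O L r)
  (ℓ : ℕ) [NeZero ℓ]
  (hwα : ∀ x : L', σ (w (α x)) = qExpand E ℓ (σ (α x)))
  (hρ : GaussDVR.rho O U ≠ 0)
  -- the coordinate of the chart at infinity, `x' = u'⁻¹`
  (X : LaurentSeries O) (hσx : σ (α u'⁻¹) = GaussDVR.iota O E X)

/-- **Transport to the datum's chart at infinity**: the nodal contract for the two Gauss primes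
of the chart of `α u'⁻¹` (TwoPrimesGauss vocabulary at the level-`M` coordinate `u'⁻¹`) is the
hypothesis `hinf` of `Modular.Datum.nodalDatum` at `u'`. -/
theorem hinf_of_nodal_inv
    (h : Nodal.IsNodalChart ϖ (α u'⁻¹)
      (RingHom.ker (redInf ϖ hϖ α σ hσO hσfrac u'⁻¹ X hσx))
      (RingHom.ker (redZero ϖ hϖ α σ hσO hσfrac u'⁻¹ X hσx w hwO ℓ hwα))) :
    Nodal.IsNodalChart ϖ (α u')⁻¹
      ((Datum.P₁ ϖ hϖ α σ hσO hσfrac u' U hσu hρ).comap (Nodal.toOverlapInf O (α u')))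
      ((Datum.P₂ ϖ hϖ α σ hσO hσfrac u' U hσu w hwO ℓ hwα hρ).comap
        (Nodal.toOverlapInf O (α u'))) :=
  Datum.transport_inf ϖ hϖ α σ hσO hσfrac w hwO ℓ hwα u'⁻¹ X hσx u' U hσu hρ (map_inv₀ α u')
    (fun s p₁ p₂ => Nodal.IsNodalChart ϖ s p₁ p₂) h

/-- **`hinf` of `Modular.Datum.nodalDatum`, level-free** (`ε`-route): from the `TwoPrimesGauss`
block at the coordinate `u'⁻¹` (no `hwu`), the modular equation `P` of `u'` (monic of degree
`ℓ + 1` in `Y`, coefficients of degree `≤ ℓ + 1`), the normality of the level-`M` special fibre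
at infinity and the Kronecker congruence there. -/
theorem hinf_of_modEq (hu0 : u' ≠ 0) (hww : ∀ z : L, w (w z) = z)
    (hprime : Prime (piC u'⁻¹ ϖ))
    (hcop : IsCoprime (GaussDVR.rho O X).order (ℓ : ℤ)) (hord : (GaussDVR.rho O X).order ≠ 0)
    (hℓ : 2 ≤ ℓ)
    (hfrob : qExpand (IsLocalRing.ResidueField O) ℓ (GaussDVR.rho O X) = GaussDVR.rho O X ^ ℓ)
    (hrank : ∀ v : Option (Fin 1 ⊕ Fin ℓ) → Chart O (α u'⁻¹),
      ∃ c : Option (Fin 1 ⊕ Fin ℓ) → Chart O u'⁻¹, c ≠ 0 ∧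
        ∑ i, incl α hαO u'⁻¹ (c i) * v i = 0)
    (P : O[X][X]) (hmonic : P.Monic) (hdeg : P.natDegree = ℓ + 1)
    (hPk : ∀ k, (P.coeff k).natDegree ≤ ℓ + 1)
    (hP : P.eval₂ ((aeval (α u') : O[X] →ₐ[O] L) : O[X] →+* L) (w (α u')) = 0)
    (hD : IsDedekindDomain (Chart O u'⁻¹ ⧸ Ideal.span {piC u'⁻¹ ϖ}))
    (hK : ∀ r : Chart O u'⁻¹, ∃ s : Chart O u'⁻¹,
      qExpand (IsLocalRing.ResidueField O) ℓ (redM ϖ hϖ α hαO σ hσO hσfrac u'⁻¹ X hσx r) =
        redM ϖ hϖ α hαO σ hσO hσfrac u'⁻¹ X hσx s ^ ℓ) :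
    Nodal.IsNodalChart ϖ (α u')⁻¹
      ((Datum.P₁ ϖ hϖ α σ hσO hσfrac u' U hσu hρ).comap (Nodal.toOverlapInf O (α u')))
      ((Datum.P₂ ϖ hϖ α σ hσO hσfrac u' U hσu w hwO ℓ hwα hρ).comap
        (Nodal.toOverlapInf O (α u'))) :=
  hinf_of_nodal_inv ϖ hϖ α σ hσO hσfrac u' U hσu w hwO ℓ hwα hρ X hσx
    (ChartInfAlt.isNodalChart_inv ϖ hϖ α hαO σ hσO hσfrac u'⁻¹ X hσx w hwO ℓ hwα hww hprime hcop
      hord hℓ hfrob hrank u' rfl hu0 U hσu P hmonic hdeg hPk hP hD hK)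

end LevelFree

end Fermat.Agent.S34.Modular.ChartInfE
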