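import Mathlib
import Fermat.Agent.S34.TwoPrimesGauss
import Fermat.Agent.S34.CuspSep

/-!
# PROGRAM U (S34), (M2): the cusp conditions `hreg₁`, `hreg₂` of the chart at infinity

Vocabulary of `S34/TwoPrimesGauss.lean` with the level-`M` coordinate `x'` of the chart at
infinity (`x' = 1/j`, or `1/t_r`): `B' := Chart O x'` (level `M`), `B := Chart O (α x')`
(level `ℓM`), `rM : B' → κ((q))`, `rI = red ∘ σ`, `rZ = red ∘ σ ∘ w : B → κ((q))`.

`B` is NOT `w`-stable (`w (α x') = 1/Wj` is not integral over `O[1/j]`).  What survives is a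
denominator `c = p(α x')`, `p(0) = 1`, with `c · w (α x')` integral over `O[α x']`; hence
`c ^ N · w z ∈ B` for every `z ∈ B` (hypothesis `hden`).

* `exists_local_generator_inf`  (= `hreg₁`): at every prime `M ⊇ ker rI` of `B`, `M` is
  locally principal modulo `ker rI`;
* `exists_local_generator_zero` (= `hreg₂`): the same at every prime `M ⊇ ker rZ` of `B`
  containing `α x'`.

Inputs: `ϖ` prime in `B'`, the fibre `B' ⧸ ϖ` is a Prüfer domain with locally principal primes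
(`hpr`, `hgen`: both hold for a Dedekind domain), ONTO on the chart at infinity (`honto`,
`B ⧸ ker rI = B' ⧸ ϖ`) and `hden`.  The proof is `CuspSep.exists_local_generator_of_overring`:
`rI B`, resp. `(rZ B)_M`, is a (local) overring of `rM B' ≅ B' ⧸ ϖ`.
-/

set_option autoImplicit false
set_option linter.unusedSectionVars false
set_option linter.style.haveILetI false

noncomputable section

namespace Fermat.Agent.S34.Modular.CuspCond

open ModularCurve Polynomial
open Fermat.Agent.S30 Fermat.Agent.S34.TwoPrimesGauss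

/-! ### The overring lemma for a non-injective `φ₀` -/

section Generic

variable {B K A₀ : Type*} [CommRing B] [Field K] [CommRing A₀]

/-- `CuspSep.exists_local_generator_of_overring` with `A := A₀ ⧸ ker φ₀`. -/
theorem exists_local_generator_of_ker (r : B →+* K) (M : Ideal B) [hM : M.IsPrime]
    (hker : RingHom.ker r ≤ M) (φ₀ : A₀ →+* K)
    (hpr : ∀ a b : A₀ ⧸ RingHom.ker φ₀, b ≠ 0 →
      ∃ e f g h : A₀ ⧸ RingHom.ker φ₀, e + f = 1 ∧ f * a = h * b ∧ e * b = g * a)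
    (hgen : ∀ p : Ideal (A₀ ⧸ RingHom.ker φ₀), p.IsPrime →
      ∃ θ ∈ p, ∀ a ∈ p, ∃ t : A₀ ⧸ RingHom.ker φ₀, t ∉ p ∧ t * a ∈ Ideal.span {θ})
    (o1 : ∀ a : A₀, ∃ d b : B, d ∉ M ∧ r b = r d * φ₀ a)
    (o2 : ∀ b : B, ∃ a₁ a₂ : A₀, φ₀ a₂ ≠ 0 ∧ r b * φ₀ a₂ = φ₀ a₁) :
    ∃ θ ∈ M, ∀ y ∈ M, ∃ c, c ∉ M ∧ c * y ∈ RingHom.ker r ⊔ Ideal.span {θ} := by
  refine CuspSep.exists_local_generator_of_overring r M hker (RingHom.kerLift φ₀) ?_
    (RingHom.kerLift_injective φ₀) hpr hgen ?_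
  · intro a
    obtain ⟨a₀, rfl⟩ := Ideal.Quotient.mk_surjective a
    obtain ⟨d, b, hd, h⟩ := o1 a₀
    exact ⟨d, b, hd, by rw [RingHom.kerLift_mk]; exact h⟩
  · intro b
    obtain ⟨a₁, a₂, ha₂, h⟩ := o2 b
    refine ⟨Ideal.Quotient.mk _ a₁, Ideal.Quotient.mk _ a₂, fun h0 => ha₂ ?_, ?_⟩
    · have := congrArg (RingHom.kerLift φ₀) h0
      rwa [RingHom.kerLift_mk, map_zero] at this
    · rw [RingHom.kerLift_mk, RingHom.kerLift_mk]
      exact h

end Generic

/-! ### Reductions of products -/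

section Red

variable {O E : Type*} [CommRing O] [IsDomain O] [IsDiscreteValuationRing O] [Field E]
  [Algebra O E] [FaithfulSMul O E]

theorem red_congr {s t : LaurentSeries E} (hs : s ∈ GaussDVR.V O E) (h : s = t)
    (ht : t ∈ GaussDVR.V O E) :
    GaussDVR.red O E ⟨s, hs⟩ = GaussDVR.red O E ⟨t, ht⟩ := by
  subst h; rfl

theorem red_mk_mul {s t : LaurentSeries E} (hs : s ∈ GaussDVR.V O E) (ht : t ∈ GaussDVR.V O E)
    (hst : s * t ∈ GaussDVR.V O E) :
    GaussDVR.red O E ⟨s * t, hst⟩ = GaussDVR.red O E ⟨s, hs⟩ * GaussDVR.red O E ⟨t, ht⟩ := by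
  rw [← map_mul]; rfl

end Red

/-! ### The two cusp conditions -/

section Main

variable {O E : Type*} [CommRing O] [IsDomain O] [IsDiscreteValuationRing O] [Field E]
  [Algebra O E] [FaithfulSMul O E]
  {L' L : Type*} [Field L'] [Field L] [Algebra O L'] [Algebra O L]
  (ϖ : O) (hϖ : Irreducible ϖ)
  (α : L' →+* L) (hαO : ∀ r : O, α (algebraMap O L' r) = algebraMap O L r)
  (σ : L →+* LaurentSeries E)
  (hσO : ∀ r : O, σ (algebraMap O L r) = HahnSeries.C (algebraMap O E r))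
  (hσfrac : ∀ x : L, σ x ∈ GaussDVR.fracField O E)
  (x' : L') (U : LaurentSeries O) (hσx : σ (α x') = GaussDVR.iota O E U)
  (w : L ≃+* L) (hwO : ∀ r : O, w (algebraMap O L r) = algebraMap O L r)
  (ℓ : ℕ) [NeZero ℓ]
  (hwα : ∀ x : L', σ (w (α x)) = qExpand E ℓ (σ (α x)))
  (hww : ∀ z : L, w (w z) = z)
  (hprime : Prime (piC x' ϖ))
  (hord : (GaussDVR.rho O U).order ≠ 0)

local notation "rI" => redInf ϖ hϖ α σ hσO hσfrac x' U hσx
local notation "rZ" => redZero ϖ hϖ α σ hσO hσfrac x' U hσx w hwO ℓ hwα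
local notation "rM" => redM ϖ hϖ α hαO σ hσO hσfrac x' U hσx
local notation "ι" => incl α hαO x'
local notation "ρU" => GaussDVR.rho O U

include hwO in
/-- `w` carries integrality over `O[t]` to integrality over `O[w t]`. -/
theorem isIntegral_map_w (t z : L) (hz : IsIntegral (Algebra.adjoin O {t}) z) :
    IsIntegral (Algebra.adjoin O {w t}) (w z) := by
  rw [isIntegral_adjoin_iff] at hz ⊢
  obtain ⟨q, hq, hqz⟩ := hz
  refine ⟨q, hq, ?_⟩
  have hcomp : ((aeval (w t) : O[X] →ₐ[O] L) : O[X] →+* L) =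
      (w : L →+* L).comp ((aeval t : O[X] →ₐ[O] L) : O[X] →+* L) := by
    refine Polynomial.ringHom_ext (fun r => ?_) ?_
    · simp [hwO]
    · simp
  rw [hcomp]
  show eval₂ ((w : L →+* L).comp _) ((w : L →+* L) z) q = 0
  rw [← hom_eval₂, hqz, map_zero]

include hϖ hσO hσfrac hσx hwα in
/-- `σ z ∈ V` for `z` integral over `O[w (α x')]`. -/
theorem sigma_mem_V_w {z : L} (hz : IsIntegral (Algebra.adjoin O {w (α x')}) z) :
    σ z ∈ GaussDVR.V O E :=
  sigma_mem_V σ hσO ϖ hϖ hσfrac (w (α x')) (qExpand O ℓ U)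
    (sigmaW_u α σ x' U hσx w ℓ hwα) hz

theorem redInf_apply (b : Chart O (α x')) :
    rI b = GaussDVR.red O E ⟨σ (b : L), sigma_mem_V σ hσO ϖ hϖ hσfrac (α x') U hσx b.2⟩ := rfl

theorem redZero_apply (b : Chart O (α x')) :
    rZ b = GaussDVR.red O E ⟨σ (w (b : L)),
      sigma_mem_V_w ϖ hϖ α σ hσO hσfrac x' U hσx w ℓ hwα
        (isIntegral_map_w w hwO (α x') (b : L) b.2)⟩ := rfl

theorem redM_apply (a : Chart O x') :
    rM a = GaussDVR.red O E ⟨σ (α (a : L')),
      sigma_mem_V σ hσO ϖ hϖ hσfrac (α x') U hσx (isIntegral_alpha α hαO x' a.2)⟩ := rfl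

include hprime hord in
/-- The kernel of the level-`M` reduction is `(ϖ)`. -/
theorem ker_redM : RingHom.ker rM = Ideal.span {piC x' ϖ} := by
  have htr : ∀ p : (IsLocalRing.ResidueField O)[X], p ≠ 0 → p.eval₂ HahnSeries.C ρU ≠ 0 :=
    fun p hp => ExpandIndep.eval₂_ne_zero_of_order_ne_zero ρU hord p hp
  apply le_antisymm
  · intro a ha
    rw [Ideal.mem_span_singleton]
    exact dvd_of_redM_eq_zero ϖ hϖ α hαO σ hσO hσfrac x' U hσx hprime htr a ha
  · rw [Ideal.span_le, Set.singleton_subset_iff]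
    exact redHom_piC (σ.comp α) (sigmaM_O α hαO σ hσO) ϖ hϖ (fun x => hσfrac (α x)) x' U hσx

/-- **`hreg₁`**: the `∞`-component of the chart at infinity is regular at every point. -/
theorem exists_local_generator_inf
    (hpr : ∀ a b : Chart O x' ⧸ RingHom.ker rM, b ≠ 0 →
      ∃ e f g h : Chart O x' ⧸ RingHom.ker rM, e + f = 1 ∧ f * a = h * b ∧ e * b = g * a)
    (hgen : ∀ p : Ideal (Chart O x' ⧸ RingHom.ker rM), p.IsPrime →
      ∃ θ ∈ p, ∀ a ∈ p, ∃ t : Chart O x' ⧸ RingHom.ker rM, t ∉ p ∧ t * a ∈ Ideal.span {θ})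
    (honto : ∀ c : Chart O (α x'), ∃ a : Chart O x', rI (c - ι a) = 0)
    (M : Ideal (Chart O (α x'))) [hM : M.IsPrime] (hMI : RingHom.ker rI ≤ M) :
    ∃ θ ∈ M, ∀ y ∈ M, ∃ c, c ∉ M ∧ c * y ∈ RingHom.ker rI ⊔ Ideal.span {θ} := by
  refine exists_local_generator_of_ker rI M hMI rM hpr hgen (fun a => ?_) (fun b => ?_)
  · refine ⟨1, ι a, fun h => hM.ne_top ((Ideal.eq_top_iff_one M).mpr h), ?_⟩
    rw [map_one, one_mul]
    rfl
  · obtain ⟨a, ha⟩ := honto b
    refine ⟨a, 1, ?_, ?_⟩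
    · rw [map_one]; exact one_ne_zero
    · rw [map_one, mul_one]
      rw [map_sub, sub_eq_zero] at ha
      rw [ha]
      rfl

include hww hord in
/-- **`hreg₂`**: the `0`-component of the chart at infinity is regular at the points over
`α x' = 0` (the cusps). -/
theorem exists_local_generator_zero
    (hpr : ∀ a b : Chart O x' ⧸ RingHom.ker rM, b ≠ 0 →
      ∃ e f g h : Chart O x' ⧸ RingHom.ker rM, e + f = 1 ∧ f * a = h * b ∧ e * b = g * a)
    (hgen : ∀ p : Ideal (Chart O x' ⧸ RingHom.ker rM), p.IsPrime →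
      ∃ θ ∈ p, ∀ a ∈ p, ∃ t : Chart O x' ⧸ RingHom.ker rM, t ∉ p ∧ t * a ∈ Ideal.span {θ})
    (honto : ∀ c : Chart O (α x'), ∃ a : Chart O x', rI (c - ι a) = 0)
    (p : O[X]) (hp0 : p.coeff 0 = 1)
    (hden : ∀ z : L, IsIntegral (Algebra.adjoin O {w (α x')}) z →
      ∃ N : ℕ, IsIntegral (Algebra.adjoin O {α x'}) (aeval (α x') p ^ N * z))
    (M : Ideal (Chart O (α x'))) [hM : M.IsPrime] (hxM : ι (polyChart x' X) ∈ M)
    (hMZ : RingHom.ker rZ ≤ M) :
    ∃ θ ∈ M, ∀ y ∈ M, ∃ c, c ∉ M ∧ c * y ∈ RingHom.ker rZ ⊔ Ideal.span {θ} := by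
  have htr : ∀ p : (IsLocalRing.ResidueField O)[X], p ≠ 0 → p.eval₂ HahnSeries.C ρU ≠ 0 :=
    fun p hp => ExpandIndep.eval₂_ne_zero_of_order_ne_zero ρU hord p hp
  -- the denominator `c = p(α x')` as an element of the chart
  set c : Chart O (α x') := ι (polyChart x' p) with hc
  have hcL : (c : L) = aeval (α x') p := by
    rw [hc, coe_incl, coe_polyChart]
    exact congrArg (fun f : O[X] →+* L => f p) (aeval_alpha α hαO x')
  -- `c ≡ 1` modulo `α x'`, hence `c ∉ M`
  have hcM : ∀ N : ℕ, c ^ N ∉ M := by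
    intro N hN
    have h1 : c ∈ M := hM.mem_of_pow_mem N hN
    have hdvd : (X : O[X]) ∣ p - 1 := by
      rw [Polynomial.X_dvd_iff, coeff_sub, hp0, coeff_one_zero, sub_self]
    obtain ⟨q, hq⟩ := hdvd
    have h2 : c - 1 = ι (polyChart x' X) * ι (polyChart x' q) := by
      rw [hc, ← map_mul, ← map_mul, ← hq, map_sub, map_sub, map_one, map_one]
    have h3 : c - 1 ∈ M := by rw [h2]; exact M.mul_mem_right _ hxM
    apply hM.ne_top
    rw [Ideal.eq_top_iff_one]
    have e : (1 : Chart O (α x')) = c - (c - 1) := by ring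
    rw [e]
    exact M.sub_mem h1 h3
  -- `rI c ≠ 0`
  have hrIc : rI c ≠ 0 := by
    rw [hc, redInf_incl, redM_polyChart]
    apply htr
    intro h0
    have := congrArg (fun q : (IsLocalRing.ResidueField O)[X] => q.coeff 0) h0
    simp only [coeff_map, hp0, map_one, coeff_zero] at this
    exact one_ne_zero this
  refine exists_local_generator_of_ker rZ M hMZ rM hpr hgen (fun a => ?_) (fun b => ?_)
  · -- (o1): `rM a = rZ (c^N · w (α a)) / rZ (c^N)`
    have hz : IsIntegral (Algebra.adjoin O {w (α x')}) (w (α (a : L'))) :=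
      isIntegral_map_w w hwO (α x') _ (isIntegral_alpha α hαO x' a.2)
    obtain ⟨N, hN⟩ := hden _ hz
    refine ⟨c ^ N, ⟨aeval (α x') p ^ N * w (α (a : L')), hN⟩, hcM N, ?_⟩
    rw [redZero_apply, redZero_apply, redM_apply, ← red_mk_mul]
    · apply red_congr
      show σ (w (aeval (α x') p ^ N * w (α (a : L')))) = σ (w ((c ^ N : Chart O (α x')) : L)) * _
      rw [map_mul, map_mul, hww, Subalgebra.coe_pow, hcL]
    · exact Subring.mul_mem _ (sigma_mem_V_w ϖ hϖ α σ hσO hσfrac x' U hσx w ℓ hwα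
        (isIntegral_map_w w hwO (α x') _ (c ^ N).2))
        (sigma_mem_V σ hσO ϖ hϖ hσfrac (α x') U hσx (isIntegral_alpha α hαO x' a.2))
  · -- (o2): `rZ b = rI (c^N · w b) / rI (c)^N`
    have hz : IsIntegral (Algebra.adjoin O {w (α x')}) (w (b : L)) :=
      isIntegral_map_w w hwO (α x') _ b.2
    obtain ⟨N, hN⟩ := hden _ hz
    obtain ⟨a, ha⟩ := honto ⟨aeval (α x') p ^ N * w (b : L), hN⟩
    rw [map_sub, sub_eq_zero] at ha
    refine ⟨a, polyChart x' p ^ N, ?_, ?_⟩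
    · rw [map_pow]
      have : rM (polyChart x' p) = rI c := rfl
      rw [this]
      exact pow_ne_zero N hrIc
    · have h1 : rI (⟨aeval (α x') p ^ N * w (b : L), hN⟩ : Chart O (α x')) =
          rI (c ^ N) * rZ b := by
        rw [redInf_apply, redInf_apply, redZero_apply, ← red_mk_mul]
        · apply red_congr
          show σ (aeval (α x') p ^ N * w (b : L)) = σ ((c ^ N : Chart O (α x')) : L) * _
          rw [map_mul, Subalgebra.coe_pow, hcL]
        · exact Subring.mul_mem _ (sigma_mem_V σ hσO ϖ hϖ hσfrac (α x') U hσx (c ^ N).2)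
            (sigma_mem_V_w ϖ hϖ α σ hσO hσfrac x' U hσx w ℓ hwα hz)
      have h2 : rM (polyChart x' p ^ N) = rI (c ^ N) := by
        rw [map_pow, map_pow]; rfl
      rw [h2, mul_comm, ← h1, ha]
      rfl

end Main

end Fermat.Agent.S34.Modular.CuspCond
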