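import Mathlib
import Fermat.Agent.S34.Modular.CuspCond
import Fermat.Agent.S34.Modular.ThetaInf
import Fermat.Agent.S34.TwoPrimesGaussZ
import Fermat.Agent.S34.CuspShapeOfPhi
import Fermat.Agent.S34.Lib.IntDenom
import Fermat.Agent.S34.Lib.DedekindElt

/-!
# PROGRAM U (S34), (M2), route T: the three cusp conditions of the chart at infinity

Vocabulary of `S34/TwoPrimesGauss.lean`, read on the chart at infinity: `x' : L'` is the
level-`M` coordinate of that chart (`x' = 1/j`, or `1/t_r`), `B' := Chart O x'`,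
`B := Chart O (α x')`, `rI = red ∘ σ`, `rZ = red ∘ σ ∘ w : B → κ((q))`; the pole coordinate
enters only through `u : L` with `u * α x' = 1` (`u = j`), and through a "modular equation"
`Φ ∈ O[X][Y]` of the cusp shape (`CuspShape.ShapeCoeffs ℓ Φ`) with `Φ(u, w u) = 0`.

`cusp_conditions` : for every coordinate element `xC` of `B` (`(xC : L) = α x'`)

* `hsep`  : no maximal ideal of `B` contains `xC`, `ker rI` and `ker rZ`;
* `hreg₁` : every prime `M ⊇ ker rI` of `B` is locally principal modulo `ker rI`;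
* `hreg₂` : every prime `M ⊇ ker rZ` of `B` containing `xC` is locally principal modulo
  `ker rZ`.

These are the hypotheses `hsep`, `hreg₁`, `hreg₂` of `Nodal/ChartTransfer.isNodalChart_inf`
(there for maximal `M` containing the coordinate).

Inputs (all at level `M`, or formal): `ϖ` prime in `B'` (`hprime`), the special fibre
`B' ⧸ ϖ` is a Dedekind domain (`hD`), the rank statement `hrank`, the orders `hcop`, `hord`,
Frobenius `hfrob`, `2 ≤ ℓ`, and the modular equation.

Assembly of: `CuspShape.exists_cusp_data` (the denominator `p(α x')`, `p(0) = 1`),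
`Lib/IntDenom` (`hden`), `TwoPrimesGaussZ` (ONTO without `hwu`), `Lib/DedekindElt` (Prüfer and
local generators of the fibre), `Modular/CuspCond` (`hreg₁`, `hreg₂`), `Modular/ThetaInf`
(`hsep`).
-/

set_option autoImplicit false
set_option linter.unusedSectionVars false
set_option linter.style.haveILetI false

noncomputable section

namespace Fermat.Agent.S34.Modular.CuspCondMain

open ModularCurve Polynomial
open Fermat.Agent.S30 Fermat.Agent.S34 Fermat.Agent.S34.TwoPrimesGauss

/-! ### Integrality over a larger subalgebra -/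

section Alg

variable {R L : Type*} [CommRing R] [CommRing L] [Algebra R L]

/-- Integrality over a subalgebra implies integrality over every larger subalgebra. -/
theorem isIntegral_of_subalgebra_le {S T : Subalgebra R L} (h : S ≤ T) {z : L}
    (hz : IsIntegral S z) : IsIntegral T z := by
  obtain ⟨q, hq, hqz⟩ := hz
  refine ⟨q.map (Subalgebra.inclusion h).toRingHom, hq.map _, ?_⟩
  rw [eval₂_map]
  exact hqz

end Alg

/-! ### The cusp conditions -/

section Main

variable {O E : Type*} [CommRing O] [IsDomain O] [IsDiscreteValuationRing O] [Field E]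
  [Algebra O E] [FaithfulSMul O E]
  {L' L : Type*} [Field L'] [Field L] [Algebra O L'] [Algebra O L]
  (ϖ : O) (hϖ : Irreducible ϖ)
  (α : L' →+* L) (hαO : ∀ r : O, α (algebraMap O L' r) = algebraMap O L r)
  (σ : L →+* LaurentSeries E)
  (hσO : ∀ r : O, σ (algebraMap O L r) = HahnSeries.C (algebraMap O E r))
  (hσfrac : ∀ x : L, σ x ∈ GaussDVR.fracField O E)
  (x' : L') (U : LaurentSeries O) (hσx : σ (α x') = GaussDVR.iota O E U)
  (w : L ≃+* L) (hwO : ∀ r : O, w (algebraMap O L r) = algebraMap O L r)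
  (ℓ : ℕ) [NeZero ℓ]
  (hwα : ∀ x : L', σ (w (α x)) = qExpand E ℓ (σ (α x)))
  (hww : ∀ z : L, w (w z) = z)
  (hprime : Prime (piC x' ϖ))
  (hcop : IsCoprime (GaussDVR.rho O U).order (ℓ : ℤ)) (hord : (GaussDVR.rho O U).order ≠ 0)
  (hℓ : 2 ≤ ℓ)
  (hfrob : qExpand (IsLocalRing.ResidueField O) ℓ (GaussDVR.rho O U) = GaussDVR.rho O U ^ ℓ)
  (hrank : ∀ v : Option (Fin 1 ⊕ Fin ℓ) → Chart O (α x'),
    ∃ c : Option (Fin 1 ⊕ Fin ℓ) → Chart O x', c ≠ 0 ∧ ∑ i, incl α hαO x' (c i) * v i = 0)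

local notation "rI" => redInf ϖ hϖ α σ hσO hσfrac x' U hσx
local notation "rZ" => redZero ϖ hϖ α σ hσO hσfrac x' U hσx w hwO ℓ hwα
local notation "rM" => redM ϖ hϖ α hαO σ hσO hσfrac x' U hσx
local notation "ι" => incl α hαO x'
local notation "ρU" => GaussDVR.rho O U

/-- The coordinate reduces to `ρ U` at level `M`. -/
theorem redM_coord : rM (polyChart x' X) = ρU := by
  rw [redM_polyChart, Polynomial.map_X, eval₂_X]

include hαO in
theorem coe_incl_polyChart (p : O[X]) :
    ((ι (polyChart x' p) : Chart O (α x')) : L) = aeval (α x') p := by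
  rw [coe_incl, coe_polyChart]
  exact congrArg (fun f : O[X] →+* L => f p) (aeval_alpha α hαO x')

include hord in
/-- The reduction of the denominator `p(x')`, `p(0) = 1`, is nonzero. -/
theorem redM_polyChart_ne_zero (p : O[X]) (hp0 : p.coeff 0 = 1) : rM (polyChart x' p) ≠ 0 := by
  rw [redM_polyChart]
  apply ExpandIndep.eval₂_ne_zero_of_order_ne_zero ρU hord
  intro h0
  have := congrArg (fun q : (IsLocalRing.ResidueField O)[X] => q.coeff 0) h0
  simp only [coeff_map, hp0, map_one, coeff_zero] at this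
  exact one_ne_zero this

include hww in
/-- The witness of `TwoPrimesGaussZ`: `z = p(α x') · w (α x')` reduces to `g(q^ℓ) · ρ U` at the
`0`-component, `g = rM (p(x'))`. -/
theorem redZero_witness (p : O[X])
    (hpy : IsIntegral (Algebra.adjoin O {α x'}) (aeval (α x') p * w (α x'))) :
    rZ (⟨aeval (α x') p * w (α x'), hpy⟩ : Chart O (α x')) =
      qExpand (IsLocalRing.ResidueField O) ℓ (rM (polyChart x' p)) * ρU := by
  have h1 : rZ (⟨aeval (α x') p * w (α x'), hpy⟩ : Chart O (α x')) =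
      rZ (ι (polyChart x' p)) * rI (ι (polyChart x' X)) := by
    rw [CuspCond.redZero_apply, CuspCond.redZero_apply, CuspCond.redInf_apply,
      ← CuspCond.red_mk_mul]
    · apply CuspCond.red_congr
      show σ (w (aeval (α x') p * w (α x'))) =
        σ (w ((ι (polyChart x' p) : Chart O (α x')) : L)) *
          σ ((ι (polyChart x' X) : Chart O (α x')) : L)
      rw [map_mul, map_mul, hww, coe_incl_polyChart α hαO x' p, coe_incl_polyChart α hαO x' X,
        aeval_X]
    · exact Subring.mul_mem _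
        (CuspCond.sigma_mem_V_w ϖ hϖ α σ hσO hσfrac x' U hσx w ℓ hwα
          (CuspCond.isIntegral_map_w w hwO (α x') _ (ι (polyChart x' p)).2))
        (sigma_mem_V σ hσO ϖ hϖ hσfrac (α x') U hσx (ι (polyChart x' X)).2)
  rw [h1, redZero_incl, redInf_incl, redM_coord]

include hwα hfrob in
/-- The witness at the `∞`-component: `z = p(α x') · w (α x')` reduces to `g · ρ U ^ ℓ`. -/
theorem redInf_witness (p : O[X])
    (hpy : IsIntegral (Algebra.adjoin O {α x'}) (aeval (α x') p * w (α x'))) :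
    rI (⟨aeval (α x') p * w (α x'), hpy⟩ : Chart O (α x')) = rM (polyChart x' p) * ρU ^ ℓ := by
  have hwx : σ (w (α x')) = GaussDVR.iota O E (qExpand O ℓ U) := by
    rw [hwα, hσx]
    exact (coeffMap_qExpand _ _ _).symm
  have hV : σ (w (α x')) ∈ GaussDVR.V O E := by
    rw [hwx]; exact GaussDVR.mem_of_int O E _
  have h1 : rI (⟨aeval (α x') p * w (α x'), hpy⟩ : Chart O (α x')) =
      rI (ι (polyChart x' p)) * GaussDVR.red O E ⟨σ (w (α x')), hV⟩ := by
    rw [CuspCond.redInf_apply, CuspCond.redInf_apply, ← CuspCond.red_mk_mul]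
    · apply CuspCond.red_congr
      show σ (aeval (α x') p * w (α x')) =
        σ ((ι (polyChart x' p) : Chart O (α x')) : L) * σ (w (α x'))
      rw [map_mul, coe_incl_polyChart α hαO x' p]
    · exact Subring.mul_mem _
        (sigma_mem_V σ hσO ϖ hϖ hσfrac (α x') U hσx (ι (polyChart x' p)).2) hV
  have h2 : GaussDVR.red O E ⟨σ (w (α x')), hV⟩ = ρU ^ ℓ := by
    have e : (⟨σ (w (α x')), hV⟩ : GaussDVR.V O E) = GaussDVR.ofInt O E (qExpand O ℓ U) :=
      Subtype.ext hwx
    rw [e, GaussDVR.red_ofInt, coeffMap_qExpand, hfrob]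
  rw [h1, h2, redInf_incl]

include hαO hww hord hℓ hfrob in
/-- An element of `p_∞ ∖ p_0` on the chart at infinity. -/
theorem exists_sep (p : O[X]) (hp0 : p.coeff 0 = 1)
    (hpy : IsIntegral (Algebra.adjoin O {α x'}) (aeval (α x') p * w (α x'))) :
    ∃ c : Chart O (α x'), rI c = 0 ∧ rZ c ≠ 0 := by
  have hg := redM_polyChart_ne_zero ϖ hϖ α hαO σ hσO hσfrac x' U hσx hord p hp0
  have hpow : ρU - ρU ^ (ℓ * ℓ) ≠ 0 := by
    intro h
    have h1 : ρU = ρU ^ (ℓ * ℓ) := sub_eq_zero.mp h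
    have h2 := congrArg HahnSeries.order h1
    rw [HahnSeries.order_pow, nsmul_eq_mul] at h2
    have h3 : ((ℓ * ℓ : ℕ) : ℤ) = 1 := by
      have h4 : ((ℓ * ℓ : ℕ) : ℤ) * (ρU).order = 1 * (ρU).order := by
        rw [one_mul]; exact h2.symm
      exact mul_right_cancel₀ hord h4
    have h5 : ℓ * ℓ = 1 := by exact_mod_cast h3
    nlinarith
  refine ⟨(⟨aeval (α x') p * w (α x'), hpy⟩ : Chart O (α x')) -
    ι (polyChart x' p) * ι (polyChart x' X) ^ ℓ, ?_, ?_⟩
  · rw [map_sub, redInf_witness ϖ hϖ α hαO σ hσO hσfrac x' U hσx w ℓ hwα hfrob p hpy, map_mul,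
      map_pow, redInf_incl, redInf_incl, redM_coord, sub_self]
  · rw [map_sub, redZero_witness ϖ hϖ α hαO σ hσO hσfrac x' U hσx w hwO ℓ hwα hww p hpy, map_mul,
      map_pow, redZero_incl, redZero_incl, redM_coord, hfrob, ← pow_mul, ← mul_sub]
    exact mul_ne_zero (fun h0 => hg (qExpand_injective ℓ (by rw [h0, map_zero]))) hpow

include hwO hℓ in
/-- The denominator of the cusp shape: `p(0) = 1` and `p(α x') · w (α x')` is integral over
`O[α x']`. -/
theorem exists_denominator (u : L) (hux : u * α x' = 1)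
    (Φ : O[X][X]) (hΦ : CuspShape.ShapeCoeffs ℓ Φ)
    (hroot : Φ.eval₂ ((aeval u : O[X] →ₐ[O] L) : O[X] →+* L) (w u) = 0) :
    ∃ p : O[X], p.coeff 0 = 1 ∧
      IsIntegral (Algebra.adjoin O {α x'}) (aeval (α x') p * w (α x')) := by
  have hu0 : u ≠ 0 := left_ne_zero_of_mul_eq_one hux
  have hx : α x' = u⁻¹ := eq_inv_of_mul_eq_one_right hux
  have hwu0 : w u ≠ 0 := fun h => hu0 (by rwa [map_eq_zero_iff w w.injective] at h)
  obtain ⟨p, v, a, b, hp0, hint, -⟩ :=
    CuspShapeOfPhi.exists_cusp_data_of_root ℓ (by omega) Φ hΦ u (w u) hu0 hwu0 hroot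
  refine ⟨p, hp0, ?_⟩
  rw [hx, map_inv₀]
  exact hint

include hww hprime hcop hord hℓ hfrob hrank in
/-- **The three cusp conditions of the chart at infinity** (route T of (M2)). -/
theorem cusp_conditions
    (hD : IsDedekindDomain (Chart O x' ⧸ Ideal.span {piC x' ϖ}))
    (u : L) (hux : u * α x' = 1)
    (Φ : O[X][X]) (hΦ : CuspShape.ShapeCoeffs ℓ Φ)
    (hroot : Φ.eval₂ ((aeval u : O[X] →ₐ[O] L) : O[X] →+* L) (w u) = 0)
    (xC : Chart O (α x')) (hxC : (xC : L) = α x') :
    (∀ M : Ideal (Chart O (α x')), M.IsMaximal → xC ∈ M → RingHom.ker rI ≤ M →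
      RingHom.ker rZ ≤ M → False) ∧
    (∀ M : Ideal (Chart O (α x')), M.IsPrime → RingHom.ker rI ≤ M →
      ∃ θ ∈ M, ∀ y ∈ M, ∃ c, c ∉ M ∧ c * y ∈ RingHom.ker rI ⊔ Ideal.span {θ}) ∧
    (∀ M : Ideal (Chart O (α x')), M.IsPrime → xC ∈ M → RingHom.ker rZ ≤ M →
      ∃ θ ∈ M, ∀ y ∈ M, ∃ c, c ∉ M ∧ c * y ∈ RingHom.ker rZ ⊔ Ideal.span {θ}) := by
  -- the denominator
  obtain ⟨p, hp0, hpy⟩ := exists_denominator α x' w hwO ℓ hℓ u hux Φ hΦ hroot
  have hden : ∀ z : L, IsIntegral (Algebra.adjoin O {w (α x')}) z →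
      ∃ N : ℕ, IsIntegral (Algebra.adjoin O {α x'}) (aeval (α x') p ^ N * z) := by
    intro z hz
    have hz' : IsIntegral (Algebra.adjoin O {α x', w (α x')}) z :=
      isIntegral_of_subalgebra_le (Algebra.adjoin_mono (by
        intro t ht
        rw [Set.mem_singleton_iff] at ht
        rw [ht]
        exact Set.mem_insert_of_mem _ (Set.mem_singleton _))) hz
    obtain ⟨N, hN⟩ := Lib.IntDenom.exists_pow_mul_isIntegral (α x') (w (α x')) (aeval (α x') p)
      (aeval_mem_adjoin_singleton O (α x')) hpy z hz'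
    exact ⟨N, hN N le_rfl⟩
  -- ONTO on the chart at infinity
  have hg := redM_polyChart_ne_zero ϖ hϖ α hαO σ hσO hσfrac x' U hσx hord p hp0
  have hzZ := redZero_witness ϖ hϖ α hαO σ hσO hσfrac x' U hσx w hwO ℓ hwα hww p hpy
  have hne := exists_sep ϖ hϖ α hαO σ hσO hσfrac x' U hσx w hwO ℓ hwα hww hord hℓ hfrob p hp0 hpy
  have hnormal : IsIntegrallyClosed (Chart O x' ⧸ Ideal.span {piC x' ϖ}) := by
    haveI := hD
    infer_instance
  have honto : ∀ c : Chart O (α x'), ∃ a : Chart O x', rI (c - ι a) = 0 :=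
    TwoPrimesGaussZ.exists_redInf_sub_eq_zero ϖ hϖ α hαO σ hσO hσfrac x' U hσx w hwO ℓ hwα hprime
      hcop hord hrank _ _ hg hzZ hne hnormal
  -- the fibre at level `M`
  have hker := CuspCond.ker_redM ϖ hϖ α hαO σ hσO hσfrac x' U hσx hprime hord
  have hD' : IsDedekindDomain (Chart O x' ⧸ RingHom.ker rM) := by
    rw [hker]; exact hD
  have hpr : ∀ a b : Chart O x' ⧸ RingHom.ker rM, b ≠ 0 →
      ∃ e f g h : Chart O x' ⧸ RingHom.ker rM, e + f = 1 ∧ f * a = h * b ∧ e * b = g * a :=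
    fun a b hb => Lib.DedekindElt.exists_prufer a b hb
  have hgen : ∀ q : Ideal (Chart O x' ⧸ RingHom.ker rM), q.IsPrime →
      ∃ θ ∈ q, ∀ a ∈ q, ∃ t : Chart O x' ⧸ RingHom.ker rM, t ∉ q ∧ t * a ∈ Ideal.span {θ} :=
    fun q hq => by
      haveI := hq
      exact Lib.DedekindElt.exists_local_generator (A := Chart O x' ⧸ RingHom.ker rM) q
  have hxC' : xC = ι (polyChart x' X) :=
    Subtype.ext (by rw [hxC, coe_incl_polyChart α hαO x' X, aeval_X])
  refine ⟨?_, ?_, ?_⟩
  · exact ThetaInf.hsep_of_shape ϖ hϖ α σ hσO hσfrac x' U hσx w hwO ℓ hwα hww hord hfrob u hux hℓ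
      Φ hΦ.monic (ThetaInf.bound_of_shape ℓ (by omega) Φ hΦ.natDegree_eq hΦ.natDegree_coeff_le
        hΦ.natDegree_coeff_zero_le) hroot xC hxC
  · intro M hM hMI
    haveI := hM
    exact CuspCond.exists_local_generator_inf ϖ hϖ α hαO σ hσO hσfrac x' U hσx hpr hgen honto M
      hMI
  · intro M hM hxM hMZ
    haveI := hM
    exact CuspCond.exists_local_generator_zero ϖ hϖ α hαO σ hσO hσfrac x' U hσx w hwO ℓ hwα hww
      hord hpr hgen honto p hp0 hden M (hxC' ▸ hxM) hMZ

end Main

end Fermat.Agent.S34.Modular.CuspCondMain
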