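import Mathlib
import Fermat.Agent.S34.Modular.CuspCondMain
import Fermat.Agent.S34.Modular.Datum
import Fermat.Agent.S34.Nodal.ChartTransfer

/-!
# PROGRAM U (S34), (M2), route T: the chart at infinity of the modular nodal datum

Transport of `Modular/CuspCondMain.cusp_conditions` (stated on `TwoPrimesGauss.Chart O (α x')`,
`x'` the level-`M` coordinate of the chart at infinity) to the vocabulary of `Modular/Datum`
(`Nodal.Chart O (α u')⁻¹`, the contractions of the overlap primes `Datum.P₁`, `Datum.P₂`), for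
a level-`M` coordinate `x'` with `α u' * α x' = 1` (`x' = u'⁻¹`).

* `conditions_of_eq` : the three cusp conditions for any `v = α x'` and any two ideals of
  `Nodal.Chart O v` characterised elementwise by `red (σ x) = 0`, `red (σ (w x)) = 0`;
* `hsep_hreg` : the hypotheses `hsep`, `hreg₁`, `hreg₂` of `ChartTransfer.isNodalChart_inf`,
  literally, for `P₁ := Datum.P₁ ..`, `P₂ := Datum.P₂ ..`;
* `isNodalChart_inf` : the hypothesis `hinf` of `Datum.nodalDatum`.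
-/

set_option autoImplicit false
set_option linter.unusedSectionVars false
set_option linter.style.haveILetI false

noncomputable section

namespace Fermat.Agent.S34.Modular.ChartInfT

open ModularCurve Polynomial
open Fermat.Agent.S30 Fermat.Agent.S30.Model Fermat.Agent.S30.Model.GlueChart Fermat.Agent.S34
  Fermat.Agent.S34.TwoPrimesGauss

section Transport

variable {O E : Type*} [CommRing O] [IsDomain O] [IsDiscreteValuationRing O] [Field E]
  [Algebra O E] [FaithfulSMul O E]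
  {L' L : Type*} [Field L'] [Field L] [Algebra O L'] [Algebra O L]
  (ϖ : O) (hϖ : Irreducible ϖ)
  (α : L' →+* L) (hαO : ∀ r : O, α (algebraMap O L' r) = algebraMap O L r)
  (σ : L →+* LaurentSeries E)
  (hσO : ∀ r : O, σ (algebraMap O L r) = HahnSeries.C (algebraMap O E r))
  (hσfrac : ∀ x : L, σ x ∈ GaussDVR.fracField O E)
  (x' : L') (Xq : LaurentSeries O) (hσx : σ (α x') = GaussDVR.iota O E Xq)
  (w : L ≃+* L) (hwO : ∀ r : O, w (algebraMap O L r) = algebraMap O L r)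
  (ℓ : ℕ) [NeZero ℓ]
  (hwα : ∀ x : L', σ (w (α x)) = qExpand E ℓ (σ (α x)))
  (hww : ∀ z : L, w (w z) = z)
  (hprime : Prime (piC x' ϖ))
  (hcop : IsCoprime (GaussDVR.rho O Xq).order (ℓ : ℤ)) (hord : (GaussDVR.rho O Xq).order ≠ 0)
  (hℓ : 2 ≤ ℓ)
  (hfrob : qExpand (IsLocalRing.ResidueField O) ℓ (GaussDVR.rho O Xq) = GaussDVR.rho O Xq ^ ℓ)
  (hrank : ∀ v : Option (Fin 1 ⊕ Fin ℓ) → Chart O (α x'),
    ∃ c : Option (Fin 1 ⊕ Fin ℓ) → Chart O x', c ≠ 0 ∧ ∑ i, incl α hαO x' (c i) * v i = 0)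
  (hD : IsDedekindDomain (Chart O x' ⧸ Ideal.span {piC x' ϖ}))
  (u : L) (hux : u * α x' = 1)
  (Φ : O[X][X]) (hΦ : CuspShape.ShapeCoeffs ℓ Φ)
  (hroot : Φ.eval₂ ((aeval u : O[X] →ₐ[O] L) : O[X] →+* L) (w u) = 0)

include hϖ hσO hσfrac hσx hwO hwα hww hprime hcop hord hℓ hfrob hrank hD hux hΦ hroot in
/-- **The three cusp conditions, transported**: for `v = α x'`, two ideals `Q₁`, `Q₂` of the
chart ring of `v` characterised elementwise by the two reductions, and a coordinate element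
`t`. -/
theorem conditions_of_eq (v : L) (hv : α x' = v) (Q₁ Q₂ : Ideal (Nodal.Chart O v))
    (hQ₁ : ∀ (x : Nodal.Chart O v) (hx : σ (x : L) ∈ GaussDVR.V O E),
      x ∈ Q₁ ↔ GaussDVR.red O E ⟨σ (x : L), hx⟩ = 0)
    (hQ₂ : ∀ (x : Nodal.Chart O v) (hx : σ (w (x : L)) ∈ GaussDVR.V O E),
      x ∈ Q₂ ↔ GaussDVR.red O E ⟨σ (w (x : L)), hx⟩ = 0)
    (t : Nodal.Chart O v) (ht : (t : L) = v) :
    (∀ M : Ideal (Nodal.Chart O v), M.IsMaximal → t ∈ M → Q₁ ≤ M → Q₂ ≤ M → False) ∧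
    (∀ M : Ideal (Nodal.Chart O v), M.IsMaximal → t ∈ M → Q₁ ≤ M →
      ∃ θ ∈ M, ∀ y ∈ M, ∃ c, c ∉ M ∧ c * y ∈ Q₁ ⊔ Ideal.span {θ}) ∧
    (∀ M : Ideal (Nodal.Chart O v), M.IsMaximal → t ∈ M → Q₂ ≤ M →
      ∃ θ ∈ M, ∀ y ∈ M, ∃ c, c ∉ M ∧ c * y ∈ Q₂ ⊔ Ideal.span {θ}) := by
  subst hv
  have h1 : Q₁ = RingHom.ker (redInf ϖ hϖ α σ hσO hσfrac x' Xq hσx) := by
    ext x
    rw [RingHom.mem_ker, CuspCond.redInf_apply]
    exact hQ₁ x _
  have h2 : Q₂ = RingHom.ker (redZero ϖ hϖ α σ hσO hσfrac x' Xq hσx w hwO ℓ hwα) := by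
    ext x
    rw [RingHom.mem_ker, CuspCond.redZero_apply]
    exact hQ₂ x _
  subst h1 h2
  obtain ⟨hs, hr1, hr2⟩ := CuspCondMain.cusp_conditions ϖ hϖ α hαO σ hσO hσfrac x' Xq hσx w hwO ℓ
    hwα hww hprime hcop hord hℓ hfrob hrank hD u hux Φ hΦ hroot t ht
  exact ⟨hs, fun M hM _ h => hr1 M hM.isPrime h, fun M hM htM h => hr2 M hM.isPrime htM h⟩

end Transport

section Datum

variable {O E : Type*} [CommRing O] [IsDomain O] [IsDiscreteValuationRing O] [Field E]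
  [Algebra O E] [FaithfulSMul O E]
  {L' L : Type*} [Field L'] [Field L] [Algebra O L'] [Algebra O L]
  (ϖ : O) (hϖ : Irreducible ϖ)
  (α : L' →+* L) (hαO : ∀ r : O, α (algebraMap O L' r) = algebraMap O L r)
  (σ : L →+* LaurentSeries E)
  (hσO : ∀ r : O, σ (algebraMap O L r) = HahnSeries.C (algebraMap O E r))
  (hσfrac : ∀ x : L, σ x ∈ GaussDVR.fracField O E)
  (u' : L') (U : LaurentSeries O) (hσu : σ (α u') = GaussDVR.iota O E U)
  (w : L ≃+* L) (hwO : ∀ r : O, w (algebraMap O L r) = algebraMap O L r)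
  (ℓ : ℕ) [NeZero ℓ]
  (hwα : ∀ x : L', σ (w (α x)) = qExpand E ℓ (σ (α x)))
  (hρ : GaussDVR.rho O U ≠ 0)
  -- the level-`M` coordinate of the chart at infinity
  (x' : L') (Xq : LaurentSeries O) (hσx : σ (α x') = GaussDVR.iota O E Xq)
  (hxu : α u' * α x' = 1)
  (hww : ∀ z : L, w (w z) = z)
  (hprime : Prime (piC x' ϖ))
  (hcop : IsCoprime (GaussDVR.rho O Xq).order (ℓ : ℤ)) (hord : (GaussDVR.rho O Xq).order ≠ 0)
  (hℓ : 2 ≤ ℓ)
  (hfrob : qExpand (IsLocalRing.ResidueField O) ℓ (GaussDVR.rho O Xq) = GaussDVR.rho O Xq ^ ℓ)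
  (hrank : ∀ v : Option (Fin 1 ⊕ Fin ℓ) → Chart O (α x'),
    ∃ c : Option (Fin 1 ⊕ Fin ℓ) → Chart O x', c ≠ 0 ∧ ∑ i, incl α hαO x' (c i) * v i = 0)
  (hD : IsDedekindDomain (Chart O x' ⧸ Ideal.span {piC x' ϖ}))
  (Φ : O[X][X]) (hΦ : CuspShape.ShapeCoeffs ℓ Φ)
  (hroot : Φ.eval₂ ((aeval (α u') : O[X] →ₐ[O] L) : O[X] →+* L) (w (α u')) = 0)

local notation "p₁" => Datum.P₁ ϖ hϖ α σ hσO hσfrac u' U hσu hρ
local notation "p₂" => Datum.P₂ ϖ hϖ α σ hσO hσfrac u' U hσu w hwO ℓ hwα hρ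

include hσx hxu hww hprime hcop hord hℓ hfrob hrank hD hΦ hroot in
/-- **`hsep`, `hreg₁`, `hreg₂` of `ChartTransfer.isNodalChart_inf`** for the two Gauss primes
`Datum.P₁`, `Datum.P₂` of the overlap chart of `u = α u'` (route T). -/
theorem hsep_hreg :
    (∀ M : Ideal (Nodal.Chart O (α u')⁻¹), M.IsMaximal → ChartInf.tInf (α u') ∈ M →
      (p₁).comap (Nodal.toOverlapInf O (α u')) ≤ M →
      (p₂).comap (Nodal.toOverlapInf O (α u')) ≤ M → False) ∧
    (∀ M : Ideal (Nodal.Chart O (α u')⁻¹), M.IsMaximal → ChartInf.tInf (α u') ∈ M →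
      (p₁).comap (Nodal.toOverlapInf O (α u')) ≤ M →
      ∃ θ ∈ M, ∀ y ∈ M, ∃ c, c ∉ M ∧
        c * y ∈ (p₁).comap (Nodal.toOverlapInf O (α u')) ⊔ Ideal.span {θ}) ∧
    (∀ M : Ideal (Nodal.Chart O (α u')⁻¹), M.IsMaximal → ChartInf.tInf (α u') ∈ M →
      (p₂).comap (Nodal.toOverlapInf O (α u')) ≤ M →
      ∃ θ ∈ M, ∀ y ∈ M, ∃ c, c ∉ M ∧
        c * y ∈ (p₂).comap (Nodal.toOverlapInf O (α u')) ⊔ Ideal.span {θ}) :=
  conditions_of_eq ϖ hϖ α hαO σ hσO hσfrac x' Xq hσx w hwO ℓ hwα hww hprime hcop hord hℓ hfrob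
    hrank hD (α u') hxu Φ hΦ hroot (α u')⁻¹ (eq_inv_of_mul_eq_one_right hxu) _ _
    (Datum.mem_comap_inf_P₁_iff ϖ hϖ α σ hσO hσfrac u' U hσu hρ)
    (Datum.mem_comap_inf_P₂_iff ϖ hϖ α σ hσO hσfrac u' U hσu w hwO ℓ hwα hρ)
    (ChartInf.tInf (α u')) rfl

include hσx hxu hww hprime hcop hord hℓ hfrob hrank hD hΦ hroot in
/-- **The chart at infinity of the modular nodal datum** (`hinf` of `Datum.nodalDatum`), by
route T: chart transfer from the chart `u` and the cusp conditions. -/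
theorem isNodalChart_inf [CharZero E] [IsFractionRing O E] [Algebra E L] [IsScalarTower O E L]
    (hu : Transcendental E (α u')) [FiniteDimensional (IntermediateField.adjoin E {α u'}) L]
    (hzero : Nodal.IsNodalChart ϖ (α u') ((p₁).comap (Nodal.toOverlapZero O (α u')))
      ((p₂).comap (Nodal.toOverlapZero O (α u')))) :
    Nodal.IsNodalChart ϖ (α u')⁻¹ ((p₁).comap (Nodal.toOverlapInf O (α u')))
      ((p₂).comap (Nodal.toOverlapInf O (α u'))) := by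
  obtain ⟨hs, h1, h2⟩ := hsep_hreg ϖ hϖ α hαO σ hσO hσfrac u' U hσu w hwO ℓ hwα hρ x' Xq hσx hxu
    hww hprime hcop hord hℓ hfrob hrank hD Φ hΦ hroot
  exact Nodal.ChartTransfer.isNodalChart_inf ϖ hϖ (α u') hu _ _ hzero hs h1 h2

end Datum

end Fermat.Agent.S34.Modular.ChartInfT
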