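import Mathlib
import Fermat.Agent.S34.Modular.Datum
import Fermat.Agent.S34.Nodal.ChartTransfer

/-!
# PROGRAM U, (M2): `chartInf` of the modular nodal datum by chart transfer (route T)

Glue between `Nodal/ChartTransfer.lean` (helper194; contract vocabulary: contractions of the
overlap primes to the chart of `u⁻¹`) and the cusp production (TwoPrimesGauss vocabulary at a
level-`M` coordinate `x'` with `α x' = (α u')⁻¹`, e.g. `x' = 1/j`: the primes are
`q₁ = ker redInf`, `q₂ = ker redZero` of `Chart O (α x')`).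

* `chartInf_of_cusp` : `hsep`, `hreg₁`, `hreg₂` at `x'` ⟹ `chartInf` of `Datum.nodalDatum`;
* `chartInf_of_cusp_dedekind_left` : `hsep`, `IsDedekindDomain (Chart O (α x') ⧸ q₁)`, `hreg₂`
  ⟹ `chartInf` (RULING #6: the `∞`-component needs no cusp analysis);
* `chartInf_of_cusp_dedekind` : `hsep` and both quotients Dedekind ⟹ `chartInf`;
* `nodalDatum_of_cusp…` : the corresponding `Nodal.NodalDatum ϖ (α u')` (primes `Datum.P₁`,
  `Datum.P₂`).
-/

set_option autoImplicit false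
set_option linter.unusedSectionVars false
set_option linter.style.haveILetI false

noncomputable section

namespace Fermat.Agent.S34.Modular.DatumInf

open ModularCurve Polynomial
open Fermat.Agent.S30 Fermat.Agent.S30.Model Fermat.Agent.S30.Model.GlueChart Fermat.Agent.S34
  Fermat.Agent.S34.TwoPrimesGauss Fermat.Agent.S34.Modular.Datum

section Main

variable {O E : Type*} [CommRing O] [IsDomain O] [IsDiscreteValuationRing O] [Field E]
  [CharZero E] [Algebra O E] [IsFractionRing O E]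
  {L' L : Type*} [Field L'] [Field L] [Algebra O L'] [Algebra E L] [Algebra O L]
  [IsScalarTower O E L]
  (ϖ : O) (hϖ : Irreducible ϖ)
  (α : L' →+* L)
  (σ : L →+* LaurentSeries E)
  (hσO : ∀ r : O, σ (algebraMap O L r) = HahnSeries.C (algebraMap O E r))
  (hσfrac : ∀ x : L, σ x ∈ GaussDVR.fracField O E)
  (w : L ≃+* L) (hwO : ∀ r : O, w (algebraMap O L r) = algebraMap O L r)
  (ℓ : ℕ) [NeZero ℓ]
  (hwα : ∀ x : L', σ (w (α x)) = qExpand E ℓ (σ (α x)))
  -- the coordinate `u'` (chart zero)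
  (u' : L') (U : LaurentSeries O) (hσu : σ (α u') = GaussDVR.iota O E U)
  (hρ : GaussDVR.rho O U ≠ 0)
  (hu : Transcendental E (α u')) [FiniteDimensional (IntermediateField.adjoin E {α u'}) L]
  -- the coordinate `x'` at infinity
  (x' : L') (Xq : LaurentSeries O) (hσx : σ (α x') = GaussDVR.iota O E Xq)
  (hx : α x' = (α u')⁻¹)

local notation "p₁" => P₁ ϖ hϖ α σ hσO hσfrac u' U hσu hρ
local notation "p₂" => P₂ ϖ hϖ α σ hσO hσfrac u' U hσu w hwO ℓ hwα hρ
local notation "q₁" => RingHom.ker (redInf ϖ hϖ α σ hσO hσfrac x' Xq hσx)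
local notation "q₂" => RingHom.ker (redZero ϖ hϖ α σ hσO hσfrac x' Xq hσx w hwO ℓ hwα)

include hu hx in
/-- **`chartInf` by chart transfer** from the three pointwise cusp conditions at the coordinate
`x'` (`α x' = (α u')⁻¹`), stated for the Gauss primes `q₁ = ker redInf`, `q₂ = ker redZero` of
`Chart O (α x')`; `xC` is the coordinate as an element of the chart ring. -/
theorem chartInf_of_cusp
    (hzero : Nodal.IsNodalChart ϖ (α u') ((p₁).comap (Nodal.toOverlapZero O (α u')))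
      ((p₂).comap (Nodal.toOverlapZero O (α u'))))
    (hsep : ∀ M : Ideal (Chart O (α x')), M.IsMaximal →
      Nodal.ChartTransfer.tZero (α x') ∈ M → q₁ ≤ M → q₂ ≤ M → False)
    (hreg₁ : ∀ M : Ideal (Chart O (α x')), M.IsMaximal →
      Nodal.ChartTransfer.tZero (α x') ∈ M → q₁ ≤ M →
      ∃ θ ∈ M, ∀ y ∈ M, ∃ c, c ∉ M ∧ c * y ∈ q₁ ⊔ Ideal.span {θ})
    (hreg₂ : ∀ M : Ideal (Chart O (α x')), M.IsMaximal →
      Nodal.ChartTransfer.tZero (α x') ∈ M → q₂ ≤ M →
      ∃ θ ∈ M, ∀ y ∈ M, ∃ c, c ∉ M ∧ c * y ∈ q₂ ⊔ Ideal.span {θ}) :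
    Nodal.IsNodalChart ϖ (α u')⁻¹ ((p₁).comap (Nodal.toOverlapInf O (α u')))
      ((p₂).comap (Nodal.toOverlapInf O (α u'))) := by
  refine Nodal.ChartTransfer.isNodalChart_inf (E := E) ϖ hϖ (α u') hu (p₁) (p₂) hzero ?_ ?_ ?_
  · exact transport_inf ϖ hϖ α σ hσO hσfrac w hwO ℓ hwα x' Xq hσx u' U hσu hρ hx
      (fun s a b => ∀ M : Ideal (Nodal.Chart O s), M.IsMaximal →
        Nodal.ChartTransfer.tZero s ∈ M → a ≤ M → b ≤ M → False) hsep
  · exact transport_inf ϖ hϖ α σ hσO hσfrac w hwO ℓ hwα x' Xq hσx u' U hσu hρ hx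
      (fun s a _ => ∀ M : Ideal (Nodal.Chart O s), M.IsMaximal →
        Nodal.ChartTransfer.tZero s ∈ M → a ≤ M →
        ∃ θ ∈ M, ∀ y ∈ M, ∃ c, c ∉ M ∧ c * y ∈ a ⊔ Ideal.span {θ}) hreg₁
  · exact transport_inf ϖ hϖ α σ hσO hσfrac w hwO ℓ hwα x' Xq hσx u' U hσu hρ hx
      (fun s _ b => ∀ M : Ideal (Nodal.Chart O s), M.IsMaximal →
        Nodal.ChartTransfer.tZero s ∈ M → b ≤ M →
        ∃ θ ∈ M, ∀ y ∈ M, ∃ c, c ∉ M ∧ c * y ∈ b ⊔ Ideal.span {θ}) hreg₂

include hu hx in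
/-- **`chartInf` by chart transfer, both components Dedekind at infinity**: only `hsep` is
needed at the cusps. -/
theorem chartInf_of_cusp_dedekind
    (hzero : Nodal.IsNodalChart ϖ (α u') ((p₁).comap (Nodal.toOverlapZero O (α u')))
      ((p₂).comap (Nodal.toOverlapZero O (α u'))))
    (hsep : ∀ M : Ideal (Chart O (α x')), M.IsMaximal →
      Nodal.ChartTransfer.tZero (α x') ∈ M → q₁ ≤ M → q₂ ≤ M → False)
    (hded₁ : IsDedekindDomain (Chart O (α x') ⧸ q₁))
    (hded₂ : IsDedekindDomain (Chart O (α x') ⧸ q₂)) :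
    Nodal.IsNodalChart ϖ (α u')⁻¹ ((p₁).comap (Nodal.toOverlapInf O (α u')))
      ((p₂).comap (Nodal.toOverlapInf O (α u'))) := by
  refine Nodal.ChartTransfer.isNodalChart_inf_of_dedekind (E := E) ϖ hϖ (α u') hu (p₁) (p₂)
    hzero ?_ ?_ ?_
  · exact transport_inf ϖ hϖ α σ hσO hσfrac w hwO ℓ hwα x' Xq hσx u' U hσu hρ hx
      (fun s a b => ∀ M : Ideal (Nodal.Chart O s), M.IsMaximal →
        Nodal.ChartTransfer.tZero s ∈ M → a ≤ M → b ≤ M → False) hsep
  · exact transport_inf ϖ hϖ α σ hσO hσfrac w hwO ℓ hwα x' Xq hσx u' U hσu hρ hx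
      (fun s a _ => IsDedekindDomain (Nodal.Chart O s ⧸ a)) hded₁
  · exact transport_inf ϖ hϖ α σ hσO hσfrac w hwO ℓ hwα x' Xq hσx u' U hσu hρ hx
      (fun s _ b => IsDedekindDomain (Nodal.Chart O s ⧸ b)) hded₂

include hu hx in
/-- **`chartInf` by chart transfer, mixed form** (RULING #6): the `∞`-component is Dedekind at
infinity (globally: ONTO on the chart at infinity), the `0`-component is regular at its cusps. -/
theorem chartInf_of_cusp_dedekind_left
    (hzero : Nodal.IsNodalChart ϖ (α u') ((p₁).comap (Nodal.toOverlapZero O (α u')))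
      ((p₂).comap (Nodal.toOverlapZero O (α u'))))
    (hsep : ∀ M : Ideal (Chart O (α x')), M.IsMaximal →
      Nodal.ChartTransfer.tZero (α x') ∈ M → q₁ ≤ M → q₂ ≤ M → False)
    (hded₁ : IsDedekindDomain (Chart O (α x') ⧸ q₁))
    (hreg₂ : ∀ M : Ideal (Chart O (α x')), M.IsMaximal →
      Nodal.ChartTransfer.tZero (α x') ∈ M → q₂ ≤ M →
      ∃ θ ∈ M, ∀ y ∈ M, ∃ c, c ∉ M ∧ c * y ∈ q₂ ⊔ Ideal.span {θ}) :
    Nodal.IsNodalChart ϖ (α u')⁻¹ ((p₁).comap (Nodal.toOverlapInf O (α u')))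
      ((p₂).comap (Nodal.toOverlapInf O (α u'))) := by
  refine Nodal.ChartTransfer.isNodalChart_inf_of_dedekind_left (E := E) ϖ hϖ (α u') hu (p₁) (p₂)
    hzero ?_ ?_ ?_
  · exact transport_inf ϖ hϖ α σ hσO hσfrac w hwO ℓ hwα x' Xq hσx u' U hσu hρ hx
      (fun s a b => ∀ M : Ideal (Nodal.Chart O s), M.IsMaximal →
        Nodal.ChartTransfer.tZero s ∈ M → a ≤ M → b ≤ M → False) hsep
  · exact transport_inf ϖ hϖ α σ hσO hσfrac w hwO ℓ hwα x' Xq hσx u' U hσu hρ hx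
      (fun s a _ => IsDedekindDomain (Nodal.Chart O s ⧸ a)) hded₁
  · exact transport_inf ϖ hϖ α σ hσO hσfrac w hwO ℓ hwα x' Xq hσx u' U hσu hρ hx
      (fun s _ b => ∀ M : Ideal (Nodal.Chart O s), M.IsMaximal →
        Nodal.ChartTransfer.tZero s ∈ M → b ≤ M →
        ∃ θ ∈ M, ∀ y ∈ M, ∃ c, c ∉ M ∧ c * y ∈ b ⊔ Ideal.span {θ}) hreg₂

include hu hx in
/-- **`chartInf` by chart transfer, mixed form**: the `0`-component is Dedekind at infinity,
the `∞`-component is regular at its cusps. -/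
theorem chartInf_of_cusp_dedekind_right
    (hzero : Nodal.IsNodalChart ϖ (α u') ((p₁).comap (Nodal.toOverlapZero O (α u')))
      ((p₂).comap (Nodal.toOverlapZero O (α u'))))
    (hsep : ∀ M : Ideal (Chart O (α x')), M.IsMaximal →
      Nodal.ChartTransfer.tZero (α x') ∈ M → q₁ ≤ M → q₂ ≤ M → False)
    (hreg₁ : ∀ M : Ideal (Chart O (α x')), M.IsMaximal →
      Nodal.ChartTransfer.tZero (α x') ∈ M → q₁ ≤ M →
      ∃ θ ∈ M, ∀ y ∈ M, ∃ c, c ∉ M ∧ c * y ∈ q₁ ⊔ Ideal.span {θ})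
    (hded₂ : IsDedekindDomain (Chart O (α x') ⧸ q₂)) :
    Nodal.IsNodalChart ϖ (α u')⁻¹ ((p₁).comap (Nodal.toOverlapInf O (α u')))
      ((p₂).comap (Nodal.toOverlapInf O (α u'))) := by
  refine Nodal.ChartTransfer.isNodalChart_inf_of_dedekind_right (E := E) ϖ hϖ (α u') hu (p₁)
    (p₂) hzero ?_ ?_ ?_
  · exact transport_inf ϖ hϖ α σ hσO hσfrac w hwO ℓ hwα x' Xq hσx u' U hσu hρ hx
      (fun s a b => ∀ M : Ideal (Nodal.Chart O s), M.IsMaximal →
        Nodal.ChartTransfer.tZero s ∈ M → a ≤ M → b ≤ M → False) hsep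
  · exact transport_inf ϖ hϖ α σ hσO hσfrac w hwO ℓ hwα x' Xq hσx u' U hσu hρ hx
      (fun s a _ => ∀ M : Ideal (Nodal.Chart O s), M.IsMaximal →
        Nodal.ChartTransfer.tZero s ∈ M → a ≤ M →
        ∃ θ ∈ M, ∀ y ∈ M, ∃ c, c ∉ M ∧ c * y ∈ a ⊔ Ideal.span {θ}) hreg₁
  · exact transport_inf ϖ hϖ α σ hσO hσfrac w hwO ℓ hwα x' Xq hσx u' U hσu hρ hx
      (fun s _ b => IsDedekindDomain (Nodal.Chart O s ⧸ b)) hded₂

/-- The coordinate element `tZero (α x')` of the chart ring: any `xC` with `(xC : L) = α x'`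
is it (bridge to the `(xC) (hxC : (xC : L) = α x')` binders of `Modular/ThetaInf`). -/
theorem eq_tZero (xC : Chart O (α x')) (hxC : (xC : L) = α x') :
    xC = Nodal.ChartTransfer.tZero (α x') := Subtype.ext hxC

end Main

end Fermat.Agent.S34.Modular.DatumInf
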