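import Mathlib
import Fermat.Agent.S34.Modular.ChartInfE
import Fermat.Agent.S34.ChartInfAlt.ModEqE
import Fermat.Agent.S34.ChartInfAlt.KInvE
import Fermat.Agent.S34.Sat
import Fermat.Agent.S34.LevelM

/-!
# PROGRAM U, (F4a): the chart at infinity of the modular nodal datum at the `E`-level

`L' = LE M E`, `L = LE (M ℓ) E`, `O = OE A E`, `α = TwoPrimesRank.alphaHom M ℓ E`,
`σ = HauptU.Plug.sigmaHom (M ℓ) E`, `w = HauptU.Plug.wHom M ℓ E hℓ hℓM`, `u' = jE M E`
(`S18.K1Main.jE`).  The statement is the hypothesis `hinf` of `Modular.Datum.nodalDatum`: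

  `IsNodalChart π (α j)⁻¹ (P₁.comap toOverlapInf) (P₂.comap toOverlapInf)`.

* `jE_ne_zero`;
* `hinf_of_facts` : fixed `E`, canonical algebra structures `K1Main.algebraOL`; inputs: the
  level-`M` facts at the chart at infinity (`hprime`, `hD`: `LevelM`) and a modular equation
  over `O` (`PhiShape.IsShape`: `ChartInfAlt.exists_isShape_OE`); for ALL proofs `hσO`,
  `hσfrac`, `hwO`, `hwα` and ALL `U`, `hσu`, `hρ` (the primes `Datum.P₁`, `Datum.P₂` depend
  on them only through proofs);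
* `exists_hinf` : uniformly in the number field `E ⊇ S₀` (`ℓ > 3`), for the canonical algebra
  structures `K1Main.algebraOL`.

Proof: `ChartInfE.hinf_of_modEq` (`ε`-route, helper24 / helper114) with `Sat` (helper90: the
`q`-expansion of `1/j`), `ChartInfAlt.hK_inv` (Kronecker congruence at `1/j`),
`ChartInfAlt.root_of_isShape`, `LevelM.exists_levelM_facts`.
-/

set_option autoImplicit false
set_option linter.unusedSectionVars false
set_option linter.style.haveILetI false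
set_option linter.unusedVariables false
set_option synthInstance.maxHeartbeats 400000

open ModularCurve Polynomial

noncomputable section

namespace Fermat.Agent.S34.Modular.HinfE

open Fermat.Agent.S18.K1Defs Fermat.Agent.S18.K1Main Fermat.Agent.S30
open Fermat.Agent.S34 Fermat.Agent.S34.TwoPrimesRank Fermat.Agent.S34.HauptU.Plug
  Fermat.Agent.S34.TwoPrimesGauss

local notation "Qb" => AlgebraicClosure ℚ

/-- `j ≠ 0` in the level-`M` function field. -/
theorem jE_ne_zero (M : ℕ) [NeZero M] (E : IntermediateField ℚ Qb) : jE M E ≠ 0 := by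
  intro h
  have h1 : ((jE M E : LE M E) : LaurentSeries E) = 0 := by rw [h]; rfl
  rw [coe_jE, E2G1.coeffEmb_jq] at h1
  exact Sat.jqModC_ne_zero E h1

/-- **`hinf` of `Modular.Datum.nodalDatum` at `u' = jE M E`**, fixed `E`, canonical algebra
structures: from the level-`M` facts at the chart at infinity and a modular equation over
`OE A E`. -/
theorem hinf_of_facts (M ℓ : ℕ) [NeZero M] [NeZero ℓ] (hℓ : ℓ.Prime) (hℓM : ¬ ℓ ∣ M)
    (A : ValuationSubring Qb) (hA : A.LiesOverPrime ℓ)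
    (E : IntermediateField ℚ Qb) [Normal ℚ E] [IsDiscreteValuationRing (OE A E)]
    (π : OE A E) (hπ : Irreducible π) :
    letI := algebraOL (OE A E) E (LE M E)
    letI := algebraOL (OE A E) E (LE (M * ℓ) E)
    ∀ (hprime : Prime (piC (jE M E)⁻¹ π))
      (hD : IsDedekindDomain (Chart (OE A E) (jE M E)⁻¹ ⧸ Ideal.span {piC (jE M E)⁻¹ π}))
      (P : (OE A E)[X][X]) (hP : PhiShape.IsShape (OE A E) ℓ P)
      (hσO : ∀ r : OE A E, sigmaHom (M * ℓ) E (algebraMap (OE A E) (LE (M * ℓ) E) r)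
        = HahnSeries.C (algebraMap (OE A E) E r))
      (hσfrac : ∀ x : LE (M * ℓ) E, sigmaHom (M * ℓ) E x ∈ GaussDVR.fracField (OE A E) E)
      (U : LaurentSeries (OE A E))
      (hσu : sigmaHom (M * ℓ) E (alphaHom M ℓ E (jE M E)) = GaussDVR.iota (OE A E) E U)
      (hwO : ∀ r : OE A E, wHom M ℓ E hℓ hℓM (algebraMap (OE A E) (LE (M * ℓ) E) r)
        = algebraMap (OE A E) (LE (M * ℓ) E) r)
      (hwα : ∀ x : LE M E, sigmaHom (M * ℓ) E (wHom M ℓ E hℓ hℓM (alphaHom M ℓ E x))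
        = qExpand E ℓ (sigmaHom (M * ℓ) E (alphaHom M ℓ E x)))
      (hρ : GaussDVR.rho (OE A E) U ≠ 0),
      Nodal.IsNodalChart π (alphaHom M ℓ E (jE M E))⁻¹
        ((Datum.P₁ π hπ (alphaHom M ℓ E) (sigmaHom (M * ℓ) E) hσO hσfrac (jE M E) U hσu
          hρ).comap (Nodal.toOverlapInf (OE A E) (alphaHom M ℓ E (jE M E))))
        ((Datum.P₂ π hπ (alphaHom M ℓ E) (sigmaHom (M * ℓ) E) hσO hσfrac (jE M E) U hσu
          (wHom M ℓ E hℓ hℓM) hwO ℓ hwα hρ).comap
          (Nodal.toOverlapInf (OE A E) (alphaHom M ℓ E (jE M E)))) := by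
  letI := algebraOL (OE A E) E (LE M E)
  letI := algebraOL (OE A E) E (LE (M * ℓ) E)
  haveI := isScalarTower_OL (OE A E) E (LE M E)
  haveI := isScalarTower_OL (OE A E) E (LE (M * ℓ) E)
  haveI := Sat.charP_residue_OE' A E hℓ hA
  intro hprime hD P hP hσO hσfrac U hσu hwO hwα hρ
  exact ChartInfE.hinf_of_modEq π hπ (alphaHom M ℓ E) (alphaHom_algebraMap M ℓ E)
    (sigmaHom (M * ℓ) E) hσO hσfrac (jE M E) U hσu (wHom M ℓ E hℓ hℓM) hwO ℓ hwα hρ
    (Sat.XqO (OE A E)) (Sat.hσu_inv M ℓ E)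
    (jE_ne_zero M E) (wHom_wHom M ℓ E hℓ hℓM) hprime (Sat.hcop_inv _ ℓ) (Sat.hord_inv _)
    hℓ.two_le (Sat.hfrob_inv _ ℓ hℓ) (Sat.hrank_inv M ℓ E hℓ hℓM)
    P hP.monic hP.natDegree_eq (ChartInfAlt.natDegree_coeff_le_of_isShape hP)
    (ChartInfAlt.root_of_isShape (sigmaHom (M * ℓ) E) hσO (alphaHom M ℓ E (jE M E))
      (Sat.hσu_j M ℓ E) _ ℓ (hwα (jE M E)) hP)
    hD (ChartInfAlt.hK_inv A E ℓ hℓ hA M π hπ (alphaHom_algebraMap M ℓ E) hσO hσfrac (jE M E)
      (Sat.XqO (OE A E)) (Sat.hσu_inv M ℓ E) jq (coe_jE M E))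

set_option maxHeartbeats 8000000 in
/-- **`hinf` of `Modular.Datum.nodalDatum` at `u' = jE M E`, uniformly in the number field**
(`ℓ > 3`, `ℓ ∤ M`): there is a finite set `S₀ ⊆ ℚ̄` such that for every normal number field
`E ⊇ S₀` with `A ∩ E` a discrete valuation ring and every uniformiser `π`, the chart at
infinity of the two Gauss primes is nodal (canonical algebra structures `algebraOL`). -/
theorem exists_hinf (M ℓ : ℕ) [NeZero M] [NeZero ℓ] (hℓ : ℓ.Prime) (hℓM : ¬ ℓ ∣ M) (h3 : 3 < ℓ)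
    (A : ValuationSubring Qb) (hA : A.LiesOverPrime ℓ) :
    ∃ S₀ : Finset Qb, ∀ (E : IntermediateField ℚ Qb) [FiniteDimensional ℚ E] [Normal ℚ E]
      [IsDiscreteValuationRing (OE A E)], (∀ s ∈ S₀, s ∈ E) →
      ∀ (π : OE A E) (hπ : Irreducible π),
      letI := algebraOL (OE A E) E (LE M E)
      letI := algebraOL (OE A E) E (LE (M * ℓ) E)
      ∀ (hσO : ∀ r : OE A E, sigmaHom (M * ℓ) E (algebraMap (OE A E) (LE (M * ℓ) E) r)
          = HahnSeries.C (algebraMap (OE A E) E r))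
        (hσfrac : ∀ x : LE (M * ℓ) E, sigmaHom (M * ℓ) E x ∈ GaussDVR.fracField (OE A E) E)
        (U : LaurentSeries (OE A E))
        (hσu : sigmaHom (M * ℓ) E (alphaHom M ℓ E (jE M E)) = GaussDVR.iota (OE A E) E U)
        (hwO : ∀ r : OE A E, wHom M ℓ E hℓ hℓM (algebraMap (OE A E) (LE (M * ℓ) E) r)
          = algebraMap (OE A E) (LE (M * ℓ) E) r)
        (hwα : ∀ x : LE M E, sigmaHom (M * ℓ) E (wHom M ℓ E hℓ hℓM (alphaHom M ℓ E x))
          = qExpand E ℓ (sigmaHom (M * ℓ) E (alphaHom M ℓ E x)))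
        (hρ : GaussDVR.rho (OE A E) U ≠ 0),
        Nodal.IsNodalChart π (alphaHom M ℓ E (jE M E))⁻¹
          ((Datum.P₁ π hπ (alphaHom M ℓ E) (sigmaHom (M * ℓ) E) hσO hσfrac (jE M E) U hσu
            hρ).comap (Nodal.toOverlapInf (OE A E) (alphaHom M ℓ E (jE M E))))
          ((Datum.P₂ π hπ (alphaHom M ℓ E) (sigmaHom (M * ℓ) E) hσO hσfrac (jE M E) U hσu
            (wHom M ℓ E hℓ hℓM) hwO ℓ hwα hρ).comap
            (Nodal.toOverlapInf (OE A E) (alphaHom M ℓ E (jE M E)))) := by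
  classical
  haveI : Fact ℓ.Prime := ⟨hℓ⟩
  obtain ⟨S₁, hS₁⟩ := LevelM.exists_levelM_facts M hℓM h3 A hA
  obtain ⟨S₂, hS₂⟩ := ChartInfAlt.exists_isShape_OE hℓ A
  refine ⟨S₁ ∪ S₂, fun E _ _ _ hE π hπ => ?_⟩
  obtain ⟨-, -, -, hprime, -, hD, -, -⟩ :=
    hS₁ E (fun s hs => hE s (Finset.mem_union_left _ hs)) π hπ
  obtain ⟨P, hP⟩ := hS₂ E (fun s hs => hE s (Finset.mem_union_right _ hs))
  exact hinf_of_facts M ℓ hℓ hℓM A hA E π hπ hprime hD P hP

end Fermat.Agent.S34.Modular.HinfE
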