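import Mathlib
import Fermat.Agent.S34.Modular.KroneckerChart
import Fermat.Agent.S34.HauptU.Plug
import Fermat.Agent.Lib.Frobenius

/-!
# S34 / Program U: the Kronecker hypothesis `hK` in the plug-in vocabulary

`Modular/KroneckerChart.hK_redM` at the data of `HauptU/Plug` / `TwoPrimesRank`:

* `α = TwoPrimesRank.alphaHom M ℓ E`, `hαO = TwoPrimesRank.alphaHom_algebraMap M ℓ E`,
* `σ = HauptU.Plug.sigmaHom (M * ℓ) E`, `hσO = Plug.sigmaHom_algebraMap (M * ℓ) E`,
  `hσfrac = Plug.sigmaHom_mem_fracField (M * ℓ) E A`,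

with the Frobenius element supplied inside (`Lib.Frobenius.exists_isFrobeniusAt`), so that the
consumer only provides the coordinate `u'`, its integral expansion `U`, `hσu`, and one of

* `hfix : ∀ τ : Gq, TrivModE.galE E M τ u' = u'`      (`hK_plug_of_galE`), or
* `hx₀ : (u' : LaurentSeries E) = coeffEmb E x₀`       (`hK_plug_of_coeffEmb`), or
* `hx₀ : (v' : LaurentSeries E) = coeffEmb E x₀`, `u' = v'⁻¹`   (`hK_plug_inv_of_coeffEmb`).

The conclusion is verbatim the hypothesis `hK` of `ChartZero.isNodalChart_zero`,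
`Modular.Datum.*`, `HauptU.Datum.*` and `ChartInfAlt.isNodalChart_inv` at these data.
-/

set_option autoImplicit false
set_option linter.unusedSectionVars false
set_option linter.style.haveILetI false
set_option synthInstance.maxHeartbeats 400000

open ModularCurve

noncomputable section

namespace Fermat.Agent.S34.Modular.KroneckerInst

open Fermat.Agent.S30 Fermat.Agent.S18.K1Defs Fermat.Agent.S18.K1Top
open Fermat.Agent.S34 Fermat.Agent.S34.TwoPrimesGauss Fermat.Agent.S34.TwoPrimesRank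
open Fermat.Agent.S34.HauptU.Plug

local notation "Qb" => AlgebraicClosure ℚ
local notation "Gq" => (AlgebraicClosure ℚ ≃ₐ[ℚ] AlgebraicClosure ℚ)

variable (A : ValuationSubring Qb) (E : IntermediateField ℚ Qb) [Normal ℚ E]

/-- Fixedness under the action of `Gal(ℚ̄/ℚ)` gives fixedness of the `q`-expansion under every
automorphism of `E`. -/
theorem coeffMap_eq_of_galE (M : ℕ) (u' : LE M E)
    (hfix : ∀ τ : Gq, TrivModE.galE E M τ u' = u') (τ : E ≃ₐ[ℚ] E) :
    coeffMap (τ : E →+* E) (u' : LaurentSeries E) = (u' : LaurentSeries E) := by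
  haveI : Algebra.IsAlgebraic ℚ Qb := AlgebraicClosure.isAlgebraic ℚ
  haveI : IsAlgClosure ℚ Qb := ⟨inferInstance, inferInstance⟩
  haveI : Normal ℚ Qb := IsAlgClosure.normal ℚ Qb
  obtain ⟨τ', rfl⟩ := AlgEquiv.restrictNormalHom_surjective (F := ℚ) (K₁ := E) Qb τ
  have h := congrArg (fun x : LE M E => (x : LaurentSeries E)) (hfix τ')
  exact h

/-- `hσα` for the plug-in data: `σ (α x) = x` as `q`-expansions.  (Stated through
`sigmaHom_apply`: the direct term `coe_heckeAlphaBar M ℓ x` at this type makes the KERNEL time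
out.) -/
theorem sigmaHom_alphaHom (M ℓ : ℕ) [NeZero M] [NeZero ℓ] (x : LE M E) :
    sigmaHom (M * ℓ) E (alphaHom M ℓ E x) = (x : LaurentSeries E) :=
  (sigmaHom_apply (M * ℓ) E _).trans (coe_heckeAlphaBar M ℓ x)

variable [IsDiscreteValuationRing (OE A E)]
variable (M ℓ : ℕ) [NeZero M] [NeZero ℓ]
  [Algebra (OE A E) (LE M E)] [IsScalarTower (OE A E) E (LE M E)]
  [Algebra (OE A E) (LE (M * ℓ) E)] [IsScalarTower (OE A E) E (LE (M * ℓ) E)]

set_option maxHeartbeats 1600000 in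
/-- **`hK` in the plug-in vocabulary**, for a level-`M` coordinate whose `q`-expansion is fixed
by every automorphism of `E`. -/
theorem hK_plug (hℓ : ℓ.Prime) (hA : A.LiesOverPrime ℓ) (ϖ : OE A E) (hϖ : Irreducible ϖ)
    (u' : LE M E) (U : LaurentSeries (OE A E))
    (hσu : sigmaHom (M * ℓ) E (alphaHom M ℓ E u') = GaussDVR.iota (OE A E) E U)
    (hfix : ∀ τ : E ≃ₐ[ℚ] E, coeffMap (τ : E →+* E) (u' : LaurentSeries E)
      = (u' : LaurentSeries E)) :
    ∀ r : Chart (OE A E) u', ∃ s : Chart (OE A E) u',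
      qExpand (IsLocalRing.ResidueField (OE A E)) ℓ
          (redM ϖ hϖ (alphaHom M ℓ E) (alphaHom_algebraMap M ℓ E) (sigmaHom (M * ℓ) E)
            (sigmaHom_algebraMap (M * ℓ) E) (sigmaHom_mem_fracField (M * ℓ) E A) u' U hσu r)
        = redM ϖ hϖ (alphaHom M ℓ E) (alphaHom_algebraMap M ℓ E) (sigmaHom (M * ℓ) E)
            (sigmaHom_algebraMap (M * ℓ) E) (sigmaHom_mem_fracField (M * ℓ) E A) u' U hσu s
          ^ ℓ := by
  obtain ⟨φ, hφ⟩ := Fermat.Agent.Lib.Frobenius.exists_isFrobeniusAt A hℓ hA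
  exact KroneckerChart.hK_redM A E ℓ hℓ hA hφ M ϖ hϖ (alphaHom M ℓ E)
    (alphaHom_algebraMap M ℓ E) (sigmaHom (M * ℓ) E) (sigmaHom_algebraMap (M * ℓ) E)
    (sigmaHom_mem_fracField (M * ℓ) E A) u' U hσu (sigmaHom_alphaHom E M ℓ) hfix

set_option maxHeartbeats 1600000 in
/-- `hK_plug` from fixedness under `TrivModE.galE` (the shape of `Plug.galE_h2E`, ...). -/
theorem hK_plug_of_galE (hℓ : ℓ.Prime) (hA : A.LiesOverPrime ℓ) (ϖ : OE A E)
    (hϖ : Irreducible ϖ) (u' : LE M E) (U : LaurentSeries (OE A E))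
    (hσu : sigmaHom (M * ℓ) E (alphaHom M ℓ E u') = GaussDVR.iota (OE A E) E U)
    (hfix : ∀ τ : Gq, TrivModE.galE E M τ u' = u') :
    ∀ r : Chart (OE A E) u', ∃ s : Chart (OE A E) u',
      qExpand (IsLocalRing.ResidueField (OE A E)) ℓ
          (redM ϖ hϖ (alphaHom M ℓ E) (alphaHom_algebraMap M ℓ E) (sigmaHom (M * ℓ) E)
            (sigmaHom_algebraMap (M * ℓ) E) (sigmaHom_mem_fracField (M * ℓ) E A) u' U hσu r)
        = redM ϖ hϖ (alphaHom M ℓ E) (alphaHom_algebraMap M ℓ E) (sigmaHom (M * ℓ) E)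
            (sigmaHom_algebraMap (M * ℓ) E) (sigmaHom_mem_fracField (M * ℓ) E A) u' U hσu s
          ^ ℓ :=
  hK_plug A E M ℓ hℓ hA ϖ hϖ u' U hσu (coeffMap_eq_of_galE E M u' hfix)

set_option maxHeartbeats 1600000 in
/-- `hK_plug` for a coordinate with rational `q`-expansion (`u' = jE M E`, `s_rE`, ...). -/
theorem hK_plug_of_coeffEmb (hℓ : ℓ.Prime) (hA : A.LiesOverPrime ℓ) (ϖ : OE A E)
    (hϖ : Irreducible ϖ) (u' : LE M E) (U : LaurentSeries (OE A E))
    (hσu : sigmaHom (M * ℓ) E (alphaHom M ℓ E u') = GaussDVR.iota (OE A E) E U)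
    (x₀ : LaurentSeries ℚ) (hx₀ : (u' : LaurentSeries E) = coeffEmb E x₀) :
    ∀ r : Chart (OE A E) u', ∃ s : Chart (OE A E) u',
      qExpand (IsLocalRing.ResidueField (OE A E)) ℓ
          (redM ϖ hϖ (alphaHom M ℓ E) (alphaHom_algebraMap M ℓ E) (sigmaHom (M * ℓ) E)
            (sigmaHom_algebraMap (M * ℓ) E) (sigmaHom_mem_fracField (M * ℓ) E A) u' U hσu r)
        = redM ϖ hϖ (alphaHom M ℓ E) (alphaHom_algebraMap M ℓ E) (sigmaHom (M * ℓ) E)
            (sigmaHom_algebraMap (M * ℓ) E) (sigmaHom_mem_fracField (M * ℓ) E A) u' U hσu s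
          ^ ℓ :=
  hK_plug A E M ℓ hℓ hA ϖ hϖ u' U hσu (fun τ => by rw [hx₀]; exact coeffMap_coeffEmb τ x₀)

set_option maxHeartbeats 1600000 in
/-- `hK_plug` for the inverse of a coordinate with rational `q`-expansion
(`u' = (jE M E)⁻¹`, `h_rE = (s_rE)⁻¹`, ...). -/
theorem hK_plug_inv_of_coeffEmb (hℓ : ℓ.Prime) (hA : A.LiesOverPrime ℓ) (ϖ : OE A E)
    (hϖ : Irreducible ϖ) (u' : LE M E) (U : LaurentSeries (OE A E))
    (hσu : sigmaHom (M * ℓ) E (alphaHom M ℓ E u') = GaussDVR.iota (OE A E) E U)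
    (v' : LE M E) (hv : u' = v'⁻¹)
    (x₀ : LaurentSeries ℚ) (hx₀ : (v' : LaurentSeries E) = coeffEmb E x₀) :
    ∀ r : Chart (OE A E) u', ∃ s : Chart (OE A E) u',
      qExpand (IsLocalRing.ResidueField (OE A E)) ℓ
          (redM ϖ hϖ (alphaHom M ℓ E) (alphaHom_algebraMap M ℓ E) (sigmaHom (M * ℓ) E)
            (sigmaHom_algebraMap (M * ℓ) E) (sigmaHom_mem_fracField (M * ℓ) E A) u' U hσu r)
        = redM ϖ hϖ (alphaHom M ℓ E) (alphaHom_algebraMap M ℓ E) (sigmaHom (M * ℓ) E)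
            (sigmaHom_algebraMap (M * ℓ) E) (sigmaHom_mem_fracField (M * ℓ) E A) u' U hσu s
          ^ ℓ :=
  hK_plug_of_galE A E M ℓ hℓ hA ϖ hϖ u' U hσu
    (fun τ => by rw [hv]; exact galE_inv_eq_self_of_coe M E τ v' x₀ hx₀)

end Fermat.Agent.S34.Modular.KroneckerInst
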